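import Fermat.Agent.LT.Spec.Top
import Fermat.Agent.LT.FA.IwHilb

set_option autoImplicit false
set_option linter.unusedSectionVars false
set_option linter.unusedVariables false

/-!
# Existence on the `k`-side from a form on the `E`-side
-/

open scoped ENNReal NNReal MatrixGroups InnerProductSpace
open MeasureTheory ProbabilityTheory NumberField Matrix

universe w u u' i'

namespace Fermat.Agent.LT.Spec

open Fermat.Agent.LT.FA Fermat.Agent.LT.Sp Fermat.Agent.LT.Op Fermat.Agent.LT.Mp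
open Fermat.Agent.LT.Glob Fermat.Agent.LT.Mp.Ctx

section Gen

theorem commute_lcO_supp {H MP : Type*} [NormedAddCommGroup H] [InnerProductSpace ℂ H]
    {T : H →L[ℂ] H} {O : MP → H →L[ℂ] H} (A : MP →₀ ℂ)
    (h : ∀ p ∈ A.support, T * O p = O p * T) : T * lcO O A = lcO O A * T := by
  rw [lcO, Finsupp.linearCombination_apply, Finsupp.sum, Finset.mul_sum, Finset.sum_mul]
  refine Finset.sum_congr rfl fun p hp => ?_
  rw [mul_smul_comm, smul_mul_assoc, h p hp]

variable {F : Type*} [Field F] [NumberField F] {D : Type*} [MulAction (GL (Fin 2) F) D]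
  [MeasurableSpace D] [DiscreteMeasurableSpace D] [Countable D] [FinPart F D]
  [IsTotallyComplex F] {w : HF F × D → ℝ≥0}

/-- operators on the finite part commuting with the family -/
theorem commute_famT [IsFiniteMeasure (wtM (muY F D) w)]
    (hw : IsWt PGL(2, F) (muY F D) w) {MP J P : Type*} (S : FSym F D MP)
    (A : MP →₀ ℂ) (κ : J → DKer F D) (b : P → InfinitePlace F) (c : P → IKer) (jz : J)
    {κ' : DKer F D} (h1 : ∀ j, j ≠ jz → κ'.comp (κ j) = (κ j).comp κ')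
    (h2 : ∀ p ∈ A.support, κ'.comp (S.m p) = (S.m p).comp κ') (i : Idx J P)
    (hi : i ≠ .fin jz) : Commute (opD hw κ') (famT hw S A κ b c i) := by
  cases i with
  | A => exact commute_lcO_supp A fun p hp => opD_opK_comm hw _ _ _ (h2 p hp)
  | fin j => exact opD_comm hw _ _ (h1 j fun h => hi (by rw [h]))
  | arch a => exact (opA_opD_comm hw _ _ _).symm

theorem isSymmetric_opD [IsFiniteMeasure (wtM (muY F D) w)]
    (hw : IsWt PGL(2, F) (muY F D) w) {κ : DKer F D} (h : κ.adj = κ) :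
    ((opD hw κ : HA PGL(2, F) (muY F D) →L[ℂ] HA PGL(2, F) (muY F D)) :
      HA PGL(2, F) (muY F D) →ₗ[ℂ] HA PGL(2, F) (muY F D)).IsSymmetric := by
  apply isSymmetric_of_adjoint
  rw [opD_adj, h]

end Gen

variable {k : Type u} {E : Type u'} [Field k] [Field E] [Algebra k E] [NumberField k]
  [NumberField E] [IsTotallyComplex k] [IsTotallyComplex E] {ι : Type i'} {X : Ctx.{w} k E ι}
  {S₀ : Submonoid X.Sym} {J P : Type*}
  [MeasurableSpace (LocFam.D X.UE)] [DiscreteMeasurableSpace (LocFam.D X.UE)]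
  [Countable (LocFam.D X.UE)]
  [MeasurableSpace (LocFam.D X.Uk)] [DiscreteMeasurableSpace (LocFam.D X.Uk)]
  [Countable (LocFam.D X.Uk)]
  {wE : HF E × LocFam.D X.UE → ℝ≥0} {wk : HF k × LocFam.D X.Uk → ℝ≥0}
  [IsFiniteMeasure (wtM (muY E (LocFam.D X.UE)) wE)]
  [IsFiniteMeasure (wtM (muY k (LocFam.D X.Uk)) wk)]

/-- **Existence on the `k`-side from a form on the `E`-side.** -/
theorem spec_out (pl : Fin 3 → InfinitePlace k → InfinitePlace E)
    (hpl : Function.Injective fun p : Fin 3 × InfinitePlace k => pl p.1 p.2)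
    (bw : InfinitePlace E → InfinitePlace k) (hbw : ∀ a, ∃ j, pl j (bw a) = a)
    (hwE : IsWt PGL(2, E) (muY E (LocFam.D X.UE)) wE)
    (hwk : IsWt PGL(2, k) (muY k (LocFam.D X.Uk)) wk)
    (Θ : TwD PGL(2, E) (muY E (LocFam.D X.UE)))
    (A : MPt X S₀ →₀ ℂ) (s : J → S₀) (aE : P → InfinitePlace E) (c : P → IKer) (jz : J)
    (u : ℕ → S₀)
    -- the killing operator
    (hbE : ∃ C : ℝ, ∀ x y, ‖perK PGL(2, E) (lk (symE S₀).kO A) x y‖ ≤ C)
    (hbK : ∃ C : ℝ, ∀ x y, ‖perK PGL(2, k) (lk (symK pl S₀).kO A) x y‖ ≤ C)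
    (hAE : ContinuousLinearMap.adjoint (lcO ((symE S₀).O hwE) A) = lcO ((symE S₀).O hwE) A)
    (hAK : ContinuousLinearMap.adjoint (lcO ((symK pl S₀).O hwk) A) =
      lcO ((symK pl S₀).O hwk) A)
    -- the Hecke operators
    (hsE : ∀ j, (ME (s j).1).toDKer.adj = (ME (s j).1).toDKer)
    (hsK : ∀ j, (MK (s j).1).toDKer.adj = (MK (s j).1).toDKer)
    -- the recursion at the place `v₀`
    {q : ℝ} (hq : 0 < q)
    (hrE : ∀ m, (ME (s jz).1).toDKer.comp (PE (u (m + 1)).1).toDKer =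
      (PE (u (m + 2)).1).toDKer.add ((PE (u m).1).toDKer.cmul q))
    (hrK : ∀ m, (MK (s jz).1).toDKer.comp (PK (u (m + 1)).1).toDKer =
      (PK (u (m + 2)).1).toDKer.add ((PK (u m).1).toDKer.cmul q))
    -- the geometric sides
    (good : MPt X S₀ → Prop)
    (hgE : ∀ r, good r → ∫⁻ y, ∑' g : PGL(2, E), ‖(symE S₀).kM r y (g • Θ.θ y)‖ₑ
      ∂(wtM (muY E (LocFam.D X.UE)) wE) ≠ ∞)
    (hgK : ∀ r, good r → ∫⁻ y, ∑' g : PGL(2, k), ‖(symK pl S₀).kM r y (g • y)‖ₑ
      ∂(wtM (muY k (LocFam.D X.Uk)) wk) ≠ ∞)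
    (hgood : ∀ p p' : MPt X S₀, ∃ m0, ∀ m, m0 ≤ m → good (mulP p (UP u m p')))
    (hmatch : ∀ r, good r →
      ∫ y, ∑' g : PGL(2, E), (symE S₀).kM r y (g • Θ.θ y) ∂(wtM (muY E (LocFam.D X.UE)) wE) =
      ∫ y, ∑' g : PGL(2, k), (symK pl S₀).kM r y (g • y) ∂(wtM (muY k (LocFam.D X.Uk)) wk))
    -- the system of eigenvalues
    (lam : Idx J P → ℝ) (hlA : lam .A ≠ 0) (hlz : lam (.fin jz) ^ 2 < 4 * q)
    -- the operators at `v₀` on the `E`-side
    (gZ ge go : Fin 3 → LocFam.GFun X.UE)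
    (hIw : IwOps (fun j => opD hwE (gZ j).toDKer) (fun j => opD hwE (ge j).toDKer)
      (fun j => opD hwE (go j).toDKer) (opD hwE (PE (u 0).1).toDKer) (Θ.op hwE) (q : ℂ))
    (hZ0 : (gZ 0).toDKer = (ME (s jz).1).toDKer) (hZs : ∀ j, (gZ j).toDKer.adj = (gZ j).toDKer)
    (hec : ∀ i j, j ≠ jz → Commute (ge i) (ME (s j).1))
    (heA : ∀ i, ∀ p ∈ A.support, Commute (ge i) (ME p.2.1))
    (hoc : ∀ i j, j ≠ jz → Commute (go i) (ME (s j).1))
    (hoA : ∀ i, ∀ p ∈ A.support, Commute (go i) (ME p.2.1))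
    -- the automorphism
    (hσs : ∀ j, j ≠ jz → ∃ j', j' ≠ jz ∧ opD hwE (ME (s j).1).toDKer * Θ.op hwE =
      Θ.op hwE * opD hwE (ME (s j').1).toDKer ∧ lam (.fin j') = lam (.fin j))
    (hσa : ∀ a, ∃ a', opA hwE (aE a) (c a) * Θ.op hwE = Θ.op hwE * opA hwE (aE a') (c a') ∧
      lam (.arch a') = lam (.arch a))
    (hAeig : ∀ f : HA PGL(2, E) (muY E (LocFam.D X.UE)),
      (∀ j, j ≠ jz → opD hwE (ME (s j).1).toDKer f = (lam (.fin j) : ℂ) • f) →
      (∀ a, opA hwE (aE a) (c a) f = (lam (.arch a) : ℂ) • f) →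
      lcO ((symE S₀).O hwE) A f = (lam .A : ℂ) • f)
    -- the form
    {x0 : HA PGL(2, E) (muY E (LocFam.D X.UE))} (hx0 : x0 ≠ 0)
    (hxs : ∀ j, j ≠ jz → opD hwE (ME (s j).1).toDKer x0 = (lam (.fin j) : ℂ) • x0)
    (hxa : ∀ a, opA hwE (aE a) (c a) x0 = (lam (.arch a) : ℂ) • x0)
    (hxZ : ∀ j, opD hwE (gZ j).toDKer x0 = (lam (.fin jz) : ℂ) • x0)
    (hxe : ∀ j, opD hwE (ge j).toDKer x0 = x0)
    (hxB : opD hwE (PE (u 0).1).toDKer x0 = x0)
    (huniq : ∀ y : HA PGL(2, E) (muY E (LocFam.D X.UE)),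
      lcO ((symE S₀).O hwE) A y = (lam .A : ℂ) • y →
      (∀ j, j ≠ jz → opD hwE (ME (s j).1).toDKer y = (lam (.fin j) : ℂ) • y) →
      (∀ a, opA hwE (aE a) (c a) y = (lam (.arch a) : ℂ) • y) →
      (∀ j, opD hwE (gZ j).toDKer y = (lam (.fin jz) : ℂ) • y) →
      (∀ j, opD hwE (ge j).toDKer y = y) → opD hwE (PE (u 0).1).toDKer y = y →
      Θ.op hwE y = y) :
    FiniteDimensional ℂ (jointE (TKf pl bw hwk A s aE c) lam) ∧
      jointE (TKf pl bw hwk A s aE c) lam ≠ ⊥ := by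
  have hdc : ∀ {φ ψ : LocFam.GFun X.UE}, Commute φ ψ →
      φ.toDKer.comp ψ.toDKer = ψ.toDKer.comp φ.toDKer := fun h => LocFam.GFun.toDKer_comm h
  have hall : ∀ {f : HA PGL(2, E) (muY E (LocFam.D X.UE))},
      (∀ j, j ≠ jz → opD hwE (ME (s j).1).toDKer f = (lam (.fin j) : ℂ) • f) →
      (∀ a, opA hwE (aE a) (c a) f = (lam (.arch a) : ℂ) • f) →
      ∀ i, i ≠ Idx.fin jz → TEf hwE A s aE c i f = (lam i : ℂ) • f := by
    intro f h1 h2 i hi
    cases i with
    | A => exact hAeig f h1 h2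
    | fin j => exact h1 j fun h => hi (by rw [h])
    | arch a => exact h2 a
  have key := spec_top pl hpl bw hbw hwE hwk Θ A s aE c jz u hbE hbK hAE hAK hsE hsK hq hrE hrK
    good hgE hgK hgood hmatch lam hlA hlz ?_
  · refine ⟨key.1, ?_⟩
    obtain ⟨x, hx, hne⟩ := key.2
    intro hbot
    rw [hbot, Submodule.mem_bot] at hx
    exact hne (by rw [hx, map_zero, inner_zero_right])
  · intro _
    refine cTr_ne_zero_of_iwOps (isCommSymm_TEf hwE A s aE c hAE hsE) (iA := Idx.A)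
      (iz := Idx.fin jz) (by simp) (isHS_lcO hwE (symE S₀) A hbE).isCompactOperator hlA hq hlz hIw
      (by rw [hZ0]; rfl) (fun j => isSymmetric_opD hwE (hZs j))
      (fun i => commute_famT hwE (symE S₀) A _ aE c jz (fun j hj => hdc (hec i j hj))
        fun p hp => hdc (heA i p hp))
      (fun i => commute_famT hwE (symE S₀) A _ aE c jz (fun j hj => hdc (hoc i j hj))
        fun p hp => hdc (hoA i p hp))
      (commute_famT hwE (symE S₀) A _ aE c jz (fun j _ => hdc (ME_comm_PE _ _).symm)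
        fun p _ => hdc (ME_comm_PE _ _).symm) ?_ hx0 (hall hxs hxa) hxZ hxe hxB ?_
    · intro x hx
      refine hall (fun j hj => ?_) fun a => ?_
      · obtain ⟨j', hj', h1, h2⟩ := hσs j hj
        have h3 := congrArg (fun T : HA PGL(2, E) (muY E (LocFam.D X.UE)) →L[ℂ]
          HA PGL(2, E) (muY E (LocFam.D X.UE)) => T x) h1
        have h4 : opD hwE (ME (s j').1).toDKer x = (lam (.fin j') : ℂ) • x :=
          hx (.fin j') (by simp [hj'])
        have h5 : opD hwE (ME (s j).1).toDKer (Θ.op hwE x) =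
            Θ.op hwE (opD hwE (ME (s j').1).toDKer x) := h3
        rw [h5, h4, map_smul, h2]
      · obtain ⟨a', h1, h2⟩ := hσa a
        have h3 := congrArg (fun T : HA PGL(2, E) (muY E (LocFam.D X.UE)) →L[ℂ]
          HA PGL(2, E) (muY E (LocFam.D X.UE)) => T x) h1
        have h4 : opA hwE (aE a') (c a') x = (lam (.arch a') : ℂ) • x :=
          hx (.arch a') (by simp)
        have h5 : opA hwE (aE a) (c a) (Θ.op hwE x) =
            Θ.op hwE (opA hwE (aE a') (c a') x) := h3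
        rw [h5, h4, map_smul, h2]
    · intro y hy hZ he hB
      exact huniq y (hy .A (by simp)) (fun j hj => hy (.fin j) (by simp [hj]))
        (fun a => hy (.arch a) (by simp)) hZ he hB

end Fermat.Agent.LT.Spec
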