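import Fermat.Agent.LT.Op.Alg

set_option autoImplicit false
set_option linter.unusedSectionVars false
set_option linter.unusedVariables false

/-!
# The commutative algebra of invariant kernels, and the product over the places above
-/

open MeasureTheory NumberField

namespace Fermat.Agent.LT.Spec

open Fermat.Agent.LT.Op

/-- associativity -/
theorem comp_assoc_k (a b c : IKer) (p z : H3) :
    (IKer.comp (IKer.comp a b) c).k p z = (IKer.comp a (IKer.comp b c)).k p z := by
  have hc : Continuous fun q : H3 => c.k q z := by
    have h : Continuous fun q : H3 => ((q, z) : H3 × H3) := continuous_id.prodMk continuous_const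
    exact c.cont.comp h
  have h := IKer.comp_op a b (f := fun q => c.k q z) hc.locallyIntegrable p
  exact h

/-- kernels as functions -/
def KS := {f : H3 → H3 → ℝ // ∃ κ : IKer, κ.k = f}

/-- the function of a kernel -/
def kq (κ : IKer) : KS := ⟨κ.k, κ, rfl⟩

theorem kq_eq_iff {a b : IKer} : kq a = kq b ↔ ∀ p q, a.k p q = b.k p q := by
  constructor
  · intro h p q
    exact congrFun (congrFun (congrArg Subtype.val h) p) q
  · intro h
    exact Subtype.ext (funext fun p => funext fun q => h p q)

/-- composition -/
noncomputable def KS.mul (f g : KS) : KS :=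
  ⟨fun p q => ∫ r, f.1 p r * g.1 r q, by
    obtain ⟨f, a, rfl⟩ := f
    obtain ⟨g, b, rfl⟩ := g
    exact ⟨IKer.comp a b, rfl⟩⟩

theorem kq_comp (a b : IKer) : kq (IKer.comp a b) = (kq a).mul (kq b) := rfl

theorem exists_kq (f : KS) : ∃ a, kq a = f := by
  obtain ⟨f, a, rfl⟩ := f
  exact ⟨a, rfl⟩

instance : Std.Associative KS.mul := ⟨fun f g h => by
  obtain ⟨a, rfl⟩ := exists_kq f
  obtain ⟨b, rfl⟩ := exists_kq g
  obtain ⟨c, rfl⟩ := exists_kq h
  rw [← kq_comp, ← kq_comp, ← kq_comp, ← kq_comp, kq_eq_iff]
  exact comp_assoc_k a b c⟩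

instance : Std.Commutative KS.mul := ⟨fun f g => by
  obtain ⟨a, rfl⟩ := exists_kq f
  obtain ⟨b, rfl⟩ := exists_kq g
  rw [← kq_comp, ← kq_comp, kq_eq_iff]
  exact IKer.comp_comm_k a b⟩

section

variable {F : Type*} [Field F] [NumberField F]

theorem archK_congr {κs κs' : InfinitePlace F → IKer} (h : ∀ j, kq (κs j) = kq (κs' j))
    (x y : HF F) : archK κs x y = archK κs' x y :=
  Finset.prod_congr rfl fun j _ => kq_eq_iff.mp (h j) _ _

end

section Three

variable {I J : Type*} (pl : Fin 3 → I → J)

/-- the kernel on the lower field -/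
noncomputable def kk3 (κ : J → IKer) (v : I) : IKer :=
  IKer.comp (κ (pl 0 v)) (IKer.comp (κ (pl 1 v)) (κ (pl 2 v)))

theorem kk3_mul (κ κ' : J → IKer) (v : I) : kq (kk3 pl (fun w => IKer.comp (κ w) (κ' w)) v) =
    kq (IKer.comp (kk3 pl κ v) (kk3 pl κ' v)) := by
  simp only [kk3, kq_comp]
  ac_rfl

open Classical in
theorem kk3_update (hpl : Function.Injective fun p : Fin 3 × I => pl p.1 p.2) (κ : J → IKer)
    (j : Fin 3) (v v' : I) (κ' : IKer) :
    kq (kk3 pl (Function.update κ (pl j v) (IKer.comp κ' (κ (pl j v)))) v') =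
      kq (Function.update (kk3 pl κ) v (IKer.comp κ' (kk3 pl κ v)) v') := by
  have hne : ∀ {j j' : Fin 3} {v v' : I}, (j, v) ≠ (j', v') → pl j v ≠ pl j' v' :=
    fun h h' => h (hpl h')
  by_cases h : v' = v
  · subst h
    rw [Function.update_self]
    fin_cases j
    · simp only [kk3, Fin.zero_eta, Fin.isValue]
      rw [Function.update_self, Function.update_of_ne (hne (by simp)),
        Function.update_of_ne (hne (by simp))]
      simp only [kq_comp]
      generalize kq (κ (pl 0 v')) = a
      generalize kq (κ (pl 1 v')) = b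
      generalize kq (κ (pl 2 v')) = c
      ac_rfl
    · simp only [kk3, Fin.mk_one, Fin.isValue]
      rw [Function.update_self, Function.update_of_ne (hne (by simp)),
        Function.update_of_ne (hne (by simp))]
      simp only [kq_comp]
      generalize kq (κ (pl 0 v')) = a
      generalize kq (κ (pl 1 v')) = b
      generalize kq (κ (pl 2 v')) = c
      ac_rfl
    · simp only [kk3, Fin.reduceFinMk, Fin.isValue]
      rw [Function.update_self, Function.update_of_ne (hne (by simp)),
        Function.update_of_ne (hne (by simp))]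
      simp only [kq_comp]
      generalize kq (κ (pl 0 v')) = a
      generalize kq (κ (pl 1 v')) = b
      generalize kq (κ (pl 2 v')) = c
      ac_rfl
  · rw [Function.update_of_ne h]
    simp only [kk3]
    rw [Function.update_of_ne (hne (by simp [h])), Function.update_of_ne (hne (by simp [h])),
      Function.update_of_ne (hne (by simp [h]))]

end Three

end Fermat.Agent.LT.Spec
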