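import Fermat.Agent.LT.Spec.Side
import Fermat.Agent.LT.Spec.KAlg
import Fermat.Agent.LT.Mp.Gf
import Mathlib.MeasureTheory.Measure.SeparableMeasure

set_option autoImplicit false
set_option linter.unusedSectionVars false
set_option linter.unusedVariables false

/-!
# The spectral comparison for the symbols of a context
-/

open scoped ENNReal NNReal MatrixGroups InnerProductSpace
open MeasureTheory ProbabilityTheory NumberField Matrix

universe w u u' i'

namespace Fermat.Agent.LT.Spec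

open Fermat.Agent.LT.FA Fermat.Agent.LT.Sp Fermat.Agent.LT.Op Fermat.Agent.LT.Mp
open Fermat.Agent.LT.Glob Fermat.Agent.LT.Mp.Ctx

/-- the identity automorphism gives the identity operator -/
theorem refl_op {G Y : Type*} [Group G] [MulAction G Y] [MeasurableSpace Y]
    [MeasurableConstSMul G Y] {μ : Measure Y} [SMulInvariantMeasure G Y μ] [Countable G]
    {w : Y → ℝ≥0} (hw : IsWt G μ w) : (TwD.refl G μ).op hw = 1 := by
  symm
  rw [TwD.op_eq_iff]
  intro f
  exact Filter.Eventually.of_forall fun y => rfl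

section Sep

variable {F : Type*} [Field F] [NumberField F] {D : Type*} [MulAction (GL (Fin 2) F) D]
  [MeasurableSpace D] [DiscreteMeasurableSpace D] [Countable D] [FinPart F D]
  [IsTotallyComplex F] {w : HF F × D → ℝ≥0}

instance instSepLp [IsFiniteMeasure (wtM (muY F D) w)] :
    TopologicalSpace.SeparableSpace (Lp ℂ 2 (wtM (muY F D) w)) := by
  have : Fact ((2 : ℝ≥0∞) ≠ ∞) := ⟨by norm_num⟩
  infer_instance

theorem isSymmetric_of_adjoint {H : Type*} [NormedAddCommGroup H] [InnerProductSpace ℂ H]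
    [CompleteSpace H] {T : H →L[ℂ] H} (h : ContinuousLinearMap.adjoint T = T) :
    (T : H →ₗ[ℂ] H).IsSymmetric := by
  intro x y
  change ⟪T x, y⟫_ℂ = ⟪x, T y⟫_ℂ
  conv_lhs => rw [← h]
  exact ContinuousLinearMap.adjoint_inner_left T y x

/-- the operator of a combination with bounded automorphic kernel is Hilbert–Schmidt -/
theorem isHS_lcO [IsFiniteMeasure (wtM (muY F D) w)]
    (hw : IsWt PGL(2, F) (muY F D) w) {MP : Type*} (S : FSym F D MP) (A : MP →₀ ℂ)
    (hbdd : ∃ C : ℝ, ∀ x y, ‖perK PGL(2, F) (lk S.kO A) x y‖ ≤ C) :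
    IsHS (lcO (S.O hw) A) := by
  obtain ⟨C, hC⟩ := hbdd
  have h1 : KRep (lcO (S.O hw) A) (lk S.kO A) := kRep_lcO hw (fun p => kRep_opK hw _ _) A
  have h2 : IsL2Ker₂ (wtM (muY F D) w) (perK PGL(2, F) (lk S.kO A)) :=
    isL2Ker₂_of_bound (measurable_perK h1.meas).stronglyMeasurable hC
  exact h1.isHS hw h2.toIsL2Ker

theorem commute_lcO {H MP : Type*} [NormedAddCommGroup H] [InnerProductSpace ℂ H]
    {T : H →L[ℂ] H} {O : MP → H →L[ℂ] H} (h : ∀ p, T * O p = O p * T) (A : MP →₀ ℂ) :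
    T * lcO O A = lcO O A * T := by
  induction A using Finsupp.induction_linear with
  | zero => rw [lcO_zero, mul_zero, zero_mul]
  | add X Y hX hY => rw [lcO_add, mul_add, add_mul, hX, hY]
  | single p c => rw [lcO_single, mul_smul_comm, smul_mul_assoc, h]

/-- the index set of the commuting family -/
inductive Idx (J : Type*) (P : Type*)
  | A : Idx J P
  | fin (j : J) : Idx J P
  | arch (a : P) : Idx J P

/-- the commuting family -/
noncomputable def famT (hw : IsWt PGL(2, F) (muY F D) w) {MP J P : Type*} (S : FSym F D MP)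
    (A : MP →₀ ℂ) (κ : J → DKer F D) (b : P → InfinitePlace F) (c : P → IKer) :
    Idx J P → HA PGL(2, F) (muY F D) →L[ℂ] HA PGL(2, F) (muY F D)
  | .A => lcO (S.O hw) A
  | .fin j => opD hw (κ j)
  | .arch a => opA hw (b a) (c a)

theorem isCommSymm_famT [IsFiniteMeasure (wtM (muY F D) w)]
    (hw : IsWt PGL(2, F) (muY F D) w) {MP J P : Type*} (S : FSym F D MP)
    (A : MP →₀ ℂ) (κ : J → DKer F D) (b : P → InfinitePlace F) (c : P → IKer)
    (hA : ContinuousLinearMap.adjoint (lcO (S.O hw) A) = lcO (S.O hw) A)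
    (hs : ∀ j, (κ j).adj = κ j) (hκ : ∀ j j', (κ j).comp (κ j') = (κ j').comp (κ j))
    (hm : ∀ j p, (κ j).comp (S.m p) = (S.m p).comp (κ j)) :
    IsCommSymm (famT hw S A κ b c) := by
  have cA : ∀ i : Idx J P, famT hw S A κ b c i * lcO (S.O hw) A =
      lcO (S.O hw) A * famT hw S A κ b c i := by
    intro i
    cases i with
    | A => rfl
    | fin j => exact commute_lcO (fun p => opD_opK_comm hw _ _ _ (hm j p)) A
    | arch a => exact commute_lcO (fun p => opA_opK_comm hw _ _ _ _) A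
  have cc : ∀ i j : Idx J P, famT hw S A κ b c i * famT hw S A κ b c j =
      famT hw S A κ b c j * famT hw S A κ b c i := by
    intro i j
    cases i with
    | A => exact (cA j).symm
    | fin i =>
      cases j with
      | A => exact cA _
      | fin j => exact opD_comm hw _ _ (hκ i j)
      | arch a => exact (opA_opD_comm hw _ _ _).symm
    | arch a =>
      cases j with
      | A => exact cA _
      | fin j => exact opA_opD_comm hw _ _ _
      | arch a' => exact opA_comm hw _ _ _ _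
  refine ⟨fun i => ?_, fun i j x => ?_⟩
  · apply isSymmetric_of_adjoint
    cases i with
    | A => exact hA
    | fin j =>
      show ContinuousLinearMap.adjoint (opD hw (κ j)) = opD hw (κ j)
      rw [opD_adj, hs]
    | arch a => exact opA_adj hw (b a) (c a)
  · exact congrArg (fun T : HA PGL(2, F) (muY F D) →L[ℂ] HA PGL(2, F) (muY F D) => T x) (cc i j)

end Sep

variable {k : Type u} {E : Type u'} [Field k] [Field E] [Algebra k E] [NumberField k]
  [NumberField E] [IsTotallyComplex k] [IsTotallyComplex E] {ι : Type i'} {X : Ctx.{w} k E ι}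

/-- the matched pairs: archimedean kernels at the places of `E` and a symbol -/
abbrev MPt (X : Ctx.{w} k E ι) (S₀ : Submonoid X.Sym) : Type _ := (InfinitePlace E → IKer) × S₀

variable {S₀ : Submonoid X.Sym}

/-- the product -/
noncomputable def mulP (p q : MPt X S₀) : MPt X S₀ :=
  (fun w => IKer.comp (p.1 w) (q.1 w), p.2 * q.2)

/-- the `E`-side -/
noncomputable def symE (S₀ : Submonoid X.Sym) : FSym E (LocFam.D X.UE) (MPt X S₀) where
  arch p := p.1
  m p := (ME p.2.1).toDKer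
  p p := (PE p.2.1).toDKer

/-- the `k`-side -/
noncomputable def symK (pl : Fin 3 → InfinitePlace k → InfinitePlace E) (S₀ : Submonoid X.Sym) :
    FSym k (LocFam.D X.Uk) (MPt X S₀) where
  arch p := kk3 pl p.1
  m p := (MK p.2.1).toDKer
  p p := (PK p.2.1).toDKer

variable {J P : Type*}

open Classical in
/-- left multiplications -/
noncomputable def LP (s : J → S₀) (aE : P → InfinitePlace E) (c : P → IKer) :
    Idx J P → MPt X S₀ → MPt X S₀
  | .A => id
  | .fin j => fun p => (p.1, s j * p.2)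
  | .arch a => fun p => (Function.update p.1 (aE a) (IKer.comp (c a) (p.1 (aE a))), p.2)

/-- right multiplications -/
noncomputable def UP (u : ℕ → S₀) (m : ℕ) (p : MPt X S₀) : MPt X S₀ := (p.1, p.2 * u m)

section Ops

variable [MeasurableSpace (LocFam.D X.UE)] [DiscreteMeasurableSpace (LocFam.D X.UE)]
  [Countable (LocFam.D X.UE)]
  [MeasurableSpace (LocFam.D X.Uk)] [DiscreteMeasurableSpace (LocFam.D X.Uk)]
  [Countable (LocFam.D X.Uk)]
  {wE : HF E × LocFam.D X.UE → ℝ≥0} {wk : HF k × LocFam.D X.Uk → ℝ≥0}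

/-- the family on the `E`-side -/
noncomputable abbrev TEf (hwE : IsWt PGL(2, E) (muY E (LocFam.D X.UE)) wE) (A : MPt X S₀ →₀ ℂ)
    (s : J → S₀) (aE : P → InfinitePlace E) (c : P → IKer) :
    Idx J P → HA PGL(2, E) (muY E (LocFam.D X.UE)) →L[ℂ]
      HA PGL(2, E) (muY E (LocFam.D X.UE)) :=
  famT hwE (symE S₀) A (fun j => (ME (s j).1).toDKer) aE c

/-- the family on the `k`-side -/
noncomputable abbrev TKf (pl : Fin 3 → InfinitePlace k → InfinitePlace E)
    (bw : InfinitePlace E → InfinitePlace k)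
    (hwk : IsWt PGL(2, k) (muY k (LocFam.D X.Uk)) wk) (A : MPt X S₀ →₀ ℂ)
    (s : J → S₀) (aE : P → InfinitePlace E) (c : P → IKer) :
    Idx J P → HA PGL(2, k) (muY k (LocFam.D X.Uk)) →L[ℂ]
      HA PGL(2, k) (muY k (LocFam.D X.Uk)) :=
  famT hwk (symK pl S₀) A (fun j => (MK (s j).1).toDKer) (fun a => bw (aE a)) c

variable [IsFiniteMeasure (wtM (muY E (LocFam.D X.UE)) wE)]
  [IsFiniteMeasure (wtM (muY k (LocFam.D X.Uk)) wk)]

theorem isCommSymm_TEf (hwE : IsWt PGL(2, E) (muY E (LocFam.D X.UE)) wE) (A : MPt X S₀ →₀ ℂ)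
    (s : J → S₀) (aE : P → InfinitePlace E) (c : P → IKer)
    (hA : ContinuousLinearMap.adjoint (lcO ((symE S₀).O hwE) A) = lcO ((symE S₀).O hwE) A)
    (hs : ∀ j, (ME (s j).1).toDKer.adj = (ME (s j).1).toDKer) :
    IsCommSymm (TEf hwE A s aE c) :=
  isCommSymm_famT hwE (symE S₀) A _ _ _ hA hs
    (fun _ _ => LocFam.GFun.toDKer_comm (ME_comm _ _))
    (fun _ _ => LocFam.GFun.toDKer_comm (ME_comm _ _))

theorem isCommSymm_TKf (pl : Fin 3 → InfinitePlace k → InfinitePlace E)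
    (bw : InfinitePlace E → InfinitePlace k)
    (hwk : IsWt PGL(2, k) (muY k (LocFam.D X.Uk)) wk) (A : MPt X S₀ →₀ ℂ)
    (s : J → S₀) (aE : P → InfinitePlace E) (c : P → IKer)
    (hA : ContinuousLinearMap.adjoint (lcO ((symK pl S₀).O hwk) A) = lcO ((symK pl S₀).O hwk) A)
    (hs : ∀ j, (MK (s j).1).toDKer.adj = (MK (s j).1).toDKer) :
    IsCommSymm (TKf pl bw hwk A s aE c) :=
  isCommSymm_famT hwk (symK pl S₀) A _ _ _ hA hs
    (fun _ _ => LocFam.GFun.toDKer_comm (MK_comm _ _))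
    (fun _ _ => LocFam.GFun.toDKer_comm (MK_comm _ _))

/-- the `E`-side of the comparison -/
theorem sideE (hwE : IsWt PGL(2, E) (muY E (LocFam.D X.UE)) wE)
    (Θ : TwD PGL(2, E) (muY E (LocFam.D X.UE))) (A : MPt X S₀ →₀ ℂ) (s : J → S₀)
    (aE : P → InfinitePlace E) (c : P → IKer) (u : ℕ → S₀)
    (hbdd : ∃ C : ℝ, ∀ x y, ‖perK PGL(2, E) (lk (symE S₀).kO A) x y‖ ≤ C)
    (good : MPt X S₀ → Prop)
    (hgood : ∀ r, good r → ∫⁻ y, ∑' g : PGL(2, E), ‖(symE S₀).kM r y (g • Θ.θ y)‖ₑ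
      ∂(wtM (muY E (LocFam.D X.UE)) wE) ≠ ∞) :
    SideData (MPt X S₀) (TEf hwE A s aE c) ((symE S₀).O hwE) ((symE S₀).M hwE) mulP
      (LP s aE c) (UP u) Idx.A A good
      (fun r => ∫ y, ∑' g : PGL(2, E), (symE S₀).kM r y (g • Θ.θ y)
        ∂(wtM (muY E (LocFam.D X.UE)) wE))
      (fun m => opD hwE (PE (u m).1).toDKer) (Θ.op hwE) := by
  classical
  refine sideData hwE Θ (symE S₀) mulP (fun p q x y => rfl) (fun p q => ?_) (fun p q => ?_)
    (TEf hwE A s aE c) (LP s aE c) Idx.A (fun i hi => ?_) A rfl hbdd (UP u)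
    (fun m => (PE (u m).1).toDKer) (fun m p => ⟨fun x y => rfl, ?_⟩) good hgood
  · show (ME (p.2.1 * q.2.1)).toDKer = _
    rw [ME_mul, LocFam.GFun.toDKer_mul]
    rfl
  · show (PE (p.2.1 * q.2.1)).toDKer = _
    rw [PE_mul, LocFam.GFun.toDKer_mul]
    rfl
  · cases i with
    | A => exact absurd rfl hi
    | fin j =>
      refine Or.inl ⟨(ME (s j).1).toDKer, rfl, fun p => ⟨fun x y => rfl, ?_⟩⟩
      show (ME ((s j).1 * p.2.1)).toDKer = _
      rw [ME_mul, LocFam.GFun.toDKer_mul]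
      rfl
    | arch a => exact Or.inr ⟨aE a, c a, rfl, fun p => ⟨fun x y => rfl, rfl⟩⟩
  · show (PE (p.2.1 * (u m).1)).toDKer = _
    rw [PE_mul, LocFam.GFun.toDKer_mul]
    rfl

/-- the `k`-side of the comparison -/
theorem sideK (pl : Fin 3 → InfinitePlace k → InfinitePlace E)
    (hpl : Function.Injective fun p : Fin 3 × InfinitePlace k => pl p.1 p.2)
    (bw : InfinitePlace E → InfinitePlace k) (hbw : ∀ a, ∃ j, pl j (bw a) = a)
    (hwk : IsWt PGL(2, k) (muY k (LocFam.D X.Uk)) wk)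
    (A : MPt X S₀ →₀ ℂ) (s : J → S₀) (aE : P → InfinitePlace E) (c : P → IKer) (u : ℕ → S₀)
    (hbdd : ∃ C : ℝ, ∀ x y, ‖perK PGL(2, k) (lk (symK pl S₀).kO A) x y‖ ≤ C)
    (good : MPt X S₀ → Prop)
    (hgood : ∀ r, good r → ∫⁻ y, ∑' g : PGL(2, k), ‖(symK pl S₀).kM r y (g • y)‖ₑ
      ∂(wtM (muY k (LocFam.D X.Uk)) wk) ≠ ∞) :
    SideData (MPt X S₀) (TKf pl bw hwk A s aE c) ((symK pl S₀).O hwk) ((symK pl S₀).M hwk) mulP
      (LP s aE c) (UP u) Idx.A A good
      (fun r => ∫ y, ∑' g : PGL(2, k), (symK pl S₀).kM r y (g • y)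
        ∂(wtM (muY k (LocFam.D X.Uk)) wk))
      (fun m => opD hwk (PK (u m).1).toDKer) 1 := by
  classical
  have h := sideData hwk (TwD.refl _ _) (symK pl S₀) mulP (fun p q x y => ?_) (fun p q => ?_)
    (fun p q => ?_)
    (TKf pl bw hwk A s aE c) (LP s aE c) Idx.A (fun i hi => ?_) A rfl hbdd (UP u)
    (fun m => (PK (u m).1).toDKer) (fun m p => ⟨fun x y => rfl, ?_⟩) good hgood
  · rw [refl_op] at h
    exact h
  · exact archK_congr (fun v => kk3_mul pl p.1 q.1 v) x y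
  · show (MK (p.2.1 * q.2.1)).toDKer = _
    rw [MK_mul, LocFam.GFun.toDKer_mul]
    rfl
  · show (PK (p.2.1 * q.2.1)).toDKer = _
    rw [PK_mul, LocFam.GFun.toDKer_mul]
    rfl
  · cases i with
    | A => exact absurd rfl hi
    | fin j =>
      refine Or.inl ⟨(MK (s j).1).toDKer, rfl, fun p => ⟨fun x y => rfl, ?_⟩⟩
      show (MK ((s j).1 * p.2.1)).toDKer = _
      rw [MK_mul, LocFam.GFun.toDKer_mul]
      rfl
    | arch a =>
      refine Or.inr ⟨bw (aE a), c a, rfl, fun p => ⟨fun x y => ?_, rfl⟩⟩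
      obtain ⟨j, hj⟩ := hbw (aE a)
      refine archK_congr (fun v => ?_) x y
      have h2 := kk3_update pl hpl p.1 j (bw (aE a)) v (c a)
      rw [hj] at h2
      exact h2
  · show (PK (p.2.1 * (u m).1)).toDKer = _
    rw [PK_mul, LocFam.GFun.toDKer_mul]
    rfl

/-- **The spectral comparison for the symbols of a context.** -/
theorem spec_top (pl : Fin 3 → InfinitePlace k → InfinitePlace E)
    (hpl : Function.Injective fun p : Fin 3 × InfinitePlace k => pl p.1 p.2)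
    (bw : InfinitePlace E → InfinitePlace k) (hbw : ∀ a, ∃ j, pl j (bw a) = a)
    (hwE : IsWt PGL(2, E) (muY E (LocFam.D X.UE)) wE)
    (hwk : IsWt PGL(2, k) (muY k (LocFam.D X.Uk)) wk)
    (Θ : TwD PGL(2, E) (muY E (LocFam.D X.UE)))
    (A : MPt X S₀ →₀ ℂ) (s : J → S₀) (aE : P → InfinitePlace E) (c : P → IKer) (jz : J)
    (u : ℕ → S₀)
    -- the killing operator
    (hbE : ∃ C : ℝ, ∀ x y, ‖perK PGL(2, E) (lk (symE S₀).kO A) x y‖ ≤ C)
    (hbK : ∃ C : ℝ, ∀ x y, ‖perK PGL(2, k) (lk (symK pl S₀).kO A) x y‖ ≤ C)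
    (hAE : ContinuousLinearMap.adjoint (lcO ((symE S₀).O hwE) A) = lcO ((symE S₀).O hwE) A)
    (hAK : ContinuousLinearMap.adjoint (lcO ((symK pl S₀).O hwk) A) =
      lcO ((symK pl S₀).O hwk) A)
    -- the Hecke operators
    (hsE : ∀ j, (ME (s j).1).toDKer.adj = (ME (s j).1).toDKer)
    (hsK : ∀ j, (MK (s j).1).toDKer.adj = (MK (s j).1).toDKer)
    -- the recursion at the place `v₀`
    {q : ℝ} (hq : 0 < q)
    (hrE : ∀ m, (ME (s jz).1).toDKer.comp (PE (u (m + 1)).1).toDKer =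
      (PE (u (m + 2)).1).toDKer.add ((PE (u m).1).toDKer.cmul q))
    (hrK : ∀ m, (MK (s jz).1).toDKer.comp (PK (u (m + 1)).1).toDKer =
      (PK (u (m + 2)).1).toDKer.add ((PK (u m).1).toDKer.cmul q))
    -- the geometric sides
    (good : MPt X S₀ → Prop)
    (hgE : ∀ r, good r → ∫⁻ y, ∑' g : PGL(2, E), ‖(symE S₀).kM r y (g • Θ.θ y)‖ₑ
      ∂(wtM (muY E (LocFam.D X.UE)) wE) ≠ ∞)
    (hgK : ∀ r, good r → ∫⁻ y, ∑' g : PGL(2, k), ‖(symK pl S₀).kM r y (g • y)‖ₑ
      ∂(wtM (muY k (LocFam.D X.Uk)) wk) ≠ ∞)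
    (hgood : ∀ p p' : MPt X S₀, ∃ m0, ∀ m, m0 ≤ m → good (mulP p (UP u m p')))
    (hmatch : ∀ r, good r →
      ∫ y, ∑' g : PGL(2, E), (symE S₀).kM r y (g • Θ.θ y) ∂(wtM (muY E (LocFam.D X.UE)) wE) =
      ∫ y, ∑' g : PGL(2, k), (symK pl S₀).kM r y (g • y) ∂(wtM (muY k (LocFam.D X.Uk)) wk))
    -- the system of eigenvalues
    (lam : Idx J P → ℝ) (hlA : lam .A ≠ 0) (hlz : lam (.fin jz) ^ 2 < 4 * q)
    (hne : ∀ [FiniteDimensional ℂ (jointE (TEf hwE A s aE c) lam)],
      cTr (opD hwE (PE (u 0).1).toDKer * Θ.op hwE) (jointE (TEf hwE A s aE c) lam) ≠ 0) :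
    FiniteDimensional ℂ (jointE (TKf pl bw hwk A s aE c) lam) ∧
      ∃ x ∈ jointE (TKf pl bw hwk A s aE c) lam, ⟪x, opD hwk (PK (u 0).1).toDKer x⟫_ℂ ≠ 0 := by
  refine spec_abs_exists (isCommSymm_TEf hwE A s aE c hAE hsE)
    (isCommSymm_TKf pl bw hwk A s aE c hAK hsK)
    Idx.A (Idx.fin jz) (isHS_lcO hwE (symE S₀) A hbE) (isHS_lcO hwk (symK pl S₀) A hbK)
    (sideE hwE Θ A s aE c u hbE good hgE) (sideK pl hpl bw hbw hwk A s aE c u hbK good hgK)
    hgood hmatch
    hq (fun m => ?_) (fun m => ?_) lam hlA hlz hne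
  · show _ = opD hwE (ME (s jz).1).toDKer * opD hwE (PE (u (m + 1)).1).toDKer - _
    rw [opD_mul, hrE, opD_add, opD_cmul, add_sub_cancel_right]
  · show _ = opD hwk (MK (s jz).1).toDKer * opD hwk (PK (u (m + 1)).1).toDKer - _
    rw [opD_mul, hrK, opD_add, opD_cmul, add_sub_cancel_right]

end Ops

end Fermat.Agent.LT.Spec
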