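import Fermat.Agent.LT.Spec.Ent
import Fermat.Agent.LT.Op.Alg

set_option autoImplicit false
set_option linter.unusedSectionVars false
set_option linter.unusedVariables false

/-!
# One side of the comparison from product kernels
-/

open scoped ENNReal NNReal MatrixGroups
open MeasureTheory ProbabilityTheory NumberField Matrix

namespace Fermat.Agent.LT.Spec

open Fermat.Agent.LT.FA Fermat.Agent.LT.Sp Fermat.Agent.LT.Op

section Lin

variable {Y MP : Type*} {κ : MP → Y → Y → ℂ}

theorem lk_eq (κ : MP → Y → Y → ℂ) (X : MP →₀ ℂ) (x y : Y) :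
    lk κ X x y = Finsupp.linearCombination ℂ (fun p => κ p x y) X := by
  rw [Finsupp.linearCombination_apply]
  rfl

theorem lk_mapDomain (κ : MP → Y → Y → ℂ) (L : MP → MP) (X : MP →₀ ℂ) (x y : Y) :
    lk κ (Finsupp.mapDomain L X) x y = X.sum fun p c => c * κ (L p) x y := by
  rw [lk_eq, Finsupp.linearCombination_mapDomain, Finsupp.linearCombination_apply]
  rfl

theorem lk_fmul (κ : MP → Y → Y → ℂ) (mul : MP → MP → MP) (A X : MP →₀ ℂ) (x y : Y) :
    lk κ (fmul mul A X) x y = ∑ a ∈ A.support, A a * X.sum fun p c => c * κ (mul a p) x y := by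
  rw [lk_eq, fmul, map_finsuppSum, Finsupp.sum]
  refine Finset.sum_congr rfl fun a _ => ?_
  rw [map_finsuppSum, Finsupp.sum, Finsupp.sum, Finset.mul_sum]
  refine Finset.sum_congr rfl fun p _ => ?_
  rw [Finsupp.linearCombination_single, smul_eq_mul, mul_assoc]

end Lin

variable {F : Type*} [Field F] [NumberField F] {D : Type*} [MulAction (GL (Fin 2) F) D]
  [MeasurableSpace D] [DiscreteMeasurableSpace D] [Countable D] [FinPart F D]
  [IsTotallyComplex F] {w : HF F × D → ℝ≥0}

/-! ### finite propagation of the operators -/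

/-- a bound for the propagation of the archimedean kernels -/
theorem exists_arch_bound (κs : InfinitePlace F → IKer) : ∃ C : ℝ, 1 ≤ C ∧
    ∀ p p' : HF F, archK κs p p' ≠ 0 → ∀ w, H3.cd (p w) (p' w) ≤ C := by
  refine ⟨1 + ∑ w, |(κs w).R|, ?_, fun p p' h w => ?_⟩
  · have : 0 ≤ ∑ w, |(κs w).R| := Finset.sum_nonneg fun _ _ => abs_nonneg _
    linarith
  · have h1 : (κs w).k (p w) (p' w) ≠ 0 := Finset.prod_ne_zero_iff.mp h w (Finset.mem_univ w)
    have h2 : H3.cd (p w) (p' w) ≤ (κs w).R := by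
      by_contra hcon
      exact h1 ((κs w).supp _ _ (not_le.mp hcon))
    have h3 : |(κs w).R| ≤ ∑ w, |(κs w).R| :=
      Finset.single_le_sum (f := fun w => |(κs w).R|) (fun _ _ => abs_nonneg _)
        (Finset.mem_univ w)
    have h4 := le_abs_self (κs w).R
    linarith

theorem exists_arch_sup (κs : InfinitePlace F → IKer) : ∃ M : ℝ, 0 ≤ M ∧
    ∀ p p' : HF F, |archK κs p p'| ≤ M := by
  choose C hC0 hC using fun w => (κs w).exists_bound
  refine ⟨∏ w, C w, Finset.prod_nonneg fun w _ => hC0 w, fun p p' => ?_⟩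
  rw [archK, Finset.abs_prod]
  exact Finset.prod_le_prod (fun _ _ => abs_nonneg _) fun w _ => hC w _ _

theorem exists_dker_sup (κ : DKer F D) : ∃ M : ℝ, 0 ≤ M ∧ ∀ d d', ‖κ.κ d d'‖ ≤ M := by
  obtain ⟨C, hC0, hC⟩ := κ.exists_row_bound
  refine ⟨C, hC0, fun d d' => ?_⟩
  by_cases h : κ.κ d d' = 0
  · rw [h, norm_zero]; exact hC0
  · refine le_trans ?_ (hC d)
    have hf : (Function.support fun d' => ‖κ.κ d d'‖).Finite :=
      (κ.finite d).subset fun e he h0 => he (by
        show ‖κ.κ d e‖ = 0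
        rw [h0, norm_zero])
    exact single_le_finsum d' hf fun _ => norm_nonneg _

theorem NK.pk (κs : InfinitePlace F → IKer) (κf : DKer F D) : NK (pk κs κf) := by
  classical
  obtain ⟨C, -, hC⟩ := exists_arch_bound κs
  obtain ⟨M, hM0, hM⟩ := exists_arch_sup κs
  obtain ⟨M', hM0', hM'⟩ := exists_dker_sup κf
  refine ⟨⟨M * M', fun x y => ?_⟩, ⟨C, fun d => (κf.finite d).toFinset, fun x y hne => ?_⟩⟩
  · rw [pk_apply, norm_mul, Complex.norm_real, Real.norm_eq_abs]
    exact mul_le_mul (hM _ _) (hM' _ _) (norm_nonneg _) hM0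
  · rw [pk_apply] at hne
    refine ⟨hC _ _ fun h => hne ?_, ?_⟩
    · rw [h]; simp
    · rw [Set.Finite.mem_toFinset]
      exact fun h => hne (by rw [h, mul_zero])

theorem entC_pk (κs : InfinitePlace F → IKer) (κf : DKer F D) : EntC (isFK_pk κs κf).cor := by
  obtain ⟨C, S, hS⟩ := (NK.pk κs κf).ent
  refine ⟨C, S, fun x => ?_⟩
  rw [IsFK.cor_ker, IsFK.kern_apply (measurable_pk κs κf),
    ae_withDensity_iff (IsFK.measurable_row (measurable_pk κs κf) x)]
  refine Filter.Eventually.of_forall fun y hy => hS x y fun h => hy ?_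
  rw [h]
  simp

theorem measurableSet_entR (C : ℝ) (S : D → Finset D) (x : HF F × D) :
    MeasurableSet {y : HF F × D | EntR C S x y} := by
  have h1 : MeasurableSet {y : HF F × D | ∀ w : InfinitePlace F, H3.cd (x.1 w) (y.1 w) ≤ C} := by
    have e : {y : HF F × D | ∀ w : InfinitePlace F, H3.cd (x.1 w) (y.1 w) ≤ C} =
        ⋂ w : InfinitePlace F, {y : HF F × D | H3.cd (x.1 w) (y.1 w) ≤ C} := by
      ext y; simp
    rw [e]
    refine MeasurableSet.iInter fun w => ?_
    refine measurableSet_le ?_ measurable_const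
    have h2 : Measurable fun q : H3 => H3.cd (x.1 w) q :=
      (H3.continuous_cd.comp (Continuous.prodMk continuous_const continuous_id)).measurable
    exact h2.comp ((measurable_apply_HF w).comp measurable_fst)
  have h2 : MeasurableSet {y : HF F × D | y.2 ∈ S x.2} :=
    measurable_snd (MeasurableSet.of_discrete (s := (S x.2 : Set D)))
  exact h1.inter h2

theorem entC_A (j : InfinitePlace F) (κ : IKer) : EntC (densA (D := D) j κ).cor := by
  classical
  refine ⟨max 1 κ.R, fun d => {d}, fun x => ?_⟩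
  have e : (densA (D := D) j κ).cor.ker =
      (baseA F D j).B.withDensity fun x y => ‖kA j κ x y‖ₑ := rfl
  have hm : Measurable fun y => ‖kA j κ x y‖ₑ := (measurable_kA_right j κ x).enorm
  rw [e, Kernel.withDensity_apply _ (measurable_kA j κ).enorm, ae_withDensity_iff hm,
    baseA_B, ae_map_iff]
  · refine Filter.Eventually.of_forall fun q hq => ?_
    refine ⟨fun w => ?_, Finset.mem_singleton_self _⟩
    by_cases h : w = j
    · subst h
      show H3.cd (x.1 w) (Fou.upd x.1 w q w) ≤ _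
      rw [Fou.upd_same]
      refine le_trans ?_ (le_max_right _ _)
      by_contra hcon
      refine hq ?_
      show ‖((κ.k (x.1 w) (Fou.upd x.1 w q w) : ℝ) : ℂ)‖ₑ = 0
      rw [Fou.upd_same, κ.supp _ _ (not_le.mp hcon)]
      simp
    · show H3.cd (x.1 w) (Fou.upd x.1 j q w) ≤ _
      rw [Fou.upd_ne _ h, H3.cd_self]
      exact le_max_left _ _
  · exact (measurable_slice (measurable_psiA j) x).aemeasurable
  · have h1 := measurableSet_entR (max 1 κ.R) (fun d : D => {d}) x
    have h2 : MeasurableSet {y : HF F × D | ‖kA j κ x y‖ₑ ≠ 0} :=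
      (measurableSet_singleton (0 : ℝ≥0∞)).compl.preimage hm
    have e2 : {y : HF F × D | ‖kA j κ x y‖ₑ ≠ 0 → EntR (max 1 κ.R) (fun d : D => {d}) x y} =
        {y : HF F × D | ‖kA j κ x y‖ₑ ≠ 0}ᶜ ∪ {y | EntR (max 1 κ.R) (fun d : D => {d}) x y} := by
      ext y
      simp only [Set.mem_union, Set.mem_compl_iff]
      exact imp_iff_not_or
    rw [e2]
    exact h2.compl.union h1

theorem entC_D (κ : DKer F D) : EntC (densD κ).cor := by
  classical
  refine ⟨1, fun d => (κ.finite d).toFinset, fun x => ?_⟩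
  have e : (densD κ).cor.ker = (baseD F D).B.withDensity fun x y => ‖kD κ x y‖ₑ := rfl
  have hm : Measurable fun y => ‖kD κ x y‖ₑ := (measurable_kD_right κ x).enorm
  have hB : (baseD F D).B x = (Measure.count : Measure D).map (fun d => psiD (x, d)) :=
    pushK_apply measurable_psiD x
  rw [e, Kernel.withDensity_apply _ (measurable_kD κ).enorm, ae_withDensity_iff hm,
    hB, ae_map_iff]
  · refine Filter.Eventually.of_forall fun q hq => ?_
    refine ⟨fun w => ?_, ?_⟩
    · show H3.cd (x.1 w) (x.1 w) ≤ 1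
      rw [H3.cd_self]
    · rw [Set.Finite.mem_toFinset]
      intro h
      refine hq ?_
      have h' : κ.κ x.2 q = 0 := h
      show ‖κ.κ x.2 q‖ₑ = 0
      rw [h', enorm_zero]
  · exact (measurable_slice measurable_psiD x).aemeasurable
  · have h1 := measurableSet_entR 1 (fun d : D => (κ.finite d).toFinset) x
    have h2 : MeasurableSet {y : HF F × D | ‖kD κ x y‖ₑ ≠ 0} :=
      (measurableSet_singleton (0 : ℝ≥0∞)).compl.preimage hm
    have e2 : {y : HF F × D | ‖kD κ x y‖ₑ ≠ 0 → EntR 1 (fun d : D => (κ.finite d).toFinset) x y} =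
        {y : HF F × D | ‖kD κ x y‖ₑ ≠ 0}ᶜ ∪
          {y | EntR 1 (fun d : D => (κ.finite d).toFinset) x y} := by
      ext y
      simp only [Set.mem_union, Set.mem_compl_iff]
      exact imp_iff_not_or
    rw [e2]
    exact h2.compl.union h1

/-! ### the side data -/

/-- symbols on one side -/
structure FSym (F : Type*) [Field F] [NumberField F] (D : Type*) [MulAction (GL (Fin 2) F) D]
    (MP : Type*) where
  arch : MP → InfinitePlace F → IKer
  m : MP → DKer F D
  p : MP → DKer F D

namespace FSym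

variable {MP : Type*} (S : FSym F D MP)

/-- kernels of the multipliers -/
noncomputable def kO (p : MP) : HF F × D → HF F × D → ℂ := pk (S.arch p) (S.m p)

/-- matched kernels -/
noncomputable def kM (p : MP) : HF F × D → HF F × D → ℂ := pk (S.arch p) (S.p p)

/-- operators of the multipliers -/
noncomputable def O (hw : IsWt PGL(2, F) (muY F D) w) (p : MP) :
    HA PGL(2, F) (muY F D) →L[ℂ] HA PGL(2, F) (muY F D) := opK hw (S.arch p) (S.m p)

/-- matched operators -/
noncomputable def M (hw : IsWt PGL(2, F) (muY F D) w) (p : MP) :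
    HA PGL(2, F) (muY F D) →L[ℂ] HA PGL(2, F) (muY F D) := opK hw (S.arch p) (S.p p)

/-- left multiplications by the operators of the family -/
def LOp (hw : IsWt PGL(2, F) (muY F D) w)
    (T : HA PGL(2, F) (muY F D) →L[ℂ] HA PGL(2, F) (muY F D)) (L : MP → MP) : Prop :=
  (∃ κ : DKer F D, T = opD hw κ ∧ ∀ p, (∀ x y, archK (S.arch (L p)) x y = archK (S.arch p) x y) ∧
    S.m (L p) = κ.comp (S.m p)) ∨
  (∃ (j : InfinitePlace F) (κ : IKer), T = opA hw j κ ∧ ∀ p, (∀ x y, archK (S.arch (L p)) x y =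
    archK (open scoped Classical in Function.update (S.arch p) j (IKer.comp κ (S.arch p j))) x y) ∧
    S.m (L p) = S.m p)

variable {S}

theorem O_congr (hw : IsWt PGL(2, F) (muY F D) w) {κs κs' : InfinitePlace F → IKer}
    {κf κf' : DKer F D} (h : ∀ x y, archK κs x y = archK κs' x y) (h' : κf = κf') :
    opK hw κs κf = opK hw κs' κf' := by
  subst h'
  have e : pk κs κf = pk κs' κf := by
    funext x y
    rw [pk_apply, pk_apply, h]
  exact fk_op_congr _ _ e hw

theorem pk_congr' {κs κs' : InfinitePlace F → IKer}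
    {κf κf' : DKer F D} (h : ∀ x y, archK κs x y = archK κs' x y) (h' : κf = κf')
    (x y : HF F × D) : pk κs κf x y = pk κs' κf' x y := by
  subst h'
  rw [pk_apply, pk_apply, h]

theorem nk_kO (p : MP) : NK (S.kO p) := NK.pk _ _

theorem nk_kM (p : MP) : NK (S.kM p) := NK.pk _ _

theorem LOp.mul [IsFiniteMeasure (wtM (muY F D) w)] {hw : IsWt PGL(2, F) (muY F D) w}
    {T : HA PGL(2, F) (muY F D) →L[ℂ] HA PGL(2, F) (muY F D)} {L : MP → MP}
    (h : S.LOp hw T L) (p : MP) : T * S.O hw p = S.O hw (L p) := by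
  classical
  rcases h with ⟨κ, rfl, h⟩ | ⟨j, κ, rfl, h⟩
  · rw [O, opD_mul_opK, O]
    exact O_congr hw (fun x y => ((h p).1 x y).symm) (h p).2.symm
  · rw [O, opA_mul_opK, O]
    refine O_congr hw (fun x y => ?_) (h p).2.symm
    rw [(h p).1]

/-- the correspondence of an operator of the family -/
theorem LOp.exists_cor {hw : IsWt PGL(2, F) (muY F D) w}
    {T : HA PGL(2, F) (muY F D) →L[ℂ] HA PGL(2, F) (muY F D)} {L : MP → MP}
    (h : S.LOp hw T L) : ∃ C : Cor PGL(2, F) (muY F D), EntC C ∧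
      ∀ p x y, S.kO (L p) x y = lcmp C (S.kO p) x y := by
  classical
  rcases h with ⟨κ, rfl, h⟩ | ⟨j, κ, rfl, h⟩
  · refine ⟨(densD κ).cor, entC_D κ, fun p x y => ?_⟩
    have e : lcmp (densD κ).cor (S.kO p) x y = mulK (baseD F D) (kD κ) (S.kO p) x y := by
      rw [lcmp, Dens.cor_app]; rfl
    rw [e, kO, kO, mulK_kD]
    exact pk_congr' (h p).1 (h p).2 x y
  · refine ⟨(densA j κ).cor, entC_A j κ, fun p x y => ?_⟩
    have e : lcmp (densA j κ).cor (S.kO p) x y = mulK (baseA F D j) (kA j κ) (S.kO p) x y := by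
      rw [lcmp, Dens.cor_app]; rfl
    rw [e, kO, kO, mulK_kA]
    refine pk_congr' (fun x y => ?_) (h p).2 x y
    rw [(h p).1]

end FSym

open FSym in
/-- **One side of the comparison.** -/
theorem sideData [IsFiniteMeasure (wtM (muY F D) w)]
    [TopologicalSpace.SeparableSpace (Lp ℂ 2 (wtM (muY F D) w))]
    (hw : IsWt PGL(2, F) (muY F D) w) (Θ : TwD PGL(2, F) (muY F D)) {MP ι : Type*}
    (S : FSym F D MP) (mul : MP → MP → MP)
    (hmulA : ∀ p q x y, archK (S.arch (mul p q)) x y =
      archK (fun j => IKer.comp (S.arch p j) (S.arch q j)) x y)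
    (hmulm : ∀ p q, S.m (mul p q) = (S.m p).comp (S.m q))
    (hmulp : ∀ p q, S.p (mul p q) = (S.m p).comp (S.p q))
    (T : ι → HA PGL(2, F) (muY F D) →L[ℂ] HA PGL(2, F) (muY F D)) (L : ι → MP → MP) (iA : ι)
    (hL : ∀ i, i ≠ iA → S.LOp hw (T i) (L i)) (A : MP →₀ ℂ) (hA : T iA = lcO (S.O hw) A)
    (hbdd : ∃ C : ℝ, ∀ x y, ‖perK PGL(2, F) (lk S.kO A) x y‖ ≤ C)
    (U : ℕ → MP → MP) (u : ℕ → DKer F D)
    (hU : ∀ m p, (∀ x y, archK (S.arch (U m p)) x y = archK (S.arch p) x y) ∧
      S.p (U m p) = (S.m p).comp (u m)) (good : MP → Prop)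
    (hgood : ∀ r, good r →
      ∫⁻ y, ∑' g : PGL(2, F), ‖S.kM r y (g • Θ.θ y)‖ₑ ∂(wtM (muY F D) w) ≠ ∞) :
    SideData MP T (S.O hw) (S.M hw) mul L U iA A good
      (fun r => ∫ y, ∑' g : PGL(2, F), S.kM r y (g • Θ.θ y) ∂(wtM (muY F D) w))
      (fun m => opD hw (u m)) (Θ.op hw) := by
  classical
  have hmul : ∀ p q, S.O hw (mul p q) = S.O hw p * S.O hw q := fun p q => by
    rw [O, O, O, opK_mul]
    exact O_congr hw (hmulA p q) (hmulm p q)
  have hcvm : ∀ p q x z, cvK (muY F D) (S.kO p) (S.kM q) x z = S.kM (mul p q) x z := by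
    intro p q x z
    rw [kO, kM, kM, cvK_pk]
    exact pk_congr' (fun x y => (hmulA p q x y).symm) (hmulp p q).symm x z
  have hcvo : ∀ p q x z, cvK (muY F D) (S.kO p) (S.kO q) x z = S.kO (mul p q) x z := by
    intro p q x z
    rw [kO, kO, kO, cvK_pk]
    exact pk_congr' (fun x y => (hmulA p q x y).symm) (hmulm p q).symm x z
  have hmO : ∀ p, Measurable (Function.uncurry (S.kO p)) := fun p => measurable_pk _ _
  have hmM : ∀ p, Measurable (Function.uncurry (S.kM p)) := fun p => measurable_pk _ _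
  refine ⟨hmul, fun i hi p => (hL i hi).mul p, hA, fun m p => ?_, ?_⟩
  · show opK hw (S.arch p) (S.m p) * opD hw (u m) = _
    rw [opK_mul_opD]
    exact O_congr hw (fun x y => ((hU m p).1 x y).symm) (hU m p).2.symm
  refine ⟨fun X => ∃ C : ℝ, ∀ x y, ‖perK PGL(2, F) (lk S.kO X) x y‖ ≤ C,
    fun X => ∃ C : ℝ, ∀ x y, ‖perK PGL(2, F) (lk S.kM X) x y‖ ≤ C, hbdd, ?_, ?_, ?_, ?_⟩
  · -- products with `A`
    rintro X hX
    have hnX : NK (lk S.kO X) := NK.lk nk_kO X
    have hmX : Measurable (Function.uncurry (lk S.kO X)) := measurable_lk hmO X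
    have e : lk S.kO (fmul mul A X) = fun x y => ∑ a ∈ A.support,
        A a * lcmp (isFK_pk (S.arch a) (S.m a)).cor (lk S.kO X) x y := by
      funext x y
      rw [lk_fmul]
      refine Finset.sum_congr rfl fun a _ => ?_
      congr 1
      rw [lcmp_lk hmO nk_kO]
      refine Finsupp.sum_congr fun p _ => ?_
      congr 1
      rw [lcmp, IsFK.app_eq, ← hcvo]
      rfl
    choose C hC using fun a : MP => perK_lcmp_bdd (entC_pk (S.arch a) (S.m a)) hmX hnX hX
    refine ⟨∑ a ∈ A.support, ‖A a‖ * C a, fun x y => ?_⟩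
    rw [e, NK.perK_sum A.support fun a _ =>
      ((NK.lcmp (entC_pk (S.arch a) (S.m a)) hnX).cmul (A a))]
    refine (norm_sum_le _ _).trans (Finset.sum_le_sum fun a _ => ?_)
    rw [NK.perK_cmul, norm_mul]
    exact mul_le_mul_of_nonneg_left (hC a x y) (norm_nonneg _)
  · -- left multiplication by the operators of the family
    rintro i hi X hX
    obtain ⟨C, hC, h⟩ := (hL i hi).exists_cor
    have hnX : NK (lk S.kO X) := NK.lk nk_kO X
    have hmX : Measurable (Function.uncurry (lk S.kO X)) := measurable_lk hmO X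
    have e : lk S.kO (Finsupp.mapDomain (L i) X) = lcmp C (lk S.kO X) := by
      funext x y
      rw [lk_mapDomain, lcmp_lk hmO nk_kO]
      exact Finsupp.sum_congr fun p _ => by rw [h]
    rw [e]
    exact perK_lcmp_bdd hC hmX hnX hX
  · -- right multiplication
    intro m
    have e : lk S.kM (Finsupp.mapDomain (U m) A) = rcmp (lk S.kO A) (u m) := by
      funext x y
      rw [lk_mapDomain, rcmp_lk]
      refine Finsupp.sum_congr fun p _ => ?_
      congr 1
      rw [rcmp, kM, kO, pk_apply, (hU m p).1, (hU m p).2, DKer.comp_κ]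
      have e2 : ∀ d, pk (S.arch p) (S.m p) x (y.1, d) * (u m).κ d y.2 =
          (archK (S.arch p) x.1 y.1 : ℂ) * ((S.m p).κ x.2 d * (u m).κ d y.2) := fun d => by
        rw [pk_apply, mul_assoc]
      simp_rw [e2]
      rw [mul_finsum]
    rw [e]
    exact perK_rcmp_bdd (NK.lk nk_kO A) (u m) hbdd
  · -- the trace formula
    intro X Z hX hZ hg
    refine trace_lk hw Θ (fun p => kRep_opK hw _ _) (fun p => kRep_opK hw _ _)
      (fun p g x y => pk_smul _ _ g x y) hcvm ?_ hX hZ fun p hp q hq => hgood _ (hg p hp q hq)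
    intro p q y
    obtain ⟨C, s, hs⟩ := (nk_kO (S := S) p).ent
    obtain ⟨C', s', hs'⟩ := (nk_kM (S := S) q).ent
    have hfin := finite_entR (F := F) (2 * C * C') (fun d => (s d).biUnion s') y (Θ.θ y)
    rw [tsum_eq_sum (s := hfin.toFinset)]
    · refine ENNReal.sum_ne_top.mpr fun g _ => ?_
      obtain ⟨M, hM⟩ := (nk_kM (S := S) q).bdd
      obtain ⟨B, hB, -⟩ := (isFK_pk (S.arch p) (S.m p)).bdd
      have h1 : ∫⁻ x, ‖S.kO p y x‖ₑ * ‖S.kM q x (g • Θ.θ y)‖ₑ ∂(muY F D) ≤
          B * ENNReal.ofReal M := by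
        refine (lintegral_mono (g := fun x => ‖S.kO p y x‖ₑ * ENNReal.ofReal M)
          fun x => ?_).trans ?_
        · refine mul_le_mul_right ?_ _
          rw [← ofReal_norm]
          exact ENNReal.ofReal_le_ofReal (hM _ _)
        · have hm1 : Measurable fun x => ‖S.kO p y x‖ₑ :=
            ((hmO p).comp measurable_prodMk_left).enorm
          rw [lintegral_mul_const _ hm1]
          exact mul_le_mul_left (hB y) _
      exact ne_top_of_le_ne_top (ENNReal.mul_ne_top ENNReal.coe_ne_top ENNReal.ofReal_ne_top) h1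
    · intro g hg
      rw [Set.Finite.mem_toFinset] at hg
      rw [lintegral_eq_zero_iff']
      · refine Filter.Eventually.of_forall fun x => ?_
        by_contra hne
        have h1 : S.kO p y x ≠ 0 := fun h => hne (by
          show ‖S.kO p y x‖ₑ * _ = 0
          rw [h, enorm_zero, zero_mul])
        have h2 : S.kM q x (g • Θ.θ y) ≠ 0 := fun h => hne (by
          show ‖S.kO p y x‖ₑ * ‖S.kM q x (g • Θ.θ y)‖ₑ = 0
          rw [h, enorm_zero, mul_zero])
        exact hg ((hs _ _ h1).comp (hs' _ _ h2))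
      · exact (((hmO p).comp measurable_prodMk_left).enorm.mul
          ((hmM q).comp measurable_prodMk_right).enorm).aemeasurable

end Fermat.Agent.LT.Spec
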