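import Fermat.Agent.LT.Spec.Tr
import Fermat.Agent.LT.Op.Fin

set_option autoImplicit false
set_option linter.unusedSectionVars false
set_option linter.unusedVariables false

/-!
# Kernels of finite propagation and their periodisations
-/

open scoped ENNReal NNReal MatrixGroups
open MeasureTheory ProbabilityTheory NumberField Matrix

namespace Fermat.Agent.LT.Spec

open Fermat.Agent.LT.FA Fermat.Agent.LT.Sp Fermat.Agent.LT.Op

variable {F : Type*} [Field F] [NumberField F] {D : Type*}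

/-- relations of finite propagation -/
def EntR (C : ℝ) (S : D → Finset D) (x y : HF F × D) : Prop :=
  (∀ w : InfinitePlace F, H3.cd (x.1 w) (y.1 w) ≤ C) ∧ y.2 ∈ S x.2

theorem EntR.comp [DecidableEq D] {C C' : ℝ} {S S' : D → Finset D} {x y z : HF F × D}
    (h : EntR C S x y) (h' : EntR C' S' y z) :
    EntR (2 * C * C') (fun d => (S d).biUnion S') x z := by
  refine ⟨fun w => ?_, Finset.mem_biUnion.mpr ⟨y.2, h.2, h'.2⟩⟩
  have h1 := h.1 w
  have h2 := h'.1 w
  have h3 := H3.one_le_cd (x.1 w) (y.1 w)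
  have h4 := H3.one_le_cd (y.1 w) (z.1 w)
  refine (H3.cd_triangle (x.1 w) (y.1 w) (z.1 w)).trans ?_
  have h5 : 0 ≤ 2 * C := by linarith
  gcongr

theorem EntR.mono {C C' : ℝ} {S S' : D → Finset D} {x y : HF F × D}
    (h : EntR C S x y) (hC : C ≤ C') (hS : ∀ d, S d ⊆ S' d) : EntR C' S' x y :=
  ⟨fun w => (h.1 w).trans hC, hS _ h.2⟩

variable [MulAction (GL (Fin 2) F) D] [FinPart F D] [IsTotallyComplex F]

/-- **properness of the action** -/
theorem finite_entR (C : ℝ) (S : D → Finset D) (x y : HF F × D) :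
    {g : PGL(2, F) | EntR C S x (g • y)}.Finite := by
  classical
  obtain ⟨N, hN0, hN⟩ := exists_bddDen_of_finset (F := F) {y.2} (S x.2)
  set B : ℝ := ∑ w, H3.cd H3.j (x.1 w) with hB
  set B' : ℝ := ∑ w, H3.cd H3.j (y.1 w) with hB'
  refine (finite_PGL (F := F) N (2 * (2 * B * C) * B')).subset ?_
  intro γ hγ
  induction γ using ProjGenLinGroup.induction_on with
  | mk g =>
  obtain ⟨h1, h2⟩ := hγ
  refine ⟨g, rfl, hN g ⟨y.2, Finset.mem_singleton_self _, h2⟩, fun w => ?_⟩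
  have hle : ∀ (z : HF F) (w : InfinitePlace F), H3.cd H3.j (z w) ≤ ∑ w, H3.cd H3.j (z w) :=
    fun z w => Finset.single_le_sum (f := fun w => H3.cd H3.j (z w))
      (fun w _ => zero_le_one.trans (H3.one_le_cd _ _)) (Finset.mem_univ w)
  refine cd_j_smul_le g y.1 w (hle y.1 w) ?_
  have h3 : H3.cd (x.1 w) ((g • y.1) w) ≤ C := h1 w
  refine (H3.cd_triangle H3.j (x.1 w) _).trans ?_
  have h4 := hle x.1 w
  have h5 := H3.one_le_cd H3.j (x.1 w)
  have h6 := H3.one_le_cd (x.1 w) ((g • y.1) w)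
  have h7 : 0 ≤ 2 * B := by linarith
  have h8 : 2 * H3.cd H3.j (x.1 w) ≤ 2 * B := by linarith
  exact mul_le_mul h8 h3 (by linarith) h7

/-- bounded kernels of finite propagation -/
structure NK (k : HF F × D → HF F × D → ℂ) : Prop where
  bdd : ∃ M : ℝ, ∀ x y, ‖k x y‖ ≤ M
  ent : ∃ (C : ℝ) (S : D → Finset D), ∀ x y, k x y ≠ 0 → EntR C S x y

namespace NK

variable {k k' : HF F × D → HF F × D → ℂ}

theorem zero : NK (fun _ _ : HF F × D => (0 : ℂ)) where
  bdd := ⟨0, fun _ _ => by simp⟩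
  ent := ⟨0, fun _ => ∅, fun _ _ h => absurd rfl h⟩

theorem add (h : NK k) (h' : NK k') : NK (fun x y => k x y + k' x y) := by
  classical
  obtain ⟨M, hM⟩ := h.bdd
  obtain ⟨M', hM'⟩ := h'.bdd
  obtain ⟨C, S, hS⟩ := h.ent
  obtain ⟨C', S', hS'⟩ := h'.ent
  refine ⟨⟨M + M', fun x y => (norm_add_le _ _).trans (add_le_add (hM x y) (hM' x y))⟩,
    ⟨max C C', fun d => S d ∪ S' d, fun x y hne => ?_⟩⟩
  by_cases h1 : k x y = 0
  · have h2 : k' x y ≠ 0 := fun h2 => hne (by rw [h1, h2, add_zero])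
    exact (hS' x y h2).mono (le_max_right _ _) fun d => Finset.subset_union_right
  · exact (hS x y h1).mono (le_max_left _ _) fun d => Finset.subset_union_left

theorem cmul (h : NK k) (c : ℂ) : NK (fun x y => c * k x y) := by
  obtain ⟨M, hM⟩ := h.bdd
  obtain ⟨C, S, hS⟩ := h.ent
  refine ⟨⟨‖c‖ * M, fun x y => ?_⟩, ⟨C, S, fun x y hne => hS x y fun h0 => hne ?_⟩⟩
  · rw [norm_mul]
    exact mul_le_mul_of_nonneg_left (hM x y) (norm_nonneg _)
  · rw [h0, mul_zero]

theorem sum {ι : Type*} (s : Finset ι) {k : ι → HF F × D → HF F × D → ℂ}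
    (h : ∀ i ∈ s, NK (k i)) : NK (fun x y => ∑ i ∈ s, k i x y) := by
  classical
  induction s using Finset.induction_on with
  | empty => simpa using NK.zero
  | insert a s ha ih =>
    simp_rw [Finset.sum_insert ha]
    exact (h a (Finset.mem_insert_self a s)).add (ih fun i hi => h i (Finset.mem_insert_of_mem hi))

theorem lk {MP : Type*} {k : MP → HF F × D → HF F × D → ℂ} (h : ∀ p, NK (k p)) (X : MP →₀ ℂ) :
    NK (Spec.lk k X) := NK.sum X.support fun p _ => (h p).cmul (X p)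

/-- the sums are finite -/
theorem finite (h : NK k) (x y : HF F × D) : {g : PGL(2, F) | k x (g • y) ≠ 0}.Finite := by
  obtain ⟨C, S, hS⟩ := h.ent
  exact (finite_entR C S x y).subset fun g hg => hS _ _ hg

theorem hasSum_perK (h : NK k) (x y : HF F × D) :
    HasSum (fun g : PGL(2, F) => k x (g • y)) (perK PGL(2, F) k x y) := by
  have h1 := h.finite x y
  exact (summable_of_ne_finset_zero (s := h1.toFinset) fun g hg => by
    rw [Set.Finite.mem_toFinset] at hg
    exact not_not.mp hg).hasSum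

theorem perK_add (h : NK k) (h' : NK k') (x y : HF F × D) :
    perK PGL(2, F) (fun x y => k x y + k' x y) x y =
      perK PGL(2, F) k x y + perK PGL(2, F) k' x y :=
  ((h.hasSum_perK x y).add (h'.hasSum_perK x y)).tsum_eq

theorem perK_cmul (c : ℂ) (k : HF F × D → HF F × D → ℂ) (x y : HF F × D) :
    perK PGL(2, F) (fun x y => c * k x y) x y = c * perK PGL(2, F) k x y :=
  tsum_mul_left

theorem perK_sum {ι : Type*} (s : Finset ι) {k : ι → HF F × D → HF F × D → ℂ}
    (h : ∀ i ∈ s, NK (k i)) (x y : HF F × D) :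
    perK PGL(2, F) (fun x y => ∑ i ∈ s, k i x y) x y = ∑ i ∈ s, perK PGL(2, F) (k i) x y :=
  (hasSum_sum fun i hi => (h i hi).hasSum_perK x y).tsum_eq

end NK

variable [MeasurableSpace D] [DiscreteMeasurableSpace D] [Countable D]

/-- correspondences of finite propagation -/
def EntC (T : Cor PGL(2, F) (muY F D)) : Prop :=
  ∃ (C : ℝ) (S : D → Finset D), ∀ x, ∀ᵐ y ∂(T.ker x), EntR C S x y

/-- the kernel of the composition of a correspondence with a kernel -/
noncomputable def lcmp (T : Cor PGL(2, F) (muY F D)) (k : HF F × D → HF F × D → ℂ)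
    (x y : HF F × D) : ℂ := T.app (fun z => k z y) x

theorem integrable_lcmp (T : Cor PGL(2, F) (muY F D)) {f : HF F × D → ℂ} (hf : Measurable f)
    {M : ℝ} (hM : ∀ z, ‖f z‖ ≤ M) (x : HF F × D) :
    Integrable (fun z => T.a x z * f z) (T.ker x) := by
  refine Integrable.mono' (integrable_const M) ?_ (Filter.Eventually.of_forall fun z => ?_)
  · exact ((T.a_meas.comp measurable_prodMk_left).mul hf).aestronglyMeasurable
  · rw [norm_mul]
    calc ‖T.a x z‖ * ‖f z‖ ≤ 1 * M := mul_le_mul (T.a_le x z) (hM z) (norm_nonneg _) zero_le_one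
      _ = M := one_mul M

theorem norm_app_le (T : Cor PGL(2, F) (muY F D)) {f : HF F × D → ℂ} {M : ℝ}
    (hM : ∀ z, ‖f z‖ ≤ M) (x : HF F × D) : ‖T.app f x‖ ≤ M * (T.ker.bound).toReal := by
  have hC0 : 0 ≤ M := (norm_nonneg _).trans (hM x)
  rw [Cor.app]
  refine (norm_integral_le_of_norm_le_const (C := M)
    (Filter.Eventually.of_forall fun y => ?_)).trans ?_
  · rw [norm_mul]
    calc ‖T.a x y‖ * ‖f y‖ ≤ 1 * M := mul_le_mul (T.a_le x y) (hM y) (norm_nonneg _) zero_le_one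
      _ = M := one_mul M
  · refine mul_le_mul_of_nonneg_left ?_ hC0
    exact ENNReal.toReal_mono (Kernel.bound_lt_top _).ne (T.ker.measure_le_bound x _)

theorem NK.lcmp {T : Cor PGL(2, F) (muY F D)} (hT : EntC T) {k : HF F × D → HF F × D → ℂ}
    (h : NK k) : NK (lcmp T k) := by
  classical
  obtain ⟨C, S, hS⟩ := hT
  obtain ⟨C', S', hS'⟩ := h.ent
  obtain ⟨M, hM⟩ := h.bdd
  refine ⟨⟨_, fun x y => norm_app_le T (fun z => hM z y) x⟩,
    ⟨2 * C * C', fun d => (S d).biUnion S', fun x y hne => ?_⟩⟩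
  by_contra hcon
  apply hne
  rw [Spec.lcmp, Cor.app]
  refine integral_eq_zero_of_ae ?_
  filter_upwards [hS x] with z hz
  by_contra h0
  have h1 : k z y ≠ 0 := fun h1 => h0 (by rw [h1, mul_zero]; rfl)
  exact hcon (hz.comp (hS' z y h1))

/-- **periodisation and composition** -/
theorem perK_lcmp {T : Cor PGL(2, F) (muY F D)} (hT : EntC T) {k : HF F × D → HF F × D → ℂ}
    (hm : Measurable (Function.uncurry k)) (h : NK k) (x y : HF F × D) :
    perK PGL(2, F) (lcmp T k) x y = T.app (fun z => perK PGL(2, F) k z y) x := by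
  classical
  obtain ⟨C, S, hS⟩ := hT
  obtain ⟨C', S', hS'⟩ := h.ent
  obtain ⟨M, hM⟩ := h.bdd
  have hfin := finite_entR (F := F) (2 * C * C') (fun d => (S d).biUnion S') x y
  have hz0 : ∀ g, g ∉ hfin.toFinset → ∀ z, EntR C S x z → k z (g • y) = 0 := by
    intro g hg z hz
    rw [Set.Finite.mem_toFinset] at hg
    by_contra h0
    exact hg (hz.comp (hS' z _ h0))
  rw [perK]
  rw [tsum_eq_sum (s := hfin.toFinset)]
  · have e1 : T.app (fun z => perK PGL(2, F) k z y) x =
        ∫ z, ∑ g ∈ hfin.toFinset, T.a x z * k z (g • y) ∂(T.ker x) := by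
      rw [Cor.app]
      refine integral_congr_ae ?_
      filter_upwards [hS x] with z hz
      rw [perK, tsum_eq_sum (s := hfin.toFinset) fun g hg => hz0 g hg z hz, Finset.mul_sum]
    rw [e1, integral_finsetSum]
    · rfl
    · intro g _
      exact integrable_lcmp T (hm.comp (measurable_id.prodMk measurable_const))
        (fun z => hM z (g • y)) x
  · intro g hg
    rw [lcmp, Cor.app]
    refine integral_eq_zero_of_ae ?_
    filter_upwards [hS x] with z hz
    rw [hz0 g hg z hz, mul_zero]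
    rfl

theorem perK_lcmp_bdd {T : Cor PGL(2, F) (muY F D)} (hT : EntC T)
    {k : HF F × D → HF F × D → ℂ} (hm : Measurable (Function.uncurry k)) (h : NK k)
    (hb : ∃ M, ∀ x y, ‖perK PGL(2, F) k x y‖ ≤ M) :
    ∃ M, ∀ x y, ‖perK PGL(2, F) (lcmp T k) x y‖ ≤ M := by
  obtain ⟨M, hM⟩ := hb
  refine ⟨M * (T.ker.bound).toReal, fun x y => ?_⟩
  rw [perK_lcmp hT hm h]
  exact norm_app_le T (fun z => hM z y) x

/-- compositions with combinations -/
theorem lcmp_lk {MP : Type*} {T : Cor PGL(2, F) (muY F D)} {k : MP → HF F × D → HF F × D → ℂ}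
    (hm : ∀ p, Measurable (Function.uncurry (k p))) (h : ∀ p, NK (k p)) (X : MP →₀ ℂ)
    (x y : HF F × D) : lcmp T (lk k X) x y = X.sum fun p c => c * lcmp T (k p) x y := by
  have hi : ∀ p, Integrable (fun z => T.a x z * k p z y) (T.ker x) := fun p => by
    obtain ⟨M, hM⟩ := (h p).bdd
    exact integrable_lcmp T ((hm p).comp (measurable_id.prodMk measurable_const))
      (fun z => hM z y) x
  have e1 : ∀ z, T.a x z * lk k X z y = ∑ p ∈ X.support, X p * (T.a x z * k p z y) := by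
    intro z
    rw [lk, Finsupp.sum, Finset.mul_sum]
    refine Finset.sum_congr rfl fun p _ => ?_
    ring
  rw [lcmp, Cor.app]
  simp_rw [e1]
  rw [integral_finsetSum _ fun p _ => (hi p).const_mul _, Finsupp.sum]
  refine Finset.sum_congr rfl fun p _ => ?_
  rw [integral_const_mul]
  rfl

/-! ### composition with finite kernels on the right -/

/-- the kernel of the composition with a kernel on the finite part -/
noncomputable def rcmp (k : HF F × D → HF F × D → ℂ) (κ : DKer F D) (x z : HF F × D) : ℂ :=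
  ∑ᶠ d, k x (z.1, d) * κ.κ d z.2

theorem rcmp_eq (k : HF F × D → HF F × D → ℂ) (κ : DKer F D) (x z : HF F × D) :
    rcmp k κ x z = ∑ d ∈ (κ.finite_col z.2).toFinset, k x (z.1, d) * κ.κ d z.2 := by
  rw [rcmp]
  refine finsum_eq_sum_of_support_subset _ fun d h => ?_
  rw [Set.Finite.coe_toFinset]
  exact fun h1 => h (by
    show k x (z.1, d) * _ = 0
    rw [h1, mul_zero])

theorem perK_rcmp {k : HF F × D → HF F × D → ℂ} (h : NK k) (κ : DKer F D) (x z : HF F × D) :
    perK PGL(2, F) (rcmp k κ) x z = rcmp (perK PGL(2, F) k) κ x z := by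
  classical
  have e : ∀ g : PGL(2, F), rcmp k κ x (g • z) =
      ∑ d ∈ (κ.finite_col z.2).toFinset, κ.κ d z.2 * k x (g • (z.1, d)) := by
    intro g
    induction g using ProjGenLinGroup.induction_on with
    | mk g =>
    have e1 : rcmp k κ x (ProjGenLinGroup.mk g • z) =
        ∑ᶠ d, k x (g • z.1, d) * κ.κ d (g • z.2) := rfl
    rw [e1, ← finsum_comp_equiv (MulAction.toPerm g)]
    have e2 : ∀ d, k x (g • z.1, (MulAction.toPerm g) d) * κ.κ ((MulAction.toPerm g) d) (g • z.2) =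
        κ.κ d z.2 * k x (ProjGenLinGroup.mk g • (z.1, d)) := by
      intro d
      rw [MulAction.toPerm_apply, κ.smul, mul_comm]
      rfl
    simp_rw [e2]
    refine finsum_eq_sum_of_support_subset _ fun d h => ?_
    rw [Set.Finite.coe_toFinset]
    exact fun h1 => h (by
      show κ.κ d z.2 * _ = 0
      rw [h1, zero_mul])
  rw [perK]
  simp_rw [e]
  have h1 : HasSum (fun g : PGL(2, F) => ∑ d ∈ (κ.finite_col z.2).toFinset,
      κ.κ d z.2 * k x (g • (z.1, d))) (∑ d ∈ (κ.finite_col z.2).toFinset,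
      κ.κ d z.2 * perK PGL(2, F) k x (z.1, d)) :=
    hasSum_sum fun d _ => (h.hasSum_perK x (z.1, d)).mul_left _
  rw [h1.tsum_eq, rcmp_eq]
  exact Finset.sum_congr rfl fun d _ => mul_comm _ _

theorem norm_rcmp_le {k : HF F × D → HF F × D → ℂ} {M : ℝ} (hM : ∀ x y, ‖k x y‖ ≤ M)
    (κ : DKer F D) : ∃ M', ∀ x z, ‖rcmp k κ x z‖ ≤ M' := by
  obtain ⟨C, hC0, hC⟩ := κ.adj.exists_row_bound
  have hM0 : ∀ x : HF F × D, 0 ≤ M := fun x => (norm_nonneg _).trans (hM x x)
  refine ⟨M * C, fun x z => ?_⟩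
  rw [rcmp_eq]
  have h1 : ∑ d ∈ (κ.finite_col z.2).toFinset, ‖κ.κ d z.2‖ ≤ C := by
    refine le_trans (le_of_eq ?_) (hC z.2)
    have e : ∀ d, ‖κ.adj.κ z.2 d‖ = ‖κ.κ d z.2‖ := fun d => by
      show ‖(starRingEnd ℂ) (κ.κ d z.2)‖ = _
      rw [RCLike.norm_conj]
    simp_rw [e]
    refine (finsum_eq_sum_of_support_subset _ fun d h => ?_).symm
    rw [Set.Finite.coe_toFinset]
    exact fun h1 => h (by
      show ‖κ.κ d z.2‖ = 0
      rw [h1, norm_zero])
  calc ‖∑ d ∈ (κ.finite_col z.2).toFinset, k x (z.1, d) * κ.κ d z.2‖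
      ≤ ∑ d ∈ (κ.finite_col z.2).toFinset, M * ‖κ.κ d z.2‖ := by
        refine (norm_sum_le _ _).trans (Finset.sum_le_sum fun d _ => ?_)
        rw [norm_mul]
        exact mul_le_mul_of_nonneg_right (hM _ _) (norm_nonneg _)
    _ = M * ∑ d ∈ (κ.finite_col z.2).toFinset, ‖κ.κ d z.2‖ := by rw [Finset.mul_sum]
    _ ≤ M * C := mul_le_mul_of_nonneg_left h1 (hM0 x)

theorem perK_rcmp_bdd {k : HF F × D → HF F × D → ℂ} (h : NK k) (κ : DKer F D)
    (hb : ∃ M, ∀ x y, ‖perK PGL(2, F) k x y‖ ≤ M) :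
    ∃ M, ∀ x y, ‖perK PGL(2, F) (rcmp k κ) x y‖ ≤ M := by
  obtain ⟨M, hM⟩ := hb
  obtain ⟨M', hM'⟩ := norm_rcmp_le hM κ
  refine ⟨M', fun x y => ?_⟩
  rw [perK_rcmp h]
  exact hM' x y

theorem rcmp_lk {MP : Type*} {k : MP → HF F × D → HF F × D → ℂ} (κ : DKer F D) (X : MP →₀ ℂ)
    (x y : HF F × D) : rcmp (lk k X) κ x y = X.sum fun p c => c * rcmp (k p) κ x y := by
  rw [rcmp_eq, Finsupp.sum]
  simp_rw [rcmp_eq, lk, Finsupp.sum, Finset.sum_mul, Finset.mul_sum]
  rw [Finset.sum_comm]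
  refine Finset.sum_congr rfl fun p _ => Finset.sum_congr rfl fun d _ => ?_
  ring

end Fermat.Agent.LT.Spec
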