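import Fermat.Agent.LT.Spec.Match
import Fermat.Agent.LT.Mp.GoodInst
import Fermat.Agent.LT.Mp.Fam
import Fermat.Agent.LT.Mp.NormSupp

set_option autoImplicit false
set_option linter.unusedSectionVars false
set_option linter.unusedVariables false

/-!
# The geometric identity in the concrete context
-/

open scoped ENNReal NNReal MatrixGroups InnerProductSpace
open MeasureTheory NumberField Matrix

universe u

namespace Fermat.Agent.LT.Spec

open Fermat.Agent.LT.FA Fermat.Agent.LT.Sp Fermat.Agent.LT.Op Fermat.Agent.LT.Mp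
open Fermat.Agent.LT.Glob Fermat.Agent.LT.Mp.Ctx Fermat.Agent.LT.Loc

section Psi

variable (k E : Type*) [Field k] [NumberField k] [Field E] [NumberField E] [Algebra k E]

/-- chosen extensions of the embeddings -/
noncomputable def psiE : InfinitePlace k → (E →+* ℂ) := (T3.exists_ext k E).choose

theorem psiE_spec (v : InfinitePlace k) :
    (psiE k E v).comp (algebraMap k E) = v.embedding := (T3.exists_ext k E).choose_spec v

end Psi

section Conc

variable {k E : Type u} [Field k] [NumberField k] [Field E] [NumberField E] [Algebra k E]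
  {σ : E ≃ₐ[k] E} (h : Gal3 σ)

variable (σ) in
/-- the three places above -/
noncomputable def plB : Fin 3 → InfinitePlace k → InfinitePlace E := plM σ (psiE k E)

include h in
theorem plB_injective [IsTotallyComplex k] :
    Function.Injective fun p : Fin 3 × InfinitePlace k => plB σ p.1 p.2 :=
  plM_injective (cyc3_of_gal3 h) (psiE_spec k E)

include h in
theorem exists_plB (a : InfinitePlace E) : ∃ j, plB σ j (bwM k a) = a :=
  exists_plM (cyc3_of_gal3 h) (psiE_spec k E) a

theorem bwM_plB (j : Fin 3) (v : InfinitePlace k) : bwM k (plB σ j v) = v :=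
  bwM_plM (psiE_spec k E) j v

variable (b : Bad σ)

/-- the twist -/
noncomputable abbrev TB : Twist E (LocFam.D (b.X h).UE) :=
  LocFam.Auto.twist (b.isCubic h) (b.X h).pres

theorem TB_θ : (TB h b).θ = (σ : E ≃+* E) := rfl

theorem TB_dm (x : LocFam.D (b.X h).UE) : (TB h b).dm x = LocFam.Auto.dmap (b.X h).pres x := rfl

variable [IsTotallyComplex k] [IsTotallyComplex E]

/-- good pairs -/
def goodB (r : MPt (b.X h) (b.v0Data h).pureS) : Prop := GoodM (plB σ) r

/-- good pairs exist -/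
theorem hgoodB (p p' : MPt (b.X h) (b.v0Data h).pureS) :
    ∃ m0, ∀ m, m0 ≤ m → goodB h b (mulP p (UP (b.v0Data h).uS m p')) :=
  hgood_of (u := (b.v0Data h).uS) (fun G B => b.exists_good h G.2 B) p p'

variable [MeasurableSpace (LocFam.D (b.X h).UE)]
  [DiscreteMeasurableSpace (LocFam.D (b.X h).UE)] [Countable (LocFam.D (b.X h).UE)]
  [MeasurableSpace (LocFam.D (b.X h).Uk)] [DiscreteMeasurableSpace (LocFam.D (b.X h).Uk)]
  [Countable (LocFam.D (b.X h).Uk)]
  (WE : SW E (LocFam.D (b.X h).UE)) (WK : SW k (LocFam.D (b.X h).Uk))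

theorem hgEB (r : MPt (b.X h) (b.v0Data h).pureS) (hr : goodB h b r) :
    ∫⁻ y, ∑' g : PGL(2, E), ‖(symE (b.v0Data h).pureS).kM r y (g • (twD (TB h b)).θ y)‖ₑ
      ∂(wtM (muY E (LocFam.D (b.X h).UE)) WE.w) ≠ ∞ :=
  hgE_of WE (TB h b) (fun _ => rfl) r hr

theorem hgKB (r : MPt (b.X h) (b.v0Data h).pureS) (hr : goodB h b r) :
    ∫⁻ y, ∑' g : PGL(2, k), ‖(symK (plB σ) (b.v0Data h).pureS).kM r y (g • y)‖ₑ
      ∂(wtM (muY k (LocFam.D (b.X h).Uk)) WK.w) ≠ ∞ :=
  hgK_of WK r hr

/-- **The geometric identity.** -/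
theorem hmatchB {ζ : k} (hζ : IsPrimitiveRoot ζ 3) (r : MPt (b.X h) (b.v0Data h).pureS)
    (hr : goodB h b r) :
    ∫ y, ∑' g : PGL(2, E), (symE (b.v0Data h).pureS).kM r y (g • (twD (TB h b)).θ y)
        ∂(wtM (muY E (LocFam.D (b.X h).UE)) WE.w) =
      ∫ y, ∑' g : PGL(2, k), (symK (plB σ) (b.v0Data h).pureS).kM r y (g • y)
        ∂(wtM (muY k (LocFam.D (b.X h).Uk)) WK.w) :=
  hmatch_of WE WK (psiE_spec k E) (cyc3_of_gal3 h) (fun _ => rfl) (TB h b) rfl (fun _ => rfl)
    (fun G _ _ hx hγ => b.norm_supp h hζ G hγ hx) r hr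

end Conc

end Fermat.Agent.LT.Spec
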