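import Fermat.Agent.LT.FA.Iso2

set_option autoImplicit false

/-!
# The spectral comparison, abstract assembly

`MP` is a type of matched pairs of kernels; `OE p`, `OK p` are the operators on both sides.
All operators of the comparison are finite linear combinations of matched pairs.
-/

open scoped InnerProductSpace

namespace Fermat.Agent.LT.Spec

open Fermat.Agent.LT.FA

section Lin

variable {H : Type*} [NormedAddCommGroup H] [InnerProductSpace ℂ H] {MP ι : Type*}

/-- linear combinations of operators -/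
noncomputable def lcO (O : MP → H →L[ℂ] H) (X : MP →₀ ℂ) : H →L[ℂ] H :=
  Finsupp.linearCombination ℂ O X

theorem lcO_single (O : MP → H →L[ℂ] H) (p : MP) (c : ℂ) : lcO O (Finsupp.single p c) = c • O p := by
  rw [lcO, Finsupp.linearCombination_single]

theorem lcO_add (O : MP → H →L[ℂ] H) (X Y : MP →₀ ℂ) : lcO O (X + Y) = lcO O X + lcO O Y := by
  rw [lcO, lcO, lcO, map_add]

theorem lcO_zero (O : MP → H →L[ℂ] H) : lcO O (0 : MP →₀ ℂ) = 0 := by
  rw [lcO, map_zero]

/-- products of formal combinations -/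
noncomputable def fmul (mul : MP → MP → MP) (X Y : MP →₀ ℂ) : MP →₀ ℂ :=
  X.sum fun p x => Y.sum fun q y => Finsupp.single (mul p q) (x * y)

theorem lcO_fmul {O : MP → H →L[ℂ] H} {mul : MP → MP → MP} (h : ∀ p q, O (mul p q) = O p * O q)
    (X Y : MP →₀ ℂ) : lcO O (fmul mul X Y) = lcO O X * lcO O Y := by
  have e1 : lcO O (fmul mul X Y) = X.sum fun p x => Y.sum fun q y => (x * y) • (O p * O q) := by
    rw [fmul, lcO, map_finsuppSum]
    refine Finsupp.sum_congr fun p _ => ?_
    rw [map_finsuppSum]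
    refine Finsupp.sum_congr fun q _ => ?_
    rw [Finsupp.linearCombination_single, h]
  rw [e1, lcO, lcO, Finsupp.linearCombination_apply, Finsupp.linearCombination_apply,
    Finsupp.sum, Finsupp.sum, Finsupp.sum, Finset.sum_mul_sum]
  refine Finset.sum_congr rfl fun p _ => ?_
  refine Finset.sum_congr rfl fun q _ => ?_
  rw [smul_mul_smul_comm]

theorem lcO_mapDomain {O : MP → H →L[ℂ] H} {L : MP → MP} {T : H →L[ℂ] H}
    (h : ∀ p, T * O p = O (L p)) (X : MP →₀ ℂ) :
    lcO O (Finsupp.mapDomain L X) = T * lcO O X := by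
  induction X using Finsupp.induction_linear with
  | zero => rw [Finsupp.mapDomain_zero, lcO_zero, mul_zero]
  | add X Y hX hY => rw [Finsupp.mapDomain_add, lcO_add, hX, hY, lcO_add, mul_add]
  | single p c => rw [Finsupp.mapDomain_single, lcO_single, lcO_single, mul_smul_comm, h]

theorem lcO_mapDomain_right {O : MP → H →L[ℂ] H} {L : MP → MP} {T : H →L[ℂ] H}
    (h : ∀ p, O p * T = O (L p)) (X : MP →₀ ℂ) :
    lcO O (Finsupp.mapDomain L X) = lcO O X * T := by
  induction X using Finsupp.induction_linear with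
  | zero => rw [Finsupp.mapDomain_zero, lcO_zero, zero_mul]
  | add X Y hX hY => rw [Finsupp.mapDomain_add, lcO_add, hX, hY, lcO_add, add_mul]
  | single p c => rw [Finsupp.mapDomain_single, lcO_single, lcO_single, smul_mul_assoc, h]

open Classical in
/-- the combination representing a product of operators of the family with `A` -/
noncomputable def word (mul : MP → MP → MP) (L : ι → MP → MP) (iA : ι) (A : MP →₀ ℂ) :
    List ι → MP →₀ ℂ
  | [] => A
  | i :: l => if i = iA then fmul mul A (word mul L iA A l)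
      else Finsupp.mapDomain (L i) (word mul L iA A l)

theorem lcO_word {O : MP → H →L[ℂ] H} {T : ι → H →L[ℂ] H} {mul : MP → MP → MP} {L : ι → MP → MP}
    {iA : ι} {A : MP →₀ ℂ} (hmul : ∀ p q, O (mul p q) = O p * O q)
    (hL : ∀ i, i ≠ iA → ∀ p, T i * O p = O (L i p)) (hA : T iA = lcO O A) (l : List ι) :
    lcO O (word mul L iA A l) = mulL T l * T iA := by
  induction l with
  | nil => rw [word, mulL_nil, one_mul, hA]
  | cons i l ih =>
    have e : mulL T (i :: l) * T iA = T i * (mulL T l * T iA) := by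
      simp [mulL, mul_assoc]
    rw [e, ← ih, word]
    split_ifs with h
    · rw [h, lcO_fmul hmul, hA]
    · rw [lcO_mapDomain (hL i h)]

/-- the predicate holds for all words -/
theorem word_induction {mul : MP → MP → MP} {L : ι → MP → MP} {iA : ι} {A : MP →₀ ℂ}
    {b : (MP →₀ ℂ) → Prop} (h0 : b A) (h1 : ∀ X, b X → b (fmul mul A X))
    (h2 : ∀ i, i ≠ iA → ∀ X, b X → b (Finsupp.mapDomain (L i) X)) (l : List ι) :
    b (word mul L iA A l) := by
  induction l with
  | nil => exact h0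
  | cons i l ih =>
    rw [word]
    split_ifs with h
    · exact h1 _ ih
    · exact h2 i h _ ih

end Lin

section Main

variable {HE HK : Type*} [NormedAddCommGroup HE] [InnerProductSpace ℂ HE] [CompleteSpace HE]
  [NormedAddCommGroup HK] [InnerProductSpace ℂ HK] [CompleteSpace HK] {ι MP : Type*}

/-- the geometric side of a pair of combinations -/
noncomputable def geo (mul : MP → MP → MP) (G : MP → ℂ) (X Y : MP →₀ ℂ) : ℂ :=
  X.sum fun p x => Y.sum fun q y => x * y * G (mul p q)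

/-- one side of the comparison; `O` are the operators of the multipliers, `M` those of the matched
functions -/
structure SideData (MP : Type*) {ι : Type*} {H : Type*} [NormedAddCommGroup H]
    [InnerProductSpace ℂ H] [CompleteSpace H] (T : ι → H →L[ℂ] H) (O M : MP → H →L[ℂ] H)
    (mul : MP → MP → MP) (L : ι → MP → MP) (U : ℕ → MP → MP) (iA : ι) (A : MP →₀ ℂ)
    (good : MP → Prop) (G : MP → ℂ) (V : ℕ → H →L[ℂ] H) (S : H →L[ℂ] H) : Prop where
  hmul : ∀ p q, O (mul p q) = O p * O q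
  hL : ∀ i, i ≠ iA → ∀ p, T i * O p = O (L i p)
  hA : T iA = lcO O A
  hU : ∀ m p, O p * V m = M (U m p)
  /-- the predicate "bounded automorphic kernel" -/
  exists_bdd : ∃ b b' : (MP →₀ ℂ) → Prop, b A ∧ (∀ X, b X → b (fmul mul A X)) ∧
    (∀ i, i ≠ iA → ∀ X, b X → b (Finsupp.mapDomain (L i) X)) ∧
    (∀ m, b' (Finsupp.mapDomain (U m) A)) ∧
    ∀ X Y : MP →₀ ℂ, b X → b' Y → (∀ p ∈ X.support, ∀ q ∈ Y.support, good (mul p q)) →
      hsTrace (lcO O X) (lcO M Y * S) = geo mul G X Y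

theorem lcO_mapDomain_mul {H : Type*} [NormedAddCommGroup H] [InnerProductSpace ℂ H]
    {O M : MP → H →L[ℂ] H} {L : MP → MP} {T : H →L[ℂ] H}
    (h : ∀ p, O p * T = M (L p)) (X : MP →₀ ℂ) :
    lcO M (Finsupp.mapDomain L X) = lcO O X * T := by
  induction X using Finsupp.induction_linear with
  | zero => rw [Finsupp.mapDomain_zero, lcO_zero, lcO_zero, zero_mul]
  | add X Y hX hY => rw [Finsupp.mapDomain_add, lcO_add, hX, hY, lcO_add, add_mul]
  | single p c => rw [Finsupp.mapDomain_single, lcO_single, lcO_single, smul_mul_assoc, h]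

theorem SideData.trace {T : ι → HE →L[ℂ] HE} {O M : MP → HE →L[ℂ] HE}
    {mul : MP → MP → MP} {L : ι → MP → MP} {U : ℕ → MP → MP} {iA : ι} {A : MP →₀ ℂ}
    {good : MP → Prop} {G : MP → ℂ} {V : ℕ → HE →L[ℂ] HE} {S : HE →L[ℂ] HE}
    (D : SideData MP T O M mul L U iA A good G V S) (l : List ι) (m : ℕ)
    (hg : ∀ p ∈ (word mul L iA A l).support, ∀ q ∈ (Finsupp.mapDomain (U m) A).support,
      good (mul p q)) :
    hsTrace (mulL T l * T iA) (T iA * (V m * S)) =
      geo mul G (word mul L iA A l) (Finsupp.mapDomain (U m) A) := by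
  obtain ⟨b, b', h0, h1, h2, h3, h4⟩ := D.exists_bdd
  rw [← h4 _ _ (word_induction h0 h1 h2 l) (h3 m) hg, lcO_word D.hmul D.hL D.hA,
    lcO_mapDomain_mul (D.hU m), ← D.hA, mul_assoc]

/-- **The spectral comparison.** -/
theorem spec_abs {TE : ι → HE →L[ℂ] HE} {TK : ι → HK →L[ℂ] HK} (hE : IsCommSymm TE)
    (hK : IsCommSymm TK) (iA iz : ι) (hHE : IsHS (TE iA)) (hHK : IsHS (TK iA))
    {OE ME : MP → HE →L[ℂ] HE} {OK MK : MP → HK →L[ℂ] HK} {mul : MP → MP → MP}
    {L : ι → MP → MP}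
    {U : ℕ → MP → MP} {A : MP →₀ ℂ} {good : MP → Prop} {GE GK : MP → ℂ}
    {VE : ℕ → HE →L[ℂ] HE} {VK : ℕ → HK →L[ℂ] HK} {S : HE →L[ℂ] HE}
    (DE : SideData MP TE OE ME mul L U iA A good GE VE S)
    (DK : SideData MP TK OK MK mul L U iA A good GK VK 1)
    (hgood : ∀ p q, ∃ m0, ∀ m, m0 ≤ m → good (mul p (U m q)))
    (hmatch : ∀ p, good p → GE p = GK p)
    {q : ℝ} (hq : 0 < q) (hVE : ∀ m, VE (m + 2) = TE iz * VE (m + 1) - (q : ℂ) • VE m)
    (hVK : ∀ m, VK (m + 2) = TK iz * VK (m + 1) - (q : ℂ) • VK m)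
    (s : ι → ℝ) (hsA : s iA ≠ 0) (hsz : s iz ^ 2 < 4 * q)
    [FiniteDimensional ℂ (jointE TE s)] [FiniteDimensional ℂ (jointE TK s)] (m : ℕ) :
    cTr (VE m * S) (jointE TE s) = cTr (VK m) (jointE TK s) := by
  classical
  refine cTr_eq_of_trace_eventually_eq hE hK iA iA iz hHE hHE hHK hHK hq (fun m => VE m * S) VK
    (fun m => ?_) hVK (fun l => ?_) s hsA hsA hsz m
  · rw [hVE, sub_mul, smul_mul_assoc, mul_assoc]
  · -- a uniform bound
    have hfin : ∃ m0, ∀ m, m0 ≤ m → ∀ p ∈ (word mul L iA A l).support, ∀ q ∈ A.support,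
        good (mul p (U m q)) := by
      choose f hf using hgood
      refine ⟨∑ p ∈ (word mul L iA A l).support, ∑ q ∈ A.support, f p q, fun m hm p hp q hq => ?_⟩
      refine hf p q m (le_trans ?_ hm)
      calc f p q ≤ ∑ q ∈ A.support, f p q :=
            Finset.single_le_sum (f := fun q => f p q) (fun _ _ => Nat.zero_le _) hq
        _ ≤ _ := Finset.single_le_sum (f := fun p => ∑ q ∈ A.support, f p q)
            (fun _ _ => Nat.zero_le _) hp
    obtain ⟨m0, hm0⟩ := hfin
    refine ⟨m0, fun m hm => ?_⟩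
    have hg : ∀ p ∈ (word mul L iA A l).support, ∀ q ∈ (Finsupp.mapDomain (U m) A).support,
        good (mul p q) := by
      intro p hp q hq
      obtain ⟨q', hq', rfl⟩ := Finset.mem_image.mp (Finsupp.mapDomain_support hq)
      exact hm0 m hm p hp q' hq'
    rw [DE.trace l m hg]
    have h2 := DK.trace l m hg
    rw [mul_one] at h2
    rw [h2, geo, geo]
    refine Finsupp.sum_congr fun p hp => Finsupp.sum_congr fun q hq => ?_
    rw [hmatch _ (hg p hp q hq)]

/-- **Existence of a joint eigenvector on the `k`-side.** -/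
theorem spec_abs_exists {TE : ι → HE →L[ℂ] HE} {TK : ι → HK →L[ℂ] HK} (hE : IsCommSymm TE)
    (hK : IsCommSymm TK) (iA iz : ι) (hHE : IsHS (TE iA)) (hHK : IsHS (TK iA))
    {OE ME : MP → HE →L[ℂ] HE} {OK MK : MP → HK →L[ℂ] HK} {mul : MP → MP → MP}
    {L : ι → MP → MP}
    {U : ℕ → MP → MP} {A : MP →₀ ℂ} {good : MP → Prop} {GE GK : MP → ℂ}
    {VE : ℕ → HE →L[ℂ] HE} {VK : ℕ → HK →L[ℂ] HK} {S : HE →L[ℂ] HE}
    (DE : SideData MP TE OE ME mul L U iA A good GE VE S)
    (DK : SideData MP TK OK MK mul L U iA A good GK VK 1)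
    (hgood : ∀ p q, ∃ m0, ∀ m, m0 ≤ m → good (mul p (U m q)))
    (hmatch : ∀ p, good p → GE p = GK p)
    {q : ℝ} (hq : 0 < q) (hVE : ∀ m, VE (m + 2) = TE iz * VE (m + 1) - (q : ℂ) • VE m)
    (hVK : ∀ m, VK (m + 2) = TK iz * VK (m + 1) - (q : ℂ) • VK m)
    (s : ι → ℝ) (hsA : s iA ≠ 0) (hsz : s iz ^ 2 < 4 * q)
    (hne : ∀ [FiniteDimensional ℂ (jointE TE s)], cTr (VE 0 * S) (jointE TE s) ≠ 0) :
    FiniteDimensional ℂ (jointE TK s) ∧ ∃ x ∈ jointE TK s, ⟪x, VK 0 x⟫_ℂ ≠ 0 := by
  have h1 := finiteDimensional_jointE hHE.isCompactOperator hsA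
  have h2 := finiteDimensional_jointE hHK.isCompactOperator hsA
  refine ⟨h2, ?_⟩
  apply exists_of_cTr_ne_zero
  rw [← spec_abs hE hK iA iz hHE hHK DE DK hgood hmatch hq hVE hVK s hsA hsz 0]
  exact hne

end Main

end Fermat.Agent.LT.Spec
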