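import Fermat.Agent.LT.FA.Trace
import Fermat.Agent.LT.Spec.Abs

set_option autoImplicit false

/-!
# The geometric side is bilinear in the kernels
-/

open scoped ENNReal NNReal
open MeasureTheory

namespace Fermat.Agent.LT.Spec

open Fermat.Agent.LT.FA

variable {G Y MP : Type*} [Countable G] [MeasurableSpace Y] {μ ν : Measure Y}

/-- the kernel of a combination -/
noncomputable def lk (κ : MP → Y → Y → ℂ) (X : MP →₀ ℂ) (x y : Y) : ℂ :=
  X.sum fun p c => c * κ p x y

theorem measurable_lk {κ : MP → Y → Y → ℂ} (h : ∀ p, Measurable (Function.uncurry (κ p)))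
    (X : MP →₀ ℂ) : Measurable (Function.uncurry (lk κ X)) := by
  have e : Function.uncurry (lk κ X) =
      fun q => ∑ p ∈ X.support, X p * Function.uncurry (κ p) q := rfl
  rw [e]
  exact Finset.measurable_sum _ fun p _ => (h p).const_mul (X p)

/-- the geometric side, for a fixed point of evaluation `z` -/
theorem cvK_lk {κ : MP → Y → Y → ℂ} (X Z : MP →₀ ℂ) (x z : Y)
    (h : ∀ p ∈ X.support, ∀ q ∈ Z.support, Integrable (fun y => κ p x y * κ q y z) μ) :
    cvK μ (lk κ X) (lk κ Z) x z =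
      ∑ p ∈ X.support, ∑ q ∈ Z.support, X p * Z q * cvK μ (κ p) (κ q) x z := by
  have e1 : ∀ y, lk κ X x y * lk κ Z y z =
      ∑ p ∈ X.support, ∑ q ∈ Z.support, X p * Z q * (κ p x y * κ q y z) := by
    intro y
    rw [lk, lk, Finsupp.sum, Finsupp.sum, Finset.sum_mul_sum]
    refine Finset.sum_congr rfl fun p _ => Finset.sum_congr rfl fun q _ => ?_
    ring
  rw [cvK]
  simp_rw [e1]
  rw [integral_finsetSum]
  · refine Finset.sum_congr rfl fun p hp => ?_
    rw [integral_finsetSum]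
    · refine Finset.sum_congr rfl fun q hq => ?_
      rw [integral_const_mul]; rfl
    · intro q hq
      exact (h p hp q hq).const_mul _
  · intro p hp
    exact integrable_finsetSum _ fun q hq => (h p hp q hq).const_mul _

/-- **Bilinearity of the geometric side.** -/
theorem geo_lk [SFinite μ] {κ : MP → Y → Y → ℂ} (hκ : ∀ p, Measurable (Function.uncurry (κ p)))
    (X Z : MP →₀ ℂ) (τ : G → Y → Y) (hτ : ∀ g, Measurable (τ g))
    (hfin : ∀ p ∈ X.support, ∀ q ∈ Z.support,
      ∫⁻ y, ∑' g : G, ∫⁻ x, ‖κ p y x‖ₑ * ‖κ q x (τ g y)‖ₑ ∂μ ∂ν ≠ ∞) :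
    ∫ y, ∑' g : G, cvK μ (lk κ X) (lk κ Z) y (τ g y) ∂ν =
      ∑ p ∈ X.support, ∑ q ∈ Z.support, X p * Z q *
        ∫ y, ∑' g : G, cvK μ (κ p) (κ q) y (τ g y) ∂ν := by
  classical
  -- measurability
  have hm1 : ∀ p q (g : G), Measurable (fun y => ∫⁻ x, ‖κ p y x‖ₑ * ‖κ q x (τ g y)‖ₑ ∂μ) := by
    intro p q g
    have h : Measurable (fun r : Y × Y => ‖κ p r.1 r.2‖ₑ * ‖κ q r.2 (τ g r.1)‖ₑ) :=
      ((hκ p).enorm).mul
        (((hκ q).comp (measurable_snd.prodMk ((hτ g).comp measurable_fst))).enorm)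
    exact h.lintegral_prod_right'
  have hm2 : ∀ p q, Measurable (fun y => ∑' g : G, ∫⁻ x, ‖κ p y x‖ₑ * ‖κ q x (τ g y)‖ₑ ∂μ) :=
    fun p q => Measurable.tsum fun g => hm1 p q g
  have hcm : ∀ p q (g : G), Measurable (fun y => cvK μ (κ p) (κ q) y (τ g y)) := by
    intro p q g
    exact (measurable_cvK (hκ p) (hκ q)).comp (measurable_id.prodMk (hτ g))
  -- bound of the convolution
  have hbd : ∀ p q y (g : G), ‖cvK μ (κ p) (κ q) y (τ g y)‖ₑ ≤
      ∫⁻ x, ‖κ p y x‖ₑ * ‖κ q x (τ g y)‖ₑ ∂μ := by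
    intro p q y g
    refine (enorm_integral_le_lintegral_enorm _).trans (le_of_eq ?_)
    exact lintegral_congr fun x => by rw [enorm_mul]
  have hae : ∀ᵐ y ∂ν, ∀ p ∈ X.support, ∀ q ∈ Z.support,
      ∑' g : G, ∫⁻ x, ‖κ p y x‖ₑ * ‖κ q x (τ g y)‖ₑ ∂μ < ∞ := by
    have h1 : ∀ p ∈ X.support, ∀ᵐ y ∂ν, ∀ q ∈ Z.support,
        ∑' g : G, ∫⁻ x, ‖κ p y x‖ₑ * ‖κ q x (τ g y)‖ₑ ∂μ < ∞ := by
      intro p hp
      rw [Filter.eventually_all_finset]
      intro q hq
      exact ae_lt_top (hm2 p q) (hfin p hp q hq)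
    rw [Filter.eventually_all_finset]
    exact h1
  have hsum : ∀ᵐ y ∂ν, ∑' g : G, cvK μ (lk κ X) (lk κ Z) y (τ g y) =
      ∑ p ∈ X.support, ∑ q ∈ Z.support, X p * Z q * ∑' g : G, cvK μ (κ p) (κ q) y (τ g y) := by
    filter_upwards [hae] with y hy
    have hint : ∀ p ∈ X.support, ∀ q ∈ Z.support, ∀ g : G,
        Integrable (fun x => κ p y x * κ q x (τ g y)) μ := by
      intro p hp q hq g
      refine ⟨?_, ?_⟩
      · refine Measurable.aestronglyMeasurable ?_
        exact ((hκ p).comp (measurable_const.prodMk measurable_id)).mul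
          ((hκ q).comp (measurable_id.prodMk measurable_const))
      · refine lt_of_le_of_lt (le_of_eq ?_) (lt_of_le_of_lt (ENNReal.le_tsum g) (hy p hp q hq))
        exact lintegral_congr fun x => by rw [enorm_mul]
    have hsm : ∀ p ∈ X.support, ∀ q ∈ Z.support,
        Summable (fun g : G => cvK μ (κ p) (κ q) y (τ g y)) := by
      intro p hp q hq
      have h2 : ∑' g : G, ‖cvK μ (κ p) (κ q) y (τ g y)‖ₑ ≠ ∞ :=
        (lt_of_le_of_lt (ENNReal.tsum_le_tsum fun g => hbd p q y g) (hy p hp q hq)).ne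
      have h3 : Summable fun g : G => ‖cvK μ (κ p) (κ q) y (τ g y)‖ := by
        have := ENNReal.summable_toReal h2
        simpa using this
      exact h3.of_norm
    have e1 : ∀ g : G, cvK μ (lk κ X) (lk κ Z) y (τ g y) =
        ∑ p ∈ X.support, ∑ q ∈ Z.support, X p * Z q * cvK μ (κ p) (κ q) y (τ g y) := fun g =>
      cvK_lk X Z y (τ g y) fun p hp q hq => hint p hp q hq g
    simp_rw [e1]
    rw [Summable.tsum_finsetSum]
    · refine Finset.sum_congr rfl fun p hp => ?_
      rw [Summable.tsum_finsetSum]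
      · exact Finset.sum_congr rfl fun q hq => tsum_mul_left
      · exact fun q hq => (hsm p hp q hq).mul_left _
    · exact fun p hp => summable_sum fun q hq => (hsm p hp q hq).mul_left _
  rw [integral_congr_ae hsum]
  have hI : ∀ p ∈ X.support, ∀ q ∈ Z.support,
      Integrable (fun y => ∑' g : G, cvK μ (κ p) (κ q) y (τ g y)) ν := by
    intro p hp q hq
    refine ⟨(Measurable.tsum fun g => hcm p q g).aestronglyMeasurable, ?_⟩
    refine lt_of_le_of_lt (lintegral_mono fun y => ?_) (hfin p hp q hq).lt_top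
    refine enorm_tsum_le_tsum_enorm.trans (ENNReal.tsum_le_tsum fun g => hbd p q y g)
  rw [integral_finsetSum]
  · refine Finset.sum_congr rfl fun p hp => ?_
    rw [integral_finsetSum]
    · exact Finset.sum_congr rfl fun q hq => integral_const_mul _ _
    · exact fun q hq => (hI p hp q hq).const_mul _
  · exact fun p hp => integrable_finsetSum _ fun q hq => (hI p hp q hq).const_mul _

end Fermat.Agent.LT.Spec
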