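import Fermat.Agent.LT.Top.ChainD
import Fermat.Agent.LT.Mp.Hecke
import Fermat.Agent.LT.Fou.Pack
import Fermat.Agent.LT.Glob.SplitC
import Fermat.Agent.LT.Glob.UnifInst
import Fermat.Agent.LT.Brg.Uniq

/-!
# The descent statement in terms of the context, and its instance
-/

set_option autoImplicit false
set_option linter.unusedVariables false

noncomputable section

namespace Fermat.Agent.LT.Spec

open Matrix NumberField IsDedekindDomain Glob LocFam Fou Mp Ty Brg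
open Fermat.Agent.LT.Loc
open scoped MatrixGroups

variable {k E : Type} [Field k] [NumberField k] [Field E] [NumberField E] [Algebra k E]
  [IsTotallyComplex k] [IsTotallyComplex E]

/-- **the descent statement for a context** -/
def DescentB (k E : Type) [Field k] [NumberField k] [Field E] [NumberField E] [Algebra k E]
    [IsTotallyComplex k] [IsTotallyComplex E] (σ : E ≃ₐ[k] E) : Prop :=
  ∀ (h : Gal3 σ) (_ : Tw.Cyc3 σ) (_ : Module.finrank k E = 3) (b : Bad σ) (a0 : Eˣ)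
    (J : ∀ v, Subgroup ((locE k E).G v)) (ψ : ∀ v, (locE k E).G v → ℂ)
    (_ : TypeData (locE k E) b.bad a0 J ψ (fun v => Fib E v) (fun _ w => HE w)
      (sphL (b.X h).UE b.v0))
    (_ : σ (a0 : E) = a0)
    (_ : ∀ v ∈ b.bad, ∀ j ∈ J v, (autoE σ).g v j ∈ J v)
    (_ : ∀ v ∈ b.bad, ∀ j ∈ J v, ψ v ((autoE σ).g v j) = ψ v j)
    (_ : ∀ v ∈ b.bad, ∃ hC : CharOn ((b.X h).UE.U v) (J v) (ψ v), ∀ g,
      ((b.X h).F₀ v).f g = hC.eB.f g)
    (_ : ∀ v ∈ b.bad, v ∉ (b.X h).spl)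
    (lv : HeightOneSpectrum (𝓞 k) → ℝ) (_ : lv b.v0 ^ 2 < 4)
    (φ : HF E × D (b.X h).UE → ℂ)
    (_ : FormE b.bad J ψ b.v0 σ (fun v => ((√((v.asIdeal.absNorm : ℕ) : ℝ) * lv v : ℝ) : ℂ)) φ)
    (_ : ∃ y, φ y ≠ 0)
    (v1 : HeightOneSpectrum (𝓞 k)) (π : 𝓞 k) (_ : v1.asIdeal = Ideal.span {π}) (M : ℕ)
    (_ : M ≠ 0) (_ : (M : 𝓞 k) ∣ π - 1)
    (_ : ∀ v, PK (Oc v) M ≤ (b.X h).Uk.U v) (_ : ∀ v, PK (OE E v) M ≤ (b.X h).UE.U v)
    (_ : v1 ∉ b.bad) (_ : v1 ≠ b.v0) (_ : IsSpl σ v1) (_ : lv v1 = -2),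
  ∃ (φk : HF k × D (b.X h).Uk → ℂ) (mu : HeightOneSpectrum (𝓞 k) → ℝ),
    AutForm φk ∧ (∃ y, φk y ≠ 0) ∧
    ∀ v ∉ b.bad, v ≠ b.v0 →
      HeckeAt (HK v) (((√((v.asIdeal.absNorm : ℕ) : ℝ) : ℝ) : ℂ) * ((mu v : ℝ) : ℂ)) φk ∧
      (IsSpl σ v → mu v = lv v)

omit [IsTotallyComplex k] [IsTotallyComplex E] in
/-- the norms at the split places -/
theorem absNorm_of_isSpl {σ : E ≃ₐ[k] E} (h : Gal3 σ) {v : HeightOneSpectrum (𝓞 k)}
    (hs : IsSpl σ v) (w : Fib E v) : Ideal.absNorm w.1.asIdeal = Ideal.absNorm v.asIdeal := by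
  obtain ⟨j, rfl⟩ := hs.choose_spec.plc_surjective h w
  exact hs.choose_spec.absNorm_plc h j

omit [IsTotallyComplex k] in
/-- a natural number in a prime generated by an element congruent to one -/
theorem not_mem_of_dvd {v : HeightOneSpectrum (𝓞 k)} {π : 𝓞 k} {M N : ℕ}
    (hπ : v.asIdeal = Ideal.span {π}) (hM : (M : 𝓞 k) ∣ π - 1) (hN : N ∣ M) :
    (N : 𝓞 k) ∉ v.asIdeal := by
  intro hmem
  have h1 : π - 1 ∈ v.asIdeal :=
    Ideal.mem_of_dvd _ ((Nat.cast_dvd_cast hN : (N : 𝓞 k) ∣ (M : 𝓞 k)).trans hM) hmem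
  have h2 : π ∈ v.asIdeal := by rw [hπ]; exact Ideal.mem_span_singleton_self π
  have h3 : (1 : 𝓞 k) ∈ v.asIdeal := by
    have := v.asIdeal.sub_mem h2 h1
    rwa [sub_sub_cancel] at this
  exact v.isPrime.ne_top ((Ideal.eq_top_iff_one _).2 h3)

/-- **The descent statement from the one for the context.** -/
theorem descent_of_B {σ : E ≃ₐ[k] E} (HB : DescentB k E σ) : Chain.Descent k E σ := by
  intro h hcyc hfin T v0 hv0 hs lam hkill heq h0 U hU hU' f hf hne heqv hhk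
  -- the context
  have hC : ∀ v, CharOn (PK (OE E v) (T.P.N ^ T.n1)) (T.P.J (locE k E) v)
      (T.P.psi (locE k E) v) := fun v =>
    Par.charOn (L := locE k E) (v := v) T.hδ T.hn1
  let b : Bad σ := mkBad T.P.hN T.n1 T.n T.hunr (fun v _ => (hC v).eB)
    (fun v _ => (hC v).eH.fin') T.hm v0 hv0 hs
  have hmem : ∀ {v : HeightOneSpectrum (𝓞 k)}, v ∈ b.bad ↔ (T.P.N : 𝓞 k) ∈ v.asIdeal :=
    fun {v} => mem_mkBad_bad T.P.hN T.hunr _ T.hm hv0 hs
  have hUE : ∀ v : HeightOneSpectrum (𝓞 k), (T.P.N : 𝓞 k) ∈ v.asIdeal →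
      (b.X h).UE.U v = PK (OE E v) (T.P.N ^ T.n1) := fun v hv =>
    mkBad_UE h T.P.hN T.hunr _ T.hm hv0 hs hv
  have hF₀ : ∀ (v : HeightOneSpectrum (𝓞 k)) (_ : (T.P.N : 𝓞 k) ∈ v.asIdeal)
      (g : PGL(2, RE E v)), ((b.X h).F₀ v).f g = (hC v).eB.f g := fun v hv g =>
    mkBad_F₀ h T.P.hN T.hunr _ T.hm hv0 hs hv g
  let W : (locE k E).Level := (b.X h).UE
  have hle : ∀ v, W.U v ≤ U.U v := by
    intro v
    by_cases hv : (T.P.N : 𝓞 k) ∈ v.asIdeal
    · rw [hU' v hv]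
      exact (hUE v hv).le
    · rw [hU v hv]
      exact W.le v
  -- the kill place
  obtain ⟨Mk, hMk, hMk'⟩ := exists_uniform_level (b.X h).Uk
  obtain ⟨Me, hMe, hMe'⟩ := exists_uniform_level (b.X h).UE
  have hnv0 : Ideal.absNorm v0.asIdeal ≠ 0 := by
    rw [Ne, Ideal.absNorm_eq_zero_iff]
    exact v0.ne_bot
  obtain ⟨π, v1, hπ, hπM, hs1, hl1⟩ := hkill (Mk * Me * (T.P.N * Ideal.absNorm v0.asIdeal))
    (mul_ne_zero (mul_ne_zero hMk hMe) (mul_ne_zero T.P.hN hnv0))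
  have hb1 : v1 ∉ b.bad := fun hv => not_mem_of_dvd hπ hπM
    ((dvd_mul_right T.P.N _).trans (dvd_mul_left _ _)) (hmem.1 hv)
  have h01 : v1 ≠ b.v0 := by
    intro e
    apply not_mem_of_dvd hπ hπM ((dvd_mul_left (Ideal.absNorm v0.asIdeal) T.P.N).trans
      (dvd_mul_left _ _))
    have e' : v1 = v0 := e
    rw [e']
    exact Ideal.absNorm_mem _
  -- the eigenvalues
  let lv : HeightOneSpectrum (𝓞 k) → ℝ := fun v => lam (Classical.arbitrary (Fib E v)).1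
  have hlv : ∀ v : HeightOneSpectrum (𝓞 k), (T.P.N : 𝓞 k) ∉ v.asIdeal → ∀ w : Fib E v,
      lam w.1 = lv v := fun v hv w => heq v hv w _
  have hlam : ∀ v : HeightOneSpectrum (𝓞 k), (T.P.N : 𝓞 k) ∉ v.asIdeal → IsSpl σ v →
      ∀ w : Fib E v, HeckeAt (HE w)
        (((√((v.asIdeal.absNorm : ℕ) : ℝ) * lv v : ℝ) : ℂ)) (pull hle f) := by
    intro v hv hsv w
    refine (heckeAt_pull_iff hle f _ _).2 ?_
    have h1 := hhk v hv w
    rw [hlv v hv w, absNorm_of_isSpl h hsv w] at h1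
    rw [Complex.ofReal_mul]
    exact h1
  have hN0 : 0 < T.P.N := Nat.pos_of_ne_zero T.P.hN
  have hplN : ∀ {v : HeightOneSpectrum (𝓞 k)}, v ∈ T4.plN k T.P.N ↔
      (T.P.N : 𝓞 k) ∈ v.asIdeal := fun {v} => T4.mem_plN hN0
  have hbad : T4.plN k T.P.N = b.bad := by
    ext v
    rw [hplN, hmem]
  -- the type
  have hT : TypeData (locE k E) b.bad T.P.a0 (T.P.J (locE k E)) (T.P.psi (locE k E))
      (fun v => Fib E v) (fun _ w => HE w) (sphL (b.X h).UE b.v0) := by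
    rw [← hbad]
    refine typeData_E hN0 T.hj (fun v hv => ?_) (fun v hv => ?_)
    · rw [hplN] at hv
      by_cases hvv : v = b.v0
      · subst hvv
        exact sphL_same _ _
      · rw [sphL_ne _ hvv]
        exact b.UE_good h (fun hc => hv (hmem.1 hc)) hvv
    · rw [hplN] at hv
      have hvv : v ≠ b.v0 := by
        rintro rfl
        exact hv0 hv
      rw [sphL_ne _ hvv, hUE v hv]
      exact (hC v).le
  obtain ⟨φk, mu, ha, hn, hH⟩ := HB h hcyc hfin b T.P.a0 (T.P.J (locE k E))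
    (T.P.psi (locE k E)) hT
    (by
      have h1 := congrArg σ T.P.a0_mul
      rw [map_mul, map_one, map_pow, map_natCast] at h1
      have h2 : σ (T.P.a0 : E) * (T.P.N : E) ^ (3 * T.P.j) =
          (T.P.a0 : E) * (T.P.N : E) ^ (3 * T.P.j) := by
        rw [h1, T.P.a0_mul]
      exact mul_right_cancel₀ (pow_ne_zero _ T.P.N_ne) h2)
    (fun v _ j hj' => (Par.g_mem_J_iff (autoE σ)).mpr hj')
    (fun v _ j _ => Par.psi_g (autoE σ) j)
    (by
      intro v hv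
      rw [hmem] at hv
      have key : ∀ (K : Subgroup PGL(2, RE E v)) (hK : K = PK (OE E v) (T.P.N ^ T.n1))
          (F : BiInv K) (hF : ∀ g, F.f g = (hC v).eB.f g),
          ∃ hC' : CharOn K (T.P.J (locE k E) v) (T.P.psi (locE k E) v), ∀ g,
            F.f g = hC'.eB.f g := by
        rintro _ rfl F hF
        exact ⟨hC v, hF⟩
      exact key _ (hUE v hv) _ (hF₀ v hv))
    (fun v hv => mkBad_not_spl h T.P.hN T.hunr _ T.hm hv0 hs (hmem.1 hv))
    lv (by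
      have : lv b.v0 = 0 := h0 _
      rw [this]; norm_num)
    (pull hle f)
    { aut := (autForm_pull_iff hle f).2 hf
      eqv := fun v hv => (eqvAt_pull_iff hle f v _ _).2 (heqv v (hmem.1 hv))
      sph := by
        refine (eqvAt_pull_iff hle f v0 _ _).2 ?_
        have e : U.U v0 = PO ((locE k E).O v0) := hU v0 hv0
        intro p d g j hj hg
        rw [one_mul]
        congr 2
        have hj' : j ∈ U.U v0 := by rw [e]; exact hj
        have e1 : ((g * j : (locE k E).G v0) : (locE k E).G v0 ⧸ U.U v0) = d v0 := by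
          rw [hg]
          refine QuotientGroup.eq.2 ?_
          rw [_root_.mul_inv_rev, mul_assoc, inv_mul_cancel, mul_one]
          exact inv_mem hj'
        change setv d v0 _ = d
        rw [e1, setv_self]
      hk0 := fun w => hlam v0 hv0 hs w
      hks := fun v hv hvv hsv w => hlam v (fun hc => hv (hmem.2 hc)) hsv w }
    (by
      obtain ⟨x, hx⟩ := hne
      by_contra hcon
      push Not at hcon
      exact hx ((pull_eq_zero_iff hle f).1 (funext hcon) ▸ rfl))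
    v1 π hπ _ (mul_ne_zero (mul_ne_zero hMk hMe) (mul_ne_zero T.P.hN hnv0)) hπM
    (fun v => (PK_mono ((dvd_mul_right Mk Me).trans (dvd_mul_right _ _))).trans (hMk' v))
    (fun v => (PK_mono ((dvd_mul_left Me Mk).trans (dvd_mul_right _ _))).trans (hMe' v))
    hb1 h01 hs1 (hl1 _)
  refine ⟨(b.X h).Uk, φk, mu, ha, hn, fun v hv hvv => ?_⟩
  have hvb : v ∉ b.bad := fun hc => hv (hmem.1 hc)
  obtain ⟨h1, h2⟩ := hH v hvb hvv
  exact ⟨b.Uk_good h hvb hvv, h1, fun hsv w => (h2 hsv).trans (hlv v hv w).symm⟩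

end Fermat.Agent.LT.Spec
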