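import Fermat.Agent.LT.Op.Tw
import Fermat.Agent.LT.Brg.IK

set_option autoImplicit false
set_option linter.unusedSectionVars false

/-!
# The archimedean operators and the automorphism
-/

open scoped ENNReal NNReal MatrixGroups
open MeasureTheory ProbabilityTheory NumberField

namespace Fermat.Agent.LT.Spec

open Fermat.Agent.LT.FA Fermat.Agent.LT.Sp Fermat.Agent.LT.Op Fermat.Agent.LT.Fou

variable {F : Type*} [Field F] [NumberField F] {D : Type*} [MulAction (GL (Fin 2) F) D]
  [MeasurableSpace D] [DiscreteMeasurableSpace D] [Countable D] [FinPart F D]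
  [IsTotallyComplex F] {w : HF F × D → ℝ≥0} [IsFiniteMeasure (wtM (muY F D) w)]

theorem opA_mul_twD_op (hw : IsWt PGL(2, F) (muY F D) w) (T : Twist F D)
    (j : InfinitePlace F) (κ : IKer) :
    opA hw j κ * (twD T).op hw = (twD T).op hw * opA hw (permPl T.θ j) κ := by
  have h := opT_opA hw T (permPl T.θ j) κ
  have h2 : permPl T.θ.symm (permPl T.θ j) = j := by
    rw [← permPl_symm_symm T.θ j]
    exact (permPl T.θ.symm).apply_symm_apply j
  rw [h2] at h
  exact h.symm

/-- **`hσa`** -/
theorem exists_opA_twD (hw : IsWt PGL(2, F) (muY F D) w) (T : Twist F D)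
    (a : InfinitePlace F × IKer) :
    ∃ a' : InfinitePlace F × IKer, opA hw a.1 a.2 * (twD T).op hw =
      (twD T).op hw * opA hw a'.1 a'.2 ∧ a'.2.ev = a.2.ev :=
  ⟨(permPl T.θ a.1, a.2), opA_mul_twD_op hw T a.1 a.2, rfl⟩

theorem opD_mul_twD_op (hw : IsWt PGL(2, F) (muY F D) w) (T : Twist F D) {κ κ' : DKer F D}
    (h : tw T κ' = κ) : opD hw κ * (twD T).op hw = (twD T).op hw * opD hw κ' := by
  rw [← h]
  exact (opT_opD hw T κ').symm

end Fermat.Agent.LT.Spec
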