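import Fermat.Agent.LT.Kill.RegI

set_option autoImplicit false
set_option linter.unusedSectionVars false
set_option linter.unusedVariables false

/-!
# The `k`-side of the descent: from the joint eigenspace to the automorphic form
-/

namespace Fermat.Agent.LT.Spec

open MeasureTheory Module NumberField Matrix IsDedekindDomain
open Fermat.Agent.LT Fermat.Agent.LT.Sp Fermat.Agent.LT.Op
open Fermat.Agent.LT.FA Fermat.Agent.LT.Loc Fermat.Agent.LT.Glob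
open Fermat.Agent.LT.Kill Fermat.Agent.LT.Mp.Ctx Fermat.Agent.LT.Mp
open scoped MatrixGroups ContDiff ENNReal NNReal

universe u

variable {k E : Type u} [Field k] [NumberField k] [Field E] [NumberField E] [Algebra k E]
  {σ : E ≃ₐ[k] E} {h : Gal3 σ} {b : Bad σ} {K : KillD h b} (t : K.Test)
  [IsTotallyComplex k] [IsTotallyComplex E]
  [MeasurableSpace (LocFam.D (b.X h).UE)] [DiscreteMeasurableSpace (LocFam.D (b.X h).UE)]
  [Countable (LocFam.D (b.X h).UE)]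
  [MeasurableSpace (LocFam.D (b.X h).Uk)] [DiscreteMeasurableSpace (LocFam.D (b.X h).Uk)]
  [Countable (LocFam.D (b.X h).Uk)]
  {wk : HF k × LocFam.D (b.X h).Uk → ℝ≥0}
  [IsFiniteMeasure (wtM (muY k (LocFam.D (b.X h).Uk)) wk)]

theorem sqrt_absNorm_ne_zero (v : HeightOneSpectrum (𝓞 k)) :
    √((v.asIdeal.absNorm : ℕ) : ℝ) ≠ 0 := by
  have h1 : v.asIdeal.absNorm ≠ 0 := by
    rw [Ne, Ideal.absNorm_eq_zero_iff]
    exact v.ne_bot
  positivity

/-- **the form on the `k`-side** -/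
theorem exists_form_of_jointE (hwk : IsWt PGL(2, k) (muY k (LocFam.D (b.X h).Uk)) wk)
    {lam : Idx (Option (Jsp b)) (InfinitePlace E × IKer) → ℝ} (hlA : lam .A ≠ 0)
    (hla : ∀ (w : InfinitePlace E) (κ : IKer), lam (.arch (w, κ)) = κ.ev)
    {lv : HeightOneSpectrum (𝓞 k) → ℝ}
    (hlf : ∀ j : Jsp b, lam (.fin (some j)) = √((j.v.asIdeal.absNorm : ℕ) : ℝ) * lv j.v)
    (hne : jointE (TKf (plB σ) (bwM k) hwk t.A (b.sF h) Prod.fst Prod.snd) lam ≠ ⊥) :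
    ∃ (φ : HF k × LocFam.D (b.X h).Uk → ℂ) (mu : HeightOneSpectrum (𝓞 k) → ℝ),
      Fou.AutForm φ ∧ (∃ y, φ y ≠ 0) ∧
      (∀ v ∉ b.bad, v ≠ b.v0 → Fou.HeckeAt (L := (b.X h).Lk) (HK v)
        ((√((v.asIdeal.absNorm : ℕ) : ℝ) * mu v : ℝ) : ℂ) φ) ∧
      ∀ v ∉ b.bad, v ≠ b.v0 → IsSpl σ v → mu v = lv v := by
  have hbK := t.hbK (T := K.TS) K.TS_coe (bw := bwM k) (pl := plB σ) (fun v i => bwM_plB i v)
    (fun v i => bwM_plB i v) (plB_injective h) (exists_plB h)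
  obtain ⟨φ, mu, h1, h2, h3, h4⟩ := Brg.exit_form h b hwk t.A (b.sF h) Prod.fst Prod.snd hbK hlA
    hne fun y hy hy0 => t.reg_KB hwk hlA hla y hy hy0
  refine ⟨φ, mu, h1, h2, h3, fun v hb h0 hs => ?_⟩
  have h5 := h4 v hb h0 (some (Jsp.mk' hb h0 hs 0)) (Brg.heckeT_eq_MK h b hb h0 hs 0).symm
  rw [hlf] at h5
  exact (mul_left_cancel₀ (sqrt_absNorm_ne_zero v) h5).symm

end Fermat.Agent.LT.Spec
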