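import Fermat.Agent.LT.Spec.DescI
import Fermat.Agent.LT.Spec.Tail
import Fermat.Agent.LT.Spec.SigA
import Fermat.Agent.LT.Spec.MatchB
import Fermat.Agent.LT.Kill.CombE
import Fermat.Agent.LT.V0.FBad
import Fermat.Agent.LT.Brg.EntE
import Fermat.Agent.LT.Glob.DMeas

/-!
# The descent
-/

set_option autoImplicit false
set_option linter.unusedVariables false

noncomputable section

namespace Fermat.Agent.LT.Spec

open MeasureTheory Module NumberField Matrix IsDedekindDomain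
open Fermat.Agent.LT Fermat.Agent.LT.Sp Fermat.Agent.LT.Op
open Fermat.Agent.LT.FA Fermat.Agent.LT.Loc Fermat.Agent.LT.Glob Fermat.Agent.LT.Glob.LocFam
open Fermat.Agent.LT.Kill Fermat.Agent.LT.Mp.Ctx Fermat.Agent.LT.Mp Fermat.Agent.LT.Brg
open Fermat.Agent.LT.Fou (AutForm HeckeAt EqvAt TypeData)
open scoped MatrixGroups ContDiff ENNReal NNReal

variable {k E : Type} [Field k] [NumberField k] [Field E] [NumberField E] [Algebra k E]
  {σ : E ≃ₐ[k] E} {h : Gal3 σ} {b : Bad σ} {K : KillD h b}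

/-- the system of eigenvalues -/
def lamD (t : K.Test) (lv : HeightOneSpectrum (𝓞 k) → ℝ) :
    Idx (Option (Jsp b)) (InfinitePlace E × IKer) → ℝ
  | .A => t.val (lv K.v)
  | .fin none => √((b.v0.asIdeal.absNorm : ℕ) : ℝ) * lv b.v0
  | .fin (some j) => √((j.v.asIdeal.absNorm : ℕ) : ℝ) * lv j.v
  | .arch a => a.2.ev

variable [IsTotallyComplex k] [IsTotallyComplex E]

/-- **The descent, for the context.** -/
theorem descentB {ζ : k} (hζ : IsPrimitiveRoot ζ 3) : DescentB k E σ := by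
  intro h hcyc hE b a0 J ψ hT ha0 hJ hψ hB hns lv hz φ hφ hne v1 π hπ M hM hπM hMk hME hb1 h01
    hs1 hl1
  let K : KillD h b := ⟨v1, hb1, h01, hs1, π, hπ, M, hπM, hMk, hME⟩
  obtain ⟨t⟩ := K.exists_test
  let WE : SW E (LocFam.D (b.X h).UE) := sw _ _
  let WK : SW k (LocFam.D (b.X h).Uk) := sw _ _
  have hwE := WE.isWt
  have hwk := WK.isWt
  let d := b.v0Data h
  have hI : IsoBad h b J ψ :=
    ⟨hns, fun v hv => (hB v hv).choose, fun v hv => (hB v hv).choose_spec⟩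
  have hlA : lamD t lv .A ≠ 0 := t.val_ne_zero' hl1
  have hq : (d.B.card : ℝ) = ((b.v0.asIdeal.absNorm : ℕ) : ℝ) := by
    exact_mod_cast card_reps b.v0
  have hq0 : (0 : ℝ) < ((b.v0.asIdeal.absNorm : ℕ) : ℝ) := by
    have h1 := sqrt_absNorm_ne_zero (k := k) b.v0
    rw [Real.sqrt_ne_zero'] at h1
    exact h1
  have hbE := t.hbE (T := K.TS) K.TS_coe hE
  have hbK := t.hbK (T := K.TS) K.TS_coe (bw := bwM k) (pl := plB σ) (fun v i => bwM_plB i v)
    (fun v i => bwM_plB i v) (plB_injective h) (exists_plB h)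
  -- the form
  obtain ⟨x0, hx, hx0, hxs, hxa, hxZ, hxe, hxB⟩ := exists_x0 h b hwE hI hφ hne
    (fun j => ((lamD t lv (.fin j) : ℝ) : ℂ)) (fun p => rfl)
  have key := spec_out (X := b.X h) (S₀ := d.pureS) (plB σ) (plB_injective h) (bwM k)
    (exists_plB h) hwE hwk (twD (TB h b)) t.A (b.sF h) Prod.fst Prod.snd none d.uS
    hbE hbK (t.hAE (T := K.TS) K.TS_coe hwE) (t.hAK (T := K.TS) K.TS_coe (plB σ) hwk)
    (b.ME_sF_adj h (V0.ME_z_adj d)) (b.MK_sF_adj h (V0.MK_z_adj d))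
    (q := (d.B.card : ℝ)) (by rw [hq]; exact hq0) (V0.recE d) (V0.recK d)
    (goodB h b) (hgEB h b WE) (hgKB h b WK) (hgoodB h b) (hmatchB h b WE WK hζ)
    (lamD t lv) hlA
    (by
      rw [hq]
      change (√((b.v0.asIdeal.absNorm : ℕ) : ℝ) * lv b.v0) ^ 2 < _
      rw [mul_pow, Real.sq_sqrt hq0.le]
      nlinarith)
    (V0.gZ d) (V0.ge d) (V0.go d) (V0.iwOps_bad h b hB hwE hJ hψ d (b.isCubic h))
    (by rw [V0.gZ_zero]; rfl) (V0.gZ_adj d)
    (fun i j hj => V0.ge_commute d i _ (b.sF_G_v0 h hj))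
    (fun i p hp => V0.ge_commute d i _ fun l => t.comb_supp_v0 (T := K.TS) K.TS_coe hp l)
    (fun i j hj => V0.go_commute d i _ (b.sF_G_v0 h hj))
    (fun i p hp => V0.go_commute d i _ fun l => t.comb_supp_v0 (T := K.TS) K.TS_coe hp l)
    (by
      intro j hj
      obtain ⟨j', hj', h1, h2⟩ := b.exists_tw_sF h hj
      refine ⟨j', hj', opD_mul_twD_op hwE _ h2, ?_⟩
      cases j with
      | none => exact absurd rfl hj
      | some j =>
        cases j' with
        | none => exact absurd rfl hj'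
        | some j' =>
          have h3 : j'.v = j.v := by simpa using h1
          change √((j'.v.asIdeal.absNorm : ℕ) : ℝ) * lv j'.v = √((j.v.asIdeal.absNorm : ℕ) : ℝ) * lv j.v
          rw [h3])
    (fun a => exists_opA_twD hwE _ a)
    (t.hAeig_spec hwE (fun j => rfl) (fun a => rfl) rfl)
    hx0 hxs hxa hxZ hxe hxB
    (fun y hA h1 h2 h3 h4 h5 => huniq_lcO h b hwE
      (s := fun v => ((√((v.asIdeal.absNorm : ℕ) : ℝ) * lv v : ℝ) : ℂ)) hT ha0 hJ hψ hI t.A hbE
      (Complex.ofReal_ne_zero.2 hlA)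
      (fun y hy hy' => t.reg_E hwE hE (Complex.ofReal_ne_zero.2 hlA) hy
        fun j κ => hy' (j, κ))
      (fun j => ((lamD t lv (.fin j) : ℝ) : ℂ)) (fun p => rfl) hA h1 h2 h3 h4 h5)
  obtain ⟨φk, mu, hk1, hk2, hk3, hk4⟩ := exists_form_of_jointE t hwk hlA (fun w κ => rfl)
    (lv := lv) (fun j => rfl) key.2
  refine ⟨φk, mu, hk1, hk2, fun v hb h0 => ⟨?_, hk4 v hb h0⟩⟩
  rw [← Complex.ofReal_mul]
  exact hk3 v hb h0

/-- **The descent.** -/
theorem descent {ζ : k} (hζ : IsPrimitiveRoot ζ 3) : Chain.Descent k E σ :=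
  descent_of_B (descentB hζ)

end Fermat.Agent.LT.Spec
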