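import Fermat.Agent.LT.FA.Trace

/-!
# Expansion of the trace of a product of two operators given by linear combinations of kernels
-/

set_option autoImplicit false
set_option linter.unusedSectionVars false
set_option linter.unusedVariables false

open scoped ENNReal NNReal InnerProductSpace
open MeasureTheory

namespace Fermat.Agent.LT.Spec

open FA

variable {G Y : Type*} [Group G] [MulAction G Y] [MeasurableSpace Y] [MeasurableConstSMul G Y]
  {μ : Measure Y} [SMulInvariantMeasure G Y μ] [Countable G] {w : Y → ℝ≥0}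

/-- linear combinations of kernels -/
def lc {I : Type*} [Fintype I] (c : I → ℂ) (p : I → Y → Y → ℂ) (x y : Y) : ℂ :=
  ∑ i, c i * p i x y

theorem hsTrace_expand [SigmaFinite μ] [SigmaFinite (wtM μ w)]
    [TopologicalSpace.SeparableSpace (Lp ℂ 2 (wtM μ w))] {I J : Type*} [Fintype I] [Fintype J]
    (hw : IsWt G μ w) {A B : HA G μ →L[ℂ] HA G μ} {c : I → ℂ} {d : J → ℂ}
    {p : I → Y → Y → ℂ} {q : J → Y → Y → ℂ}
    (hp : ∀ i, Measurable (Function.uncurry (p i))) (hq : ∀ j, Measurable (Function.uncurry (q j)))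
    (hA : KRep A (lc c p)) (hB : KRep B (lc d q))
    (hK₁ : IsL2Ker₂ (wtM μ w) (perK G (lc c p))) (hK₂ : IsL2Ker₂ (wtM μ w) (perK G (lc d q)))
    {e₂ : G → G} (h₂ : ∀ j (g : G) x y, q j (g • x) (e₂ g • y) = q j x y)
    (hfin : ∀ i j, ∫⁻ y, ∑' g : G, ∫⁻ x, ‖p i y x‖ₑ * ‖q j x (g • y)‖ₑ ∂μ ∂(wtM μ w) ≠ ∞) :
    hsTrace A B = ∑ i, ∑ j, c i * d j * ∫ y, ∑' g : G, cvK μ (p i) (q j) y (g • y) ∂(wtM μ w) := by
  classical
  set ν := wtM μ w with hν
  set Φ : I → J → Y → G → ℝ≥0∞ := fun i j y g => ∫⁻ x, ‖p i y x‖ₑ * ‖q j x (g • y)‖ₑ ∂μ with hΦ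
  have hΦm : ∀ i j g, Measurable (fun y => Φ i j y g) := by
    intro i j g
    have h : Measurable (fun z : Y × Y => ‖p i z.1 z.2‖ₑ * ‖q j z.2 (g • z.1)‖ₑ) :=
      ((hp i).enorm).mul
        (((hq j).comp (measurable_snd.prodMk ((measurable_const_smul g).comp measurable_fst))).enorm)
    exact h.lintegral_prod_right'
  -- bound for the sum
  have hb : ∀ y g, ∫⁻ x, ‖lc c p y x‖ₑ * ‖lc d q x (g • y)‖ₑ ∂μ ≤
      ∑ i, ∑ j, (‖c i‖ₑ * ‖d j‖ₑ) * Φ i j y g := by
    intro y g
    have hm : ∀ i j, Measurable (fun x => ‖p i y x‖ₑ * ‖q j x (g • y)‖ₑ) := by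
      intro i j
      exact (((hp i).comp (measurable_const.prodMk measurable_id)).enorm).mul
        (((hq j).comp (measurable_id.prodMk measurable_const)).enorm)
    have e : ∑ i, ∑ j, (‖c i‖ₑ * ‖d j‖ₑ) * Φ i j y g =
        ∫⁻ x, ∑ i, ∑ j, (‖c i‖ₑ * ‖d j‖ₑ) * (‖p i y x‖ₑ * ‖q j x (g • y)‖ₑ) ∂μ := by
      rw [lintegral_finsetSum _ (fun i _ => Finset.measurable_fun_sum _ fun j _ => (hm i j).const_mul _)]
      refine Finset.sum_congr rfl fun i _ => ?_
      rw [lintegral_finsetSum _ (fun j _ => (hm i j).const_mul _)]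
      refine Finset.sum_congr rfl fun j _ => ?_
      rw [lintegral_const_mul _ (hm i j)]
    rw [e]
    refine lintegral_mono fun x => ?_
    have h1 : ‖lc c p y x‖ₑ ≤ ∑ i, ‖c i‖ₑ * ‖p i y x‖ₑ := by
      refine (enorm_sum_le _ _).trans (le_of_eq ?_)
      exact Finset.sum_congr rfl fun i _ => enorm_mul _ _
    have h2 : ‖lc d q x (g • y)‖ₑ ≤ ∑ j, ‖d j‖ₑ * ‖q j x (g • y)‖ₑ := by
      refine (enorm_sum_le _ _).trans (le_of_eq ?_)
      exact Finset.sum_congr rfl fun i _ => enorm_mul _ _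
    refine (mul_le_mul' h1 h2).trans (le_of_eq ?_)
    rw [Finset.sum_mul_sum]
    refine Finset.sum_congr rfl fun i _ => Finset.sum_congr rfl fun j _ => ?_
    ring
  have hfinS : ∫⁻ y, ∑' g : G, ∑ i, ∑ j, (‖c i‖ₑ * ‖d j‖ₑ) * Φ i j y g ∂ν ≠ ∞ := by
    have e : ∀ y, ∑' g : G, ∑ i, ∑ j, (‖c i‖ₑ * ‖d j‖ₑ) * Φ i j y g =
        ∑ i, ∑ j, (‖c i‖ₑ * ‖d j‖ₑ) * ∑' g : G, Φ i j y g := by
      intro y
      rw [Summable.tsum_finsetSum (fun i _ => ENNReal.summable)]
      refine Finset.sum_congr rfl fun i _ => ?_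
      rw [Summable.tsum_finsetSum (fun j _ => ENNReal.summable)]
      refine Finset.sum_congr rfl fun j _ => ?_
      rw [ENNReal.tsum_mul_left]
    simp_rw [e]
    have hm2 : ∀ i j, Measurable (fun y => (‖c i‖ₑ * ‖d j‖ₑ) * ∑' g : G, Φ i j y g) := fun i j =>
      (Measurable.tsum fun g => hΦm i j g).const_mul _
    rw [lintegral_finsetSum _ (fun i _ => Finset.measurable_fun_sum _ fun j _ => hm2 i j)]
    refine ENNReal.sum_ne_top.mpr fun i _ => ?_
    rw [lintegral_finsetSum _ (fun j _ => hm2 i j)]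
    refine ENNReal.sum_ne_top.mpr fun j _ => ?_
    rw [lintegral_const_mul _ (Measurable.tsum fun g => hΦm i j g)]
    exact ENNReal.mul_ne_top (ENNReal.mul_ne_top enorm_ne_top enorm_ne_top) (hfin i j)
  have hfinT : ∫⁻ y, ∑' g : G, ∫⁻ x, ‖lc c p y x‖ₑ * ‖lc d q x (g • y)‖ₑ ∂μ ∂ν ≠ ∞ :=
    ne_top_of_le_ne_top hfinS (lintegral_mono fun y => ENNReal.tsum_le_tsum fun g => hb y g)
  rw [hA.trace hw hB hK₁ hK₂ (e₂ := e₂) (fun g x y => by simp only [lc, h₂]) hfinT]
  -- almost everywhere finiteness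
  have hae : ∀ᵐ y ∂ν, ∀ i j, ∑' g : G, Φ i j y g < ∞ := by
    rw [ae_all_iff]; intro i
    rw [ae_all_iff]; intro j
    exact ae_lt_top (Measurable.tsum fun g => hΦm i j g) (hfin i j)
  have hle : ∀ i j y g, ‖cvK μ (p i) (q j) y (g • y)‖ₑ ≤ Φ i j y g := by
    intro i j y g
    refine (enorm_integral_le_lintegral_enorm _).trans (le_of_eq ?_)
    simp_rw [enorm_mul]
    rfl
  have hsm : ∀ᵐ y ∂ν, ∀ i j, Summable (fun g : G => cvK μ (p i) (q j) y (g • y)) := by
    filter_upwards [hae] with y hy i j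
    refine Summable.of_enorm ?_
    exact ((ENNReal.tsum_le_tsum fun g => hle i j y g).trans_lt (hy i j)).ne
  have hcv : ∀ᵐ y ∂ν, ∀ g : G, cvK μ (lc c p) (lc d q) y (g • y) =
      ∑ i, ∑ j, c i * d j * cvK μ (p i) (q j) y (g • y) := by
    filter_upwards [hae] with y hy g
    have hint : ∀ i j, Integrable (fun x => p i y x * q j x (g • y)) μ := by
      intro i j
      refine ⟨?_, ?_⟩
      · exact (((hp i).comp (measurable_const.prodMk measurable_id)).mul
          ((hq j).comp (measurable_id.prodMk measurable_const))).aestronglyMeasurable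
      · rw [HasFiniteIntegral]
        simp_rw [enorm_mul]
        exact (ENNReal.le_tsum g).trans_lt (hy i j)
    rw [cvK]
    have e : ∀ x, lc c p y x * lc d q x (g • y) =
        ∑ i, ∑ j, c i * d j * (p i y x * q j x (g • y)) := by
      intro x
      rw [lc, lc, Finset.sum_mul_sum]
      refine Finset.sum_congr rfl fun i _ => Finset.sum_congr rfl fun j _ => ?_
      ring
    simp_rw [e]
    rw [integral_finsetSum _ (fun i _ => integrable_finsetSum _ fun j _ => (hint i j).const_mul _)]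
    refine Finset.sum_congr rfl fun i _ => ?_
    rw [integral_finsetSum _ (fun j _ => (hint i j).const_mul _)]
    refine Finset.sum_congr rfl fun j _ => ?_
    rw [integral_const_mul, cvK]
  have hint2 : ∀ i j, Integrable (fun y => ∑' g : G, cvK μ (p i) (q j) y (g • y)) ν := by
    intro i j
    have hm : ∀ g : G, Measurable (fun y => cvK μ (p i) (q j) y (g • y)) := fun g =>
      (measurable_cvK (hp i) (hq j)).comp (measurable_id.prodMk (measurable_const_smul g))
    refine ⟨?_, ?_⟩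
    · refine aestronglyMeasurable_of_tendsto_ae (Filter.atTop : Filter (Finset G))
        (f := fun s y => ∑ g ∈ s, cvK μ (p i) (q j) y (g • y)) (fun s => ?_) ?_
      · exact (Finset.measurable_fun_sum s fun g _ => hm g).aestronglyMeasurable
      · filter_upwards [hsm] with y hy
        exact (hy i j).hasSum
    · refine lt_of_le_of_lt (lintegral_mono_ae ?_) (hfin i j).lt_top
      filter_upwards [hsm] with y hy
      refine le_trans ?_ (ENNReal.tsum_le_tsum fun g => hle i j y g)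
      exact enorm_tsum_le_tsum_enorm
  have e1 : ∫ y, ∑' g : G, cvK μ (lc c p) (lc d q) y (g • y) ∂ν =
      ∫ y, ∑ i, ∑ j, c i * d j * ∑' g : G, cvK μ (p i) (q j) y (g • y) ∂ν := by
    refine integral_congr_ae ?_
    filter_upwards [hsm, hcv] with y hy hy2
    simp_rw [hy2]
    rw [Summable.tsum_finsetSum (fun i _ => summable_sum fun j _ => (hy i j).mul_left _)]
    refine Finset.sum_congr rfl fun i _ => ?_
    rw [Summable.tsum_finsetSum (fun j _ => (hy i j).mul_left _)]
    refine Finset.sum_congr rfl fun j _ => ?_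
    rw [tsum_mul_left]
  rw [e1, integral_finsetSum _ (fun i _ => integrable_finsetSum _ fun j _ => (hint2 i j).const_mul _)]
  refine Finset.sum_congr rfl fun i _ => ?_
  rw [integral_finsetSum _ (fun j _ => (hint2 i j).const_mul _)]
  refine Finset.sum_congr rfl fun j _ => ?_
  rw [integral_const_mul]

end Fermat.Agent.LT.Spec
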