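import Fermat.Agent.LT.Spec.Top
import Fermat.Agent.LT.Mp.Good
import Fermat.Agent.LT.Sp.Integ
import Fermat.Agent.LT.Op.Tw
import Fermat.Agent.LT.Glob.Twist

set_option autoImplicit false
set_option linter.unusedSectionVars false
set_option linter.unusedVariables false

/-!
# Good matched pairs: absolute convergence of the geometric sides
-/

open scoped ENNReal NNReal MatrixGroups
open MeasureTheory ProbabilityTheory NumberField Matrix

universe w u u' i'

namespace Fermat.Agent.LT.Spec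

open Fermat.Agent.LT.FA Fermat.Agent.LT.Sp Fermat.Agent.LT.Op Fermat.Agent.LT.Mp
open Fermat.Agent.LT.Glob Fermat.Agent.LT.Mp.Ctx

section Gen

variable {F : Type*} [Field F] [NumberField F]

/-- a common radius of the archimedean supports -/
noncomputable def rad (κs : InfinitePlace F → IKer) : ℝ := 1 + ∑ w, |(κs w).R|

theorem one_le_rad (κs : InfinitePlace F → IKer) : 1 ≤ rad κs := by
  have : 0 ≤ ∑ w, |(κs w).R| := Finset.sum_nonneg fun _ _ => abs_nonneg _
  rw [rad]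
  linarith

theorem archK_supp {κs : InfinitePlace F → IKer} {p p' : HF F} (h : archK κs p p' ≠ 0)
    (w : InfinitePlace F) : H3.cd (p w) (p' w) ≤ rad κs := by
  have h1 : (κs w).k (p w) (p' w) ≠ 0 := Finset.prod_ne_zero_iff.mp h w (Finset.mem_univ w)
  have h2 : H3.cd (p w) (p' w) ≤ (κs w).R := by
    by_contra hcon
    exact h1 ((κs w).supp _ _ (not_le.mp hcon))
  have h3 : |(κs w).R| ≤ ∑ w, |(κs w).R| :=
    Finset.single_le_sum (f := fun w => |(κs w).R|) (fun _ _ => abs_nonneg _)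
      (Finset.mem_univ w)
  have h4 := le_abs_self (κs w).R
  rw [rad]
  linarith

/-- the bound for the norms of the multipliers -/
noncomputable def arB (κs : InfinitePlace F → IKer) : ℝ := (2 * rad κs) ^ (2 * rF F)

/-- weights of finite mass supported in a Siegel set -/
structure SWt {D : Type*} [MulAction (GL (Fin 2) F) D] [MeasurableSpace D] [FinPart F D]
    [DiscreteMeasurableSpace D] (w : HF F × D → ℝ≥0) : Prop where
  isWt : IsWt PGL(2, F) (muY F D) w
  supp : ∃ (R : ℝ) (D₁ : Finset D), 1 ≤ R ∧ ∀ y, y ∉ SS F R D₁ → w y = 0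
  fin : wtM (muY F D) w Set.univ < ∞

variable {D : Type*} [MulAction (GL (Fin 2) F) D] [MeasurableSpace D] [FinPart F D]
  [DiscreteMeasurableSpace D]

variable (F D) in
theorem exists_sWt [IsTotallyComplex F] [Countable D] : ∃ w : HF F × D → ℝ≥0, SWt w := by
  obtain ⟨R, D₁, hR, -, -, w, hw, -, hw0, hfin⟩ := exists_weight (F := F) (D := D)
  exact ⟨w, hw, ⟨R, D₁, hR, hw0⟩, hfin⟩

theorem SWt.isFinite {w : HF F × D → ℝ≥0} (hw : SWt w) :
    IsFiniteMeasure (wtM (muY F D) w) := ⟨hw.fin⟩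

theorem HypSupp.mono_gmp {T : Twist F D} {κ : D → D → Prop} {B B' : ℝ} (h : HypSupp T κ B')
    (hB : B ≤ B') : HypSupp T κ B := by
  intro d g hg hκ hcon
  refine h d g hg hκ ⟨hcon.1.trans hB, hcon.2.trans ?_⟩
  have h0 : (0 : ℝ) ≤ ((|Algebra.norm ℚ (g 0 0 / g 1 1)| : ℚ) : ℝ) := by positivity
  exact mul_le_mul_of_nonneg_right hB h0

/-- **Absolute convergence of the geometric side of a product kernel** -/
theorem lintegral_pk_ne_top [IsTotallyComplex F] [Countable D] (T : Twist F D)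
    {w : HF F × D → ℝ≥0} (hw : SWt w) (κs : InfinitePlace F → IKer) (κf : DKer F D)
    (hyp : HypSupp T (fun x y => κf.κ x y ≠ 0) (arB κs)) :
    ∫⁻ y, ∑' g : PGL(2, F), ‖pk κs κf y (g • T.act y)‖ₑ ∂(wtM (muY F D) w) ≠ ∞ := by
  obtain ⟨R, D₁, hR, hw0⟩ := hw.supp
  obtain ⟨M, hM0, hM⟩ := exists_arch_sup κs
  obtain ⟨M', hM0', hM'⟩ := exists_dker_sup κf
  refine (lintegral_tsum_lt_top T hR D₁ (rad κs) (fun x y => κf.κ x y ≠ 0)
    (fun d _ => κf.finite d) hyp (k := pk κs κf) (M * M') (fun x y => ?_) (fun x y hne => ?_)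
    hw.isWt.meas hw0 hw.fin).ne
  · rw [pk_apply, norm_mul, Complex.norm_real, Real.norm_eq_abs]
    exact mul_le_mul (hM _ _) (hM' _ _) (norm_nonneg _) hM0
  · rw [pk_apply] at hne
    refine ⟨archK_supp fun h => hne ?_, fun h => hne (by rw [h, mul_zero])⟩
    rw [h]; simp

/-- the identity twist -/
def idTw (F : Type*) [Field F] (D : Type*) [MulAction (GL (Fin 2) F) D] : Twist F D where
  θ := RingEquiv.refl F
  dm := Equiv.refl D
  dm_smul g d := by
    have : GeneralLinearGroup.map ((RingEquiv.refl F : F ≃+* F) : F →+* F) g = g := by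
      ext i j; rfl
    rw [this]
    rfl

theorem idTw_act (y : HF F × D) : (idTw F D).act y = y :=
  Prod.ext (thetaHF_refl y.1) rfl

theorem lintegral_pk_ne_top_id [IsTotallyComplex F] [Countable D]
    {w : HF F × D → ℝ≥0} (hw : SWt w) (κs : InfinitePlace F → IKer) (κf : DKer F D)
    (hyp : HypSupp (idTw F D) (fun x y => κf.κ x y ≠ 0) (arB κs)) :
    ∫⁻ y, ∑' g : PGL(2, F), ‖pk κs κf y (g • y)‖ₑ ∂(wtM (muY F D) w) ≠ ∞ := by
  have h := lintegral_pk_ne_top (idTw F D) hw κs κf hyp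
  simp_rw [idTw_act] at h
  exact h

end Gen

section Pairs

variable {k : Type u} {E : Type u'} [Field k] [Field E] [Algebra k E] [NumberField k]
  [NumberField E] {ι : Type i'} {X : Ctx.{w} k E ι} {S₀ : Submonoid X.Sym}

/-- the bound attached to the archimedean part of a matched pair -/
noncomputable def bdP (pl : Fin 3 → InfinitePlace k → InfinitePlace E)
    (κs : InfinitePlace E → IKer) : ℝ := max (arB κs) (arB (kk3 pl κs))

/-- **good matched pairs** -/
def GoodP (pl : Fin 3 → InfinitePlace k → InfinitePlace E) (r : MPt X S₀) : Prop :=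
  Ctx.IsGood r.2.1 (bdP pl r.1)

/-- **`hgood`** -/
theorem exists_goodP (pl : Fin 3 → InfinitePlace k → InfinitePlace E) {u : ℕ → S₀}
    (hex : ∀ (G : S₀) (B : ℝ), ∃ m₀ : ℕ, ∀ m, m₀ ≤ m → Ctx.IsGood (G.1 * (u m).1) B)
    (p p' : MPt X S₀) : ∃ m0, ∀ m, m0 ≤ m → GoodP pl (mulP p (UP u m p')) := by
  obtain ⟨m0, h⟩ := hex (p.2 * p'.2) (bdP pl (mulP p p').1)
  refine ⟨m0, fun m hm => ?_⟩
  have h1 := h m hm
  have e : ((p.2 * p'.2 : S₀) : X.Sym) * (u m).1 = (mulP p (UP u m p')).2.1 := by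
    show (p.2.1 * p'.2.1) * (u m).1 = p.2.1 * (p'.2.1 * (u m).1)
    exact mul_assoc _ _ _
  rw [e] at h1
  exact h1

variable [MeasurableSpace (LocFam.D X.UE)] [DiscreteMeasurableSpace (LocFam.D X.UE)]
  [Countable (LocFam.D X.UE)]
  [MeasurableSpace (LocFam.D X.Uk)] [DiscreteMeasurableSpace (LocFam.D X.Uk)]
  [Countable (LocFam.D X.Uk)]
  [IsTotallyComplex k] [IsTotallyComplex E]
  {wE : HF E × LocFam.D X.UE → ℝ≥0} {wk : HF k × LocFam.D X.Uk → ℝ≥0}

/-- **`hgE`** -/
theorem goodP_E (pl : Fin 3 → InfinitePlace k → InfinitePlace E) (hwE : SWt wE)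
    (hcub : X.A.IsCubic) (r : MPt X S₀) (hr : GoodP pl r) :
    ∫⁻ y, ∑' g : PGL(2, E), ‖(symE S₀).kM r y (g • (twD (LocFam.Auto.twist hcub X.pres)).θ y)‖ₑ
      ∂(wtM (muY E (LocFam.D X.UE)) wE) ≠ ∞ := by
  have h := (hr.hypE (LocFam.Auto.twist hcub X.pres) fun x => rfl)
  exact lintegral_pk_ne_top (LocFam.Auto.twist hcub X.pres) hwE r.1 (PE r.2.1).toDKer
    (HypSupp.mono_gmp h (le_max_left _ _))

/-- **`hgK`** -/
theorem goodP_K (pl : Fin 3 → InfinitePlace k → InfinitePlace E) (hwk : SWt wk)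
    (r : MPt X S₀) (hr : GoodP pl r) :
    ∫⁻ y, ∑' g : PGL(2, k), ‖(symK pl S₀).kM r y (g • y)‖ₑ
      ∂(wtM (muY k (LocFam.D X.Uk)) wk) ≠ ∞ := by
  have h := (hr.hypK (idTw k (LocFam.D X.Uk)) fun x => rfl)
  exact lintegral_pk_ne_top_id hwk (kk3 pl r.1) (PK r.2.1).toDKer
    (HypSupp.mono_gmp h (le_max_right _ _))

end Pairs

end Fermat.Agent.LT.Spec
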