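import Fermat.Agent.LT.Spec.Out
import Fermat.Agent.LT.Mp.Good
import Fermat.Agent.LT.Mp.FinCorr
import Fermat.Agent.LT.T3.Main
import Fermat.Agent.LT.Op.Tw
import Fermat.Agent.LT.Op.Ent
import Fermat.Agent.LT.Op.Conv
import Fermat.Agent.LT.Sp.NearB

set_option autoImplicit false
set_option linter.unusedSectionVars false
set_option linter.unusedVariables false

/-!
# The geometric identity for good symbols
-/

open scoped ENNReal NNReal MatrixGroups InnerProductSpace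
open MeasureTheory ProbabilityTheory NumberField Matrix

universe w u u' i'

namespace Fermat.Agent.LT.Spec

open Fermat.Agent.LT.FA Fermat.Agent.LT.Sp Fermat.Agent.LT.Op Fermat.Agent.LT.Mp
open Fermat.Agent.LT.Glob Fermat.Agent.LT.Mp.Ctx Fermat.Agent.LT.Tw

section Places

variable {k : Type u} {E : Type u'} [Field k] [Field E] [Algebra k E] [NumberField k]
  [NumberField E]

/-- the places above -/
noncomputable def plM (σ : E ≃ₐ[k] E) (ψ : InfinitePlace k → (E →+* ℂ)) :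
    Fin 3 → InfinitePlace k → InfinitePlace E :=
  ![fun v => InfinitePlace.mk (ψ v), fun v => InfinitePlace.mk ((ψ v).comp (σ : E →+* E)),
    fun v => InfinitePlace.mk (((ψ v).comp (σ : E →+* E)).comp (σ : E →+* E))]

variable {σ : E ≃ₐ[k] E} {ψ : InfinitePlace k → (E →+* ℂ)}

/-- the embedding with a given index -/
def jM (p : Fin 3 × InfinitePlace k) : T3.J3 k :=
  ![(Sum.inl p.2 : T3.J3 k), Sum.inr (Sum.inl p.2), Sum.inr (Sum.inr p.2)] p.1

theorem plM_eq (p : Fin 3 × InfinitePlace k) :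
    plM σ ψ p.1 p.2 = InfinitePlace.mk (T3.em σ ψ (jM p)) := by
  obtain ⟨j, v⟩ := p
  fin_cases j <;> rfl

theorem jM_injective : Function.Injective (jM (k := k)) := by
  rintro ⟨j, v⟩ ⟨j', v'⟩ h
  fin_cases j <;> fin_cases j' <;> simp_all [jM]

theorem jM_surjective : Function.Surjective (jM (k := k)) := by
  rintro (v | v | v)
  · exact ⟨(0, v), rfl⟩
  · exact ⟨(1, v), rfl⟩
  · exact ⟨(2, v), rfl⟩

theorem plM_injective (h : Cyc3 σ) [IsTotallyComplex k]
    (hψ : ∀ v, (ψ v).comp (algebraMap k E) = v.embedding) :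
    Function.Injective fun p : Fin 3 × InfinitePlace k => plM σ ψ p.1 p.2 := by
  intro p q hpq
  simp only [plM_eq] at hpq
  exact jM_injective (T3.em_injective h hψ hpq)

/-- the place below -/
noncomputable def bwM (k : Type*) {E : Type*} [Field k] [Field E] [Algebra k E]
    (w : InfinitePlace E) : InfinitePlace k := w.comap (algebraMap k E)

theorem bwM_plM (hψ : ∀ v, (ψ v).comp (algebraMap k E) = v.embedding) (j : Fin 3)
    (v : InfinitePlace k) : bwM k (plM σ ψ j v) = v := by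
  have key : ∀ φ : E →+* ℂ, φ.comp (algebraMap k E) = v.embedding →
      (InfinitePlace.mk φ).comap (algebraMap k E) = v := by
    intro φ hφ
    rw [InfinitePlace.comap_mk, hφ, InfinitePlace.mk_embedding]
  have h := T3.em_comp (σ := σ) hψ (jM (j, v))
  rw [bwM, show plM σ ψ j v = InfinitePlace.mk (T3.em σ ψ (jM (j, v))) from plM_eq (j, v)]
  refine key _ (h.trans ?_)
  fin_cases j <;> rfl

theorem exists_plM (h : Cyc3 σ) (hψ : ∀ v, (ψ v).comp (algebraMap k E) = v.embedding)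
    (a : InfinitePlace E) : ∃ j, plM σ ψ j (bwM k a) = a := by
  obtain ⟨i, hi⟩ := T3.em_surjective h hψ a
  obtain ⟨p, rfl⟩ := jM_surjective i
  simp only at hi
  rw [← plM_eq] at hi
  refine ⟨p.1, ?_⟩
  conv_lhs => rw [← hi]
  rw [bwM_plM hψ]
  exact hi

end Places

section Gen

variable {F : Type*} [Field F] [NumberField F] {D : Type*} [MulAction (GL (Fin 2) F) D]

theorem HypSupp.mono_B {T : Twist F D} {κ : D → D → Prop}
    {B B' : ℝ} (h : HypSupp T κ B') (hB : B ≤ B') : HypSupp T κ B := by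
  intro d g hg hκ hcon
  refine h d g hg hκ ⟨hcon.1.trans hB, hcon.2.trans ?_⟩
  refine mul_le_mul_of_nonneg_right hB ?_
  exact_mod_cast abs_nonneg _

end Gen

section Main

variable {k : Type u} {E : Type u'} [Field k] [Field E] [Algebra k E] [NumberField k]
  [NumberField E] [IsTotallyComplex k] [IsTotallyComplex E] {ι : Type i'} {X : Ctx.{w} k E ι}
  {S₀ : Submonoid X.Sym}

/-- the bound for the supports -/
noncomputable def bdM (pl : Fin 3 → InfinitePlace k → InfinitePlace E)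
    (κ : InfinitePlace E → IKer) : ℝ :=
  max ((2 * archRad κ) ^ (2 * rF E)) ((2 * archRad (kk3 pl κ)) ^ (2 * rF k))

/-- good pairs -/
def GoodM (pl : Fin 3 → InfinitePlace k → InfinitePlace E) (r : MPt X S₀) : Prop :=
  IsGood r.2.1 (bdM pl r.1)

variable {pl : Fin 3 → InfinitePlace k → InfinitePlace E}

theorem GoodM.hypE {r : MPt X S₀} (hr : GoodM pl r) (T : Twist E (LocFam.D X.UE))
    (hT : ∀ x, T.dm x = LocFam.Auto.dmap X.pres x) :
    HypSupp T (fun x y => (PE r.2.1).toDKer.κ x y ≠ 0) ((2 * archRad r.1) ^ (2 * rF E)) :=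
  HypSupp.mono_B (IsGood.hypE hr T hT) (le_max_left _ _)

theorem GoodM.hypK {r : MPt X S₀} (hr : GoodM pl r) :
    HypSupp (Twist.refl k (LocFam.D X.Uk)) (fun x y => (PK r.2.1).toDKer.κ x y ≠ 0)
      ((2 * archRad (kk3 pl r.1)) ^ (2 * rF k)) :=
  HypSupp.mono_B (IsGood.hypK hr (Twist.refl k _) fun _ => rfl) (le_max_right _ _)

/-- good pairs exist -/
theorem hgood_of {u : ℕ → S₀} (hu : ∀ (G : S₀) (B : ℝ), ∃ m₀ : ℕ, ∀ m, m₀ ≤ m →
    IsGood (G.1 * (u m).1) B) (p p' : MPt X S₀) :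
    ∃ m0, ∀ m, m0 ≤ m → GoodM pl (mulP p (UP u m p')) := by
  obtain ⟨m0, hm0⟩ := hu (p.2 * p'.2) (bdM pl fun w => IKer.comp (p.1 w) (p'.1 w))
  refine ⟨m0, fun m hm => ?_⟩
  have h := hm0 m hm
  have e : (mulP p (UP u m p')).2.1 = (p.2 * p'.2).1 * (u m).1 := by
    show (p.2 * (p'.2 * u m)).1 = (p.2 * p'.2).1 * (u m).1
    rw [← mul_assoc]
    rfl
  show IsGood (mulP p (UP u m p')).2.1 _
  rw [e]
  exact h

variable [MeasurableSpace (LocFam.D X.UE)] [DiscreteMeasurableSpace (LocFam.D X.UE)]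
  [Countable (LocFam.D X.UE)]
  [MeasurableSpace (LocFam.D X.Uk)] [DiscreteMeasurableSpace (LocFam.D X.Uk)]
  [Countable (LocFam.D X.Uk)]
  (WE : SW E (LocFam.D X.UE)) (WK : SW k (LocFam.D X.Uk))

include WE in
/-- absolute convergence, `E`-side -/
theorem hgE_of (T : Twist E (LocFam.D X.UE)) (hT : ∀ x, T.dm x = LocFam.Auto.dmap X.pres x)
    (r : MPt X S₀) (hr : GoodM pl r) :
    ∫⁻ y, ∑' g : PGL(2, E), ‖(symE S₀).kM r y (g • (twD T).θ y)‖ₑ
      ∂(wtM (muY E (LocFam.D X.UE)) WE.w) ≠ ∞ :=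
  lintegral_pk_ne_top WE T r.1 (PE r.2.1).toDKer (hr.hypE T hT)

include WK in
/-- absolute convergence, `k`-side -/
theorem hgK_of (r : MPt X S₀) (hr : GoodM pl r) :
    ∫⁻ y, ∑' g : PGL(2, k), ‖(symK pl S₀).kM r y (g • y)‖ₑ
      ∂(wtM (muY k (LocFam.D X.Uk)) WK.w) ≠ ∞ :=
  lintegral_pk_refl_ne_top WK (kk3 pl r.1) (PK r.2.1).toDKer hr.hypK

variable {σ : E ≃ₐ[k] E} {ψ : InfinitePlace k → (E →+* ℂ)}
  (hψ : ∀ v, (ψ v).comp (algebraMap k E) = v.embedding)

include hψ in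
/-- **The geometric identity.** -/
theorem hmatch_of (hσ : Cyc3 σ) 
    (hθ : ∀ a, X.A.θ a = σ a) (T : Twist E (LocFam.D X.UE)) (hTθ : T.θ = (σ : E ≃+* E))
    (hT : ∀ x, T.dm x = LocFam.Auto.dmap X.pres x)
    (hN : ∀ (G : X.Sym) (γ : GL (Fin 2) k) (x : LocFam.D X.Uk), (PK G).ker x (γ • x) ≠ 0 →
      Ell (γ : Matrix (Fin 2) (Fin 2) k) →
      ∃ t : GL (Fin 2) E, nm σ t = bc (Tw.sc (GeneralLinearGroup.det γ) * γ))
    (r : MPt X S₀) (hr : GoodM (plM σ ψ) r) :
    ∫ y, ∑' g : PGL(2, E), (symE S₀).kM r y (g • (twD T).θ y)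
        ∂(wtM (muY E (LocFam.D X.UE)) WE.w) =
      ∫ y, ∑' g : PGL(2, k), (symK (plM σ ψ) S₀).kM r y (g • y)
        ∂(wtM (muY k (LocFam.D X.Uk)) WK.w) := by
  have hnm : ∀ t : GL (Fin 2) E, t * GeneralLinearGroup.map (X.A.θ : E →+* E) t *
      GeneralLinearGroup.map (X.A.θ : E →+* E) (GeneralLinearGroup.map (X.A.θ : E →+* E) t) =
      nm σ t := by
    intro t
    have h1 : ∀ g : GL (Fin 2) E, GeneralLinearGroup.map (X.A.θ : E →+* E) g = sg σ g := by
      intro g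
      ext i j
      exact hθ _
    rw [h1, h1]
    rfl
  have hTθ' : ∀ a, T.θ a = σ a := by
    intro a
    rw [hTθ]
    rfl
  refine T3.trace_match hσ hψ T hTθ r.1 (kk3 (plM σ ψ) r.1) (fun v p p' => rfl)
    (PE r.2.1).toDKer (PK r.2.1).toDKer (Ctx.finCorr X T hθ hT r.2.1) WE.isWt WK.isWt ?_ ?_ ?_ ?_ ?_
  · intro t y hy
    have h1 := pk_ne_zero hy
    have h2 : (PE r.2.1).ker y.2 (t • T.act y).2 ≠ 0 := h1.2
    have h3 : (PE r.2.1).ker y.2 (t • LocFam.Auto.dmap X.pres y.2) ≠ 0 := by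
      rw [← hT]; exact h2
    have hns := IsGood.nsE hr t y.2 h3
    have htr := IsGood.trE hr t y.2 h3
    rw [hnm] at hns htr
    refine ⟨?_, htr⟩
    refine ell_nm_of_near hσ hTθ' (κ := fun x y => (PE r.2.1).toDKer.κ x y ≠ 0)
      (fun g d d' h => ?_) (hr.hypE T hT) hns h1.1 h2
    rwa [(PE r.2.1).toDKer.smul]
  · intro g x hx
    have h1 := pk_ne_zero hx
    have h2 : (PK r.2.1).ker x.2 (g • x.2) ≠ 0 := h1.2
    refine ⟨?_, IsGood.trK hr g x.2 h2⟩
    refine ell_of_near (T := Twist.refl k (LocFam.D X.Uk)) (fun a => rfl)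
      (κ := fun x y => (PK r.2.1).toDKer.κ x y ≠ 0) (fun g d d' h => ?_) hr.hypK (y := x) ?_ ?_
    · rwa [(PK r.2.1).toDKer.smul]
    · rw [Twist.refl_act]; exact h1.1
    · rw [Twist.refl_act]; exact h2
  · intro g x hx hE
    exact hN r.2.1 g x.2 (pk_ne_zero hx).2 hE
  · exact (tsum_lintegral_pk_lt_top WE T r.1 (PE r.2.1).toDKer (hr.hypE T hT)).ne
  · have h := tsum_lintegral_pk_lt_top WK (Twist.refl k (LocFam.D X.Uk)) (kk3 (plM σ ψ) r.1)
      (PK r.2.1).toDKer hr.hypK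
    simp_rw [Twist.refl_act] at h
    exact h.ne

end Main

end Fermat.Agent.LT.Spec
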