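import Fermat.Agent.LT.FA.FK
import Fermat.Agent.LT.Spec.Bil

set_option autoImplicit false
set_option linter.unusedSectionVars false
set_option linter.unusedVariables false

/-!
# The twisted trace of products of combinations of kernels

Only the integrability of the products of the kernels is needed.
-/

open scoped ENNReal NNReal InnerProductSpace
open MeasureTheory ProbabilityTheory

namespace Fermat.Agent.LT.Spec

open Fermat.Agent.LT.FA

variable {G Y : Type*} [Group G] [MulAction G Y] [MeasurableSpace Y] [MeasurableConstSMul G Y]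
  {μ : Measure Y} [SMulInvariantMeasure G Y μ] [Countable G] {w : Y → ℝ≥0}

/-- the trace under pointwise finiteness -/
theorem trace_pt [SigmaFinite μ] [SigmaFinite (wtM μ w)]
    [TopologicalSpace.SeparableSpace (Lp ℂ 2 (wtM μ w))] (hw : IsWt G μ w)
    {A B : HA G μ →L[ℂ] HA G μ} {k₁ k₂ : Y → Y → ℂ}
    (hA : KRep A k₁) (hB : KRep B k₂) (hK₁ : IsL2Ker₂ (wtM μ w) (perK G k₁))
    (hK₂ : IsL2Ker₂ (wtM μ w) (perK G k₂)) {e₂ : G → G}
    (h₂ : ∀ (g : G) x y, k₂ (g • x) (e₂ g • y) = k₂ x y)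
    (hae : ∀ᵐ y ∂(wtM μ w), ∑' g : G, ∫⁻ x, ‖k₁ y x‖ₑ * ‖k₂ x (g • y)‖ₑ ∂μ ≠ ∞) :
    hsTrace A B = ∫ y, ∑' g : G, cvK μ k₁ k₂ y (g • y) ∂(wtM μ w) := by
  rw [hsTrace_comm (hA.isHS hw hK₁.toIsL2Ker) (hB.isHS hw hK₂.toIsL2Ker),
    hB.hsTrace_eq hw hA hK₂ hK₁]
  refine integral_congr_ae ?_
  filter_upwards [hae] with y hy
  have hm1 : ∀ g : G, AEStronglyMeasurable (fun x => k₁ y x * k₂ x (g • y)) μ := fun g => by
    refine Measurable.aestronglyMeasurable ?_
    exact (hA.meas.comp (measurable_const.prodMk measurable_id)).mul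
      (hB.meas.comp (measurable_id.prodMk measurable_const))
  have hs : ∑' g : G, ∫⁻ x, ‖k₁ y x * k₂ x (g • y)‖ₑ ∂μ ≠ ∞ := by
    simp_rw [enorm_mul]
    exact hy
  have hint := integrable_tsum hm1 hs
  have e1 : ∀ x, ∑' g : G, k₁ y x * k₂ x (g • y) = k₁ y x * perK G k₂ x y := fun x =>
    tsum_mul_left
  simp_rw [e1] at hint
  have h3 := hw.integral_sum hint
  have e2 : ∀ x, ∑' g : G, k₁ y (g • x) * perK G k₂ (g • x) y = perK G k₁ y x * perK G k₂ x y := by
    intro x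
    simp_rw [perK_smul_left h₂]
    rw [tsum_mul_right]
    rfl
  simp_rw [e2] at h3
  rw [h3]
  simp_rw [← e1]
  rw [MeasureTheory.integral_tsum hm1 hs]
  rfl

/-- the twisted trace under pointwise finiteness -/
theorem trace_twisted_pt [SigmaFinite μ] [SigmaFinite (wtM μ w)]
    [TopologicalSpace.SeparableSpace (Lp ℂ 2 (wtM μ w))] (hw : IsWt G μ w) (D : TwD G μ)
    {A B : HA G μ →L[ℂ] HA G μ} {k₁ k₂ : Y → Y → ℂ}
    (hA : KRep A k₁) (hB : KRep B k₂) (hK₁ : IsL2Ker₂ (wtM μ w) (perK G k₁))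
    (hK₂ : IsL2Ker₂ (wtM μ w) (fun x y => perK G k₂ x (D.θ y)))
    (h₂ : ∀ (g : G) x y, k₂ (g • x) (g • y) = k₂ x y)
    (hae : ∀ᵐ y ∂(wtM μ w), ∑' g : G, ∫⁻ x, ‖k₁ y x‖ₑ * ‖k₂ x (g • D.θ y)‖ₑ ∂μ ≠ ∞) :
    hsTrace A (B * D.op hw) = ∫ y, ∑' g : G, cvK μ k₁ k₂ y (g • D.θ y) ∂(wtM μ w) := by
  have hper : perK G (fun x y => k₂ x (D.θ y)) = fun x y => perK G k₂ x (D.θ y) :=
    funext fun x => funext fun y => perK_twist D k₂ x y
  have h3 := trace_pt hw hA (hB.mul_op D hw) hK₁ (by rw [hper]; exact hK₂) (e₂ := D.e.symm)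
    (fun g x y => by
      change k₂ (g • x) (D.θ (D.e.symm g • y)) = k₂ x (D.θ y)
      rw [D.smul]
      simp [h₂]) (by
      filter_upwards [hae] with y hy
      convert hy using 1
      rw [← D.e.toEquiv.tsum_eq (fun g : G => ∫⁻ x, ‖k₁ y x‖ₑ * ‖k₂ x (g • D.θ y)‖ₑ ∂μ)]
      refine tsum_congr fun g => ?_
      rw [D.smul]
      rfl)
  rw [h3]
  refine integral_congr_ae (Filter.Eventually.of_forall fun y => ?_)
  change ∑' g : G, cvK μ k₁ (fun x y => k₂ x (D.θ y)) y (g • y) =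
    ∑' g : G, cvK μ k₁ k₂ y (g • D.θ y)
  rw [← D.e.toEquiv.tsum_eq (fun g : G => cvK μ k₁ k₂ y (g • D.θ y))]
  refine tsum_congr fun g => ?_
  rw [cvK, cvK]
  simp_rw [D.smul]
  rfl

variable {MP : Type*}

/-- combinations of operators with kernels -/
theorem kRep_lcO (hw : IsWt G μ w) {O : MP → HA G μ →L[ℂ] HA G μ} {k : MP → Y → Y → ℂ}
    (h : ∀ p, KRep (O p) (k p)) (X : MP →₀ ℂ) : KRep (lcO O X) (lk k X) := by
  have h1 := KRep.sum hw X.support (A := fun p => X p • O p) (k := fun p x y => X p * k p x y)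
    fun p _ => (h p).smul hw (X p)
  exact h1

theorem lk_smul {k : MP → Y → Y → ℂ} (h : ∀ p (g : G) x y, k p (g • x) (g • y) = k p x y)
    (X : MP →₀ ℂ) (g : G) (x y : Y) : lk k X (g • x) (g • y) = lk k X x y := by
  rw [lk, lk]
  simp_rw [h]

theorem integrable_of_isFK [SFinite μ] {k₁ k₂ : Y → Y → ℂ} (hm₁ : Measurable (Function.uncurry k₁))
    (hm₂ : Measurable (Function.uncurry k₂)) {x z : Y}
    (h : ∫⁻ y, ‖k₁ x y‖ₑ * ‖k₂ y z‖ₑ ∂μ ≠ ∞) : Integrable (fun y => k₁ x y * k₂ y z) μ := by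
  refine ⟨Measurable.aestronglyMeasurable ?_, ?_⟩
  · exact (hm₁.comp (measurable_const.prodMk measurable_id)).mul
      (hm₂.comp (measurable_id.prodMk measurable_const))
  · rw [HasFiniteIntegral]
    simp_rw [enorm_mul]
    exact h.lt_top

/-- **The twisted trace of products of combinations.** -/
theorem trace_lk [SigmaFinite μ] [IsFiniteMeasure (wtM μ w)]
    [TopologicalSpace.SeparableSpace (Lp ℂ 2 (wtM μ w))] (hw : IsWt G μ w) (D : TwD G μ)
    {O M : MP → HA G μ →L[ℂ] HA G μ} {kO kM : MP → Y → Y → ℂ} {mul : MP → MP → MP}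
    (hO : ∀ p, KRep (O p) (kO p)) (hM : ∀ p, KRep (M p) (kM p))
    (hMi : ∀ p (g : G) x y, kM p (g • x) (g • y) = kM p x y)
    (hmul : ∀ p q x z, cvK μ (kO p) (kM q) x z = kM (mul p q) x z)
    (hpt : ∀ p q y, ∑' g : G, ∫⁻ x, ‖kO p y x‖ₑ * ‖kM q x (g • D.θ y)‖ₑ ∂μ ≠ ∞)
    {X Z : MP →₀ ℂ} (hX : ∃ C, ∀ x y, ‖perK G (lk kO X) x y‖ ≤ C)
    (hZ : ∃ C, ∀ x y, ‖perK G (lk kM Z) x y‖ ≤ C)
    (hgood : ∀ p ∈ X.support, ∀ q ∈ Z.support,
      ∫⁻ y, ∑' g : G, ‖kM (mul p q) y (g • D.θ y)‖ₑ ∂(wtM μ w) ≠ ∞) :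
    hsTrace (lcO O X) (lcO M Z * D.op hw) =
      geo mul (fun r => ∫ y, ∑' g : G, kM r y (g • D.θ y) ∂(wtM μ w)) X Z := by
  classical
  have hX' := kRep_lcO hw hO X
  have hZ' := kRep_lcO hw hM Z
  have hZi : ∀ (g : G) x y, lk kM Z (g • x) (g • y) = lk kM Z x y := lk_smul hMi Z
  obtain ⟨C₁, hC₁⟩ := hX
  obtain ⟨C₂, hC₂⟩ := hZ
  have hK₁ : IsL2Ker₂ (wtM μ w) (perK G (lk kO X)) :=
    isL2Ker₂_of_bound (measurable_perK hX'.meas).stronglyMeasurable hC₁
  have hK₂ : IsL2Ker₂ (wtM μ w) (fun x y => perK G (lk kM Z) x (D.θ y)) := by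
    refine isL2Ker₂_of_bound ?_ fun x y => hC₂ x (D.θ y)
    exact ((measurable_perK hZ'.meas).comp
      (measurable_fst.prodMk (D.θ.measurable.comp measurable_snd))).stronglyMeasurable
  -- expansion of the convolution
  have hle : ∀ (y : Y) (g : G), ∫⁻ x, ‖lk kO X y x‖ₑ * ‖lk kM Z x (g • D.θ y)‖ₑ ∂μ ≤
      ∑ p ∈ X.support, ∑ q ∈ Z.support, (‖X p‖ₑ * ‖Z q‖ₑ) *
        ∫⁻ x, ‖kO p y x‖ₑ * ‖kM q x (g • D.θ y)‖ₑ ∂μ := by
    intro y g
    have hm : ∀ p q, Measurable (fun x => ‖kO p y x‖ₑ * ‖kM q x (g • D.θ y)‖ₑ) := by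
      intro p q
      exact (((hO p).meas.comp (measurable_const.prodMk measurable_id)).enorm).mul
        (((hM q).meas.comp (measurable_id.prodMk measurable_const)).enorm)
    have e : ∑ p ∈ X.support, ∑ q ∈ Z.support, (‖X p‖ₑ * ‖Z q‖ₑ) *
        ∫⁻ x, ‖kO p y x‖ₑ * ‖kM q x (g • D.θ y)‖ₑ ∂μ =
        ∫⁻ x, ∑ p ∈ X.support, ∑ q ∈ Z.support, (‖X p‖ₑ * ‖Z q‖ₑ) *
          (‖kO p y x‖ₑ * ‖kM q x (g • D.θ y)‖ₑ) ∂μ := by
      rw [lintegral_finsetSum _ (fun p _ => Finset.measurable_fun_sum _ fun q _ =>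
        (hm p q).const_mul _)]
      refine Finset.sum_congr rfl fun p _ => ?_
      rw [lintegral_finsetSum _ (fun q _ => (hm p q).const_mul _)]
      refine Finset.sum_congr rfl fun q _ => ?_
      rw [lintegral_const_mul _ (hm p q)]
    rw [e]
    refine lintegral_mono fun x => ?_
    have h1 : ‖lk kO X y x‖ₑ ≤ ∑ p ∈ X.support, ‖X p‖ₑ * ‖kO p y x‖ₑ := by
      refine (enorm_sum_le _ _).trans (le_of_eq ?_)
      exact Finset.sum_congr rfl fun i _ => enorm_mul _ _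
    have h2 : ‖lk kM Z x (g • D.θ y)‖ₑ ≤
        ∑ q ∈ Z.support, ‖Z q‖ₑ * ‖kM q x (g • D.θ y)‖ₑ := by
      refine (enorm_sum_le _ _).trans (le_of_eq ?_)
      exact Finset.sum_congr rfl fun i _ => enorm_mul _ _
    refine (mul_le_mul' h1 h2).trans (le_of_eq ?_)
    rw [Finset.sum_mul_sum]
    refine Finset.sum_congr rfl fun i _ => Finset.sum_congr rfl fun j _ => ?_
    ring
  have hall : ∀ y, ∑' g : G, ∫⁻ x, ‖lk kO X y x‖ₑ * ‖lk kM Z x (g • D.θ y)‖ₑ ∂μ ≠ ∞ := by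
    intro y
    refine ne_top_of_le_ne_top ?_ (ENNReal.tsum_le_tsum fun g => hle y g)
    rw [Summable.tsum_finsetSum (fun i _ => ENNReal.summable)]
    refine ENNReal.sum_ne_top.mpr fun p _ => ?_
    rw [Summable.tsum_finsetSum (fun i _ => ENNReal.summable)]
    refine ENNReal.sum_ne_top.mpr fun q _ => ?_
    rw [ENNReal.tsum_mul_left]
    exact ENNReal.mul_ne_top (ENNReal.mul_ne_top enorm_ne_top enorm_ne_top) (hpt p q y)
  rw [trace_twisted_pt hw D hX' hZ' hK₁ hK₂ hZi (Filter.Eventually.of_forall hall)]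
  -- the convolution of the combinations
  have hcv : ∀ (y : Y) (g : G), cvK μ (lk kO X) (lk kM Z) y (g • D.θ y) =
      ∑ p ∈ X.support, ∑ q ∈ Z.support, X p * Z q * kM (mul p q) y (g • D.θ y) := by
    intro y g
    have hint : ∀ p q, Integrable (fun x => kO p y x * kM q x (g • D.θ y)) μ := fun p q =>
      integrable_of_isFK (hO p).meas (hM q).meas
        (ne_top_of_le_ne_top (hpt p q y) (ENNReal.le_tsum g))
    have e1 : ∀ x, lk kO X y x * lk kM Z x (g • D.θ y) =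
        ∑ p ∈ X.support, ∑ q ∈ Z.support, X p * Z q * (kO p y x * kM q x (g • D.θ y)) := by
      intro x
      rw [lk, lk, Finsupp.sum, Finsupp.sum, Finset.sum_mul_sum]
      refine Finset.sum_congr rfl fun p _ => Finset.sum_congr rfl fun q _ => ?_
      ring
    rw [cvK]
    simp_rw [e1]
    rw [integral_finsetSum _ fun p _ => integrable_finsetSum _ fun q _ => (hint p q).const_mul _]
    refine Finset.sum_congr rfl fun p _ => ?_
    rw [integral_finsetSum _ fun q _ => (hint p q).const_mul _]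
    refine Finset.sum_congr rfl fun q _ => ?_
    rw [integral_const_mul, ← hmul]
    rfl
  simp_rw [hcv]
  have hkm : ∀ r (g : G), Measurable (fun y => kM r y (g • D.θ y)) := fun r g =>
    (hM r).meas.comp (measurable_id.prodMk ((measurable_const_smul g).comp D.θ.measurable))
  have hae : ∀ᵐ y ∂(wtM μ w), ∀ p ∈ X.support, ∀ q ∈ Z.support,
      Summable (fun g : G => kM (mul p q) y (g • D.θ y)) := by
    rw [Filter.eventually_all_finset]
    intro p hp
    rw [Filter.eventually_all_finset]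
    intro q hq
    have h1 := ae_lt_top (Measurable.tsum fun g : G => (hkm (mul p q) g).enorm) (hgood p hp q hq)
    filter_upwards [h1] with y hy
    exact Summable.of_enorm hy.ne
  have e2 : ∫ y, ∑' g : G, ∑ p ∈ X.support, ∑ q ∈ Z.support,
      X p * Z q * kM (mul p q) y (g • D.θ y) ∂(wtM μ w) =
      ∫ y, ∑ p ∈ X.support, ∑ q ∈ Z.support,
        X p * Z q * ∑' g : G, kM (mul p q) y (g • D.θ y) ∂(wtM μ w) := by
    refine integral_congr_ae ?_
    filter_upwards [hae] with y hy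
    rw [Summable.tsum_finsetSum (fun p hp => summable_sum fun q hq => (hy p hp q hq).mul_left _)]
    refine Finset.sum_congr rfl fun p hp => ?_
    rw [Summable.tsum_finsetSum (fun q hq => (hy p hp q hq).mul_left _)]
    refine Finset.sum_congr rfl fun q hq => ?_
    rw [tsum_mul_left]
  have hI : ∀ p ∈ X.support, ∀ q ∈ Z.support,
      Integrable (fun y => ∑' g : G, kM (mul p q) y (g • D.θ y)) (wtM μ w) := by
    intro p hp q hq
    refine ⟨(Measurable.tsum fun g => hkm (mul p q) g).aestronglyMeasurable, ?_⟩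
    refine lt_of_le_of_lt (lintegral_mono fun y => ?_) (hgood p hp q hq).lt_top
    exact enorm_tsum_le_tsum_enorm
  rw [e2, integral_finsetSum _ fun p hp => integrable_finsetSum _ fun q hq =>
    (hI p hp q hq).const_mul _, geo, Finsupp.sum]
  refine Finset.sum_congr rfl fun p hp => ?_
  rw [integral_finsetSum _ fun q hq => (hI p hp q hq).const_mul _, Finsupp.sum]
  refine Finset.sum_congr rfl fun q hq => ?_
  rw [integral_const_mul]

end Fermat.Agent.LT.Spec
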